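import Mathlib
import Fermat.Prelude.Def_ExtCitation_AdmissibleExtension_v2

set_option autoImplicit false

/-!
# S14, chunk (a2K): the cyclotomic field `ℚ(ζ_p)` inside `AlgebraicClosure ℚ`

`cycloKf p := ℚ(ζ_p) ⊆ AlgebraicClosure ℚ` as an intermediate field; it is a number field, a
`p`-th cyclotomic extension of `ℚ`, Galois over `ℚ`; its fixing subgroup is the kernel of the
prelude's `cycloExp`, and `galEquivZMod` of the restriction of `s` is `cycloExp p s`.
-/

namespace Fermat.Agent.CFT.S14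

open IsCyclotomicExtension IsCyclotomicExtension.Rat

/-- `AlgebraicClosure ℚ` is algebraic over `ℚ` (for the `ℚ`-algebra structure found by instance
resolution, which is `DivisionRing.toRatAlgebra`). -/
instance isAlgebraic_rat_algebraicClosure : Algebra.IsAlgebraic ℚ (AlgebraicClosure ℚ) :=
  AlgebraicClosure.isAlgebraic ℚ

instance isIntegral_rat_algebraicClosure : Algebra.IsIntegral ℚ (AlgebraicClosure ℚ) :=
  Algebra.IsAlgebraic.isIntegral

instance isAlgClosure_rat_algebraicClosure : IsAlgClosure ℚ (AlgebraicClosure ℚ) :=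
  ⟨inferInstance, inferInstance⟩

instance normal_rat_algebraicClosure : Normal ℚ (AlgebraicClosure ℚ) :=
  IsAlgClosure.normal ℚ (AlgebraicClosure ℚ)

instance isGalois_rat_algebraicClosure : IsGalois ℚ (AlgebraicClosure ℚ) where

variable (p : ℕ) [hp : Fact p.Prime]

/-- A chosen primitive `p`-th root of unity in `AlgebraicClosure ℚ`. -/
noncomputable def zetaQbar : AlgebraicClosure ℚ :=
  (HasEnoughRootsOfUnity.exists_primitiveRoot (AlgebraicClosure ℚ) p).choose

theorem zetaQbar_spec : IsPrimitiveRoot (zetaQbar p) p :=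
  (HasEnoughRootsOfUnity.exists_primitiveRoot (AlgebraicClosure ℚ) p).choose_spec

/-- The field `ℚ(ζ_p)` inside `AlgebraicClosure ℚ`. -/
noncomputable def cycloKf : IntermediateField ℚ (AlgebraicClosure ℚ) :=
  IntermediateField.adjoin ℚ {zetaQbar p}

instance cycloKf_isCyclotomicExtension : IsCyclotomicExtension {p} ℚ (cycloKf p) :=
  (zetaQbar_spec p).intermediateField_adjoin_isCyclotomicExtension ℚ

instance cycloKf_finiteDimensional : FiniteDimensional ℚ (cycloKf p) :=
  IsCyclotomicExtension.finiteDimensional {p} ℚ (cycloKf p)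

instance cycloKf_numberField : NumberField (cycloKf p) :=
  IsCyclotomicExtension.numberField {p} ℚ (cycloKf p)

instance cycloKf_isGalois : IsGalois ℚ (cycloKf p) :=
  IsCyclotomicExtension.isGalois {p} ℚ (cycloKf p)

theorem zetaQbar_mem : zetaQbar p ∈ cycloKf p :=
  IntermediateField.mem_adjoin_simple_self ℚ _

/-- `ζ_p` as an element of `cycloKf p`. -/
noncomputable def zetaKf : cycloKf p := ⟨zetaQbar p, zetaQbar_mem p⟩

theorem zetaKf_spec : IsPrimitiveRoot (zetaKf p) p :=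
  IsPrimitiveRoot.coe_submonoidClass_iff.mp (zetaQbar_spec p)

/-- The defining property of the prelude's `cycloExp`. -/
theorem map_zetaQbar (s : AlgebraicClosure ℚ ≃ₐ[ℚ] AlgebraicClosure ℚ) :
    s (zetaQbar p) = zetaQbar p ^ ExtCitation.cycloExp p s := by
  have hp0 : NeZero p := ⟨hp.out.ne_zero⟩
  have hmem : (zetaQbar_spec p).toRootsOfUnity.1 ∈ rootsOfUnity p (AlgebraicClosure ℚ) :=
    (zetaQbar_spec p).toRootsOfUnity.2
  have := modularCyclotomicCharacter.spec (AlgebraicClosure ℚ)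
    (ExtCitation.card_rootsOfUnity_eq_self p) (s : AlgebraicClosure ℚ ≃+* AlgebraicClosure ℚ) hmem
  simpa [ExtCitation.cycloExp] using this


theorem cycloExp_lt (s : AlgebraicClosure ℚ ≃ₐ[ℚ] AlgebraicClosure ℚ) :
    ExtCitation.cycloExp p s < p := by
  have hp0 : NeZero p := ⟨hp.out.ne_zero⟩
  exact ZMod.val_lt _

/-- The fixing subgroup of `ℚ(ζ_p)` is the kernel of the cyclotomic character `cycloExp`. -/
theorem mem_fixingSubgroup_cycloKf_iff (s : AlgebraicClosure ℚ ≃ₐ[ℚ] AlgebraicClosure ℚ) :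
    s ∈ (cycloKf p).fixingSubgroup ↔ ExtCitation.cycloExp p s = 1 := by
  constructor
  · intro hs
    have h1 : s (zetaQbar p) = zetaQbar p :=
      (IntermediateField.mem_fixingSubgroup_iff _ _).mp hs _ (zetaQbar_mem p)
    rw [map_zetaQbar] at h1
    exact (zetaQbar_spec p).pow_inj (cycloExp_lt p s) hp.out.one_lt (by rw [h1, pow_one])
  · intro hs
    have h1 : s (zetaQbar p) = zetaQbar p := by rw [map_zetaQbar, hs, pow_one]
    have hstab : Subgroup.zpowers s ≤
        MulAction.stabilizer (AlgebraicClosure ℚ ≃ₐ[ℚ] AlgebraicClosure ℚ) (zetaQbar p) :=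
      Subgroup.zpowers_le.mpr (by rw [MulAction.mem_stabilizer_iff]; exact h1)
    have h2 : cycloKf p ≤ IntermediateField.fixedField (Subgroup.zpowers s) := by
      rw [cycloKf, IntermediateField.adjoin_le_iff]
      intro x hx
      rw [Set.mem_singleton_iff] at hx
      subst hx
      rintro ⟨t, ht⟩
      exact MulAction.mem_stabilizer_iff.mp (hstab ht)
    exact (IntermediateField.le_iff_le _ _).mp h2 (Subgroup.mem_zpowers s)

/-- `galEquivZMod` of the restriction of `s` to `ℚ(ζ_p)` is `cycloExp p s`. -/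
theorem galEquivZMod_restrictNormal_val (s : AlgebraicClosure ℚ ≃ₐ[ℚ] AlgebraicClosure ℚ) :
    ((galEquivZMod p (cycloKf p) (AlgEquiv.restrictNormal s (cycloKf p)) : (ZMod p)ˣ) : ZMod p).val
      = ExtCitation.cycloExp p s := by
  have hp0 : NeZero p := ⟨hp.out.ne_zero⟩
  have h1 := galEquivZMod_apply_of_pow_eq p (cycloKf p) (AlgEquiv.restrictNormal s (cycloKf p))
    (zetaKf_spec p).pow_eq_one
  have h2 : ((AlgEquiv.restrictNormal s (cycloKf p) (zetaKf p) : cycloKf p) : AlgebraicClosure ℚ)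
      = s (zetaQbar p) := AlgEquiv.restrictNormal_commutes s (cycloKf p) (zetaKf p)
  rw [h1, map_zetaQbar] at h2
  have h3 : zetaQbar p ^ ((galEquivZMod p (cycloKf p)
      (AlgEquiv.restrictNormal s (cycloKf p)) : (ZMod p)ˣ) : ZMod p).val =
      zetaQbar p ^ ExtCitation.cycloExp p s := by
    rw [← h2]; rfl
  exact (zetaQbar_spec p).pow_inj (ZMod.val_lt _) (cycloExp_lt p s) h3

/-- For `p ≥ 3` the cyclotomic character is nontrivial. -/
theorem exists_cycloExp_ne_one (h3 : 3 ≤ p) :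
    ∃ s0 : AlgebraicClosure ℚ ≃ₐ[ℚ] AlgebraicClosure ℚ, ExtCitation.cycloExp p s0 ≠ 1 := by
  have hp1 : Fact (1 < p) := ⟨hp.out.one_lt⟩
  obtain ⟨s0, hs0⟩ := AlgEquiv.restrictNormalHom_surjective (F := ℚ) (K₁ := cycloKf p)
    (AlgebraicClosure ℚ) ((galEquivZMod p (cycloKf p)).symm (-1))
  refine ⟨s0, ?_⟩
  rw [← galEquivZMod_restrictNormal_val]
  change ((galEquivZMod p (cycloKf p) (AlgEquiv.restrictNormalHom (cycloKf p) s0) : (ZMod p)ˣ) :
    ZMod p).val ≠ 1
  rw [hs0, MulEquiv.apply_symm_apply, Units.val_neg, Units.val_one, ZMod.val_neg_of_ne_zero,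
    ZMod.val_one]
  omega


/-- `cycloExp`, cast to `ZMod p`, is the value of the modular cyclotomic character. -/
theorem cycloExp_cast (s : AlgebraicClosure ℚ ≃ₐ[ℚ] AlgebraicClosure ℚ) :
    ((ExtCitation.cycloExp p s : ℕ) : ZMod p) =
      ((haveI : NeZero p := ⟨hp.out.ne_zero⟩
        modularCyclotomicCharacter (AlgebraicClosure ℚ) (ExtCitation.card_rootsOfUnity_eq_self p)
        (s : AlgebraicClosure ℚ ≃+* AlgebraicClosure ℚ) : (ZMod p)ˣ) : ZMod p) := by
  have hp0 : NeZero p := ⟨hp.out.ne_zero⟩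
  rw [ExtCitation.cycloExp, ZMod.natCast_zmod_val]

theorem cycloExp_cast_ne_zero (s : AlgebraicClosure ℚ ≃ₐ[ℚ] AlgebraicClosure ℚ) :
    ((ExtCitation.cycloExp p s : ℕ) : ZMod p) ≠ 0 := by
  rw [cycloExp_cast]
  exact Units.ne_zero _

theorem cycloExp_mul_cast (s t : AlgebraicClosure ℚ ≃ₐ[ℚ] AlgebraicClosure ℚ) :
    ((ExtCitation.cycloExp p (s * t) : ℕ) : ZMod p) =
      ((ExtCitation.cycloExp p s : ℕ) : ZMod p) * ((ExtCitation.cycloExp p t : ℕ) : ZMod p) := by
  have hp0 : NeZero p := ⟨hp.out.ne_zero⟩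
  rw [cycloExp_cast, cycloExp_cast, cycloExp_cast, ← Units.val_mul, ← map_mul]
  rfl

theorem cycloExp_one_cast :
    ((ExtCitation.cycloExp p (1 : AlgebraicClosure ℚ ≃ₐ[ℚ] AlgebraicClosure ℚ) : ℕ) : ZMod p) = 1 := by
  have hp0 : NeZero p := ⟨hp.out.ne_zero⟩
  rw [cycloExp_cast]
  have : ((1 : AlgebraicClosure ℚ ≃ₐ[ℚ] AlgebraicClosure ℚ) :
      AlgebraicClosure ℚ ≃+* AlgebraicClosure ℚ) = 1 := rfl
  rw [this, map_one, Units.val_one]

end Fermat.Agent.CFT.S14
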