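import Mathlib

set_option autoImplicit false
set_option linter.unusedSectionVars false

/-!
# S14 endgame (a2L): the finite layer cut out by an open normal subgroup

Generic infinite Galois theory (Mathlib only).  `E / k` Galois (possibly infinite),
`G = Gal(E/k)` with the Krull topology, `N ≤ H` subgroups of `G`, `N` open.
`Lf = fixedField N`, `Kf = fixedField H`.  Then `Lf / k` is finite (Galois if `N` is normal),
`Kf ≤ Lf`, restriction `G → Gal(Lf/k)` is onto with kernel `N`, and restriction
`H → Gal(Lf/Kf)` is onto with kernel `N` (so `Gal(Lf/Kf) ≃ H / N`).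
-/

namespace Fermat.Agent.CFT.S14

open IntermediateField

section General

variable {k E : Type*} [Field k] [Field E] [Algebra k E]

/-- The algebra structure of a bigger intermediate field over a smaller one. -/
@[reducible] def algebraOfLE {K L : IntermediateField k E} (h : K ≤ L) : Algebra K L :=
  (IntermediateField.inclusion h).toRingHom.toAlgebra

theorem algebraOfLE_algebraMap {K L : IntermediateField k E} (h : K ≤ L) (x : K) :
    letI := algebraOfLE h
    ((algebraMap K L x : L) : E) = (x : E) := rfl

theorem isScalarTower_of_le {K L : IntermediateField k E} (h : K ≤ L) :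
    letI := algebraOfLE h
    IsScalarTower k K L :=
  letI := algebraOfLE h
  IsScalarTower.of_algebraMap_eq fun _ => rfl

theorem isScalarTower_of_le' {K L : IntermediateField k E} (h : K ≤ L) :
    letI := algebraOfLE h
    IsScalarTower K L E :=
  letI := algebraOfLE h
  IsScalarTower.of_algebraMap_eq fun _ => rfl

end General

section Galois

variable {k E : Type*} [Field k] [Field E] [Algebra k E] [IsGalois k E]

/-- An open subgroup of `Gal(E/k)` is the fixing subgroup of its fixed field. -/
theorem fixingSubgroup_fixedField_of_isOpen (N : Subgroup (E ≃ₐ[k] E))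
    (hN : IsOpen (N : Set (E ≃ₐ[k] E))) :
    (fixedField N).fixingSubgroup = N :=
  InfiniteGalois.fixingSubgroup_fixedField ⟨N, Subgroup.isClosed_of_isOpen N hN⟩

theorem finiteDimensional_fixedField_of_isOpen (N : Subgroup (E ≃ₐ[k] E))
    (hN : IsOpen (N : Set (E ≃ₐ[k] E))) :
    FiniteDimensional k (fixedField N) := by
  rw [← InfiniteGalois.isOpen_iff_finite, fixingSubgroup_fixedField_of_isOpen N hN]
  exact hN

theorem isGalois_fixedField_of_isOpen (N : Subgroup (E ≃ₐ[k] E)) [hn : N.Normal]
    (hN : IsOpen (N : Set (E ≃ₐ[k] E))) :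
    IsGalois k (fixedField N) := by
  rw [← InfiniteGalois.normal_iff_isGalois, fixingSubgroup_fixedField_of_isOpen N hN]
  exact hn

theorem fixedField_le_of_le {N H : Subgroup (E ≃ₐ[k] E)} (h : N ≤ H) :
    fixedField H ≤ fixedField N :=
  IntermediateField.fixedField_antitone h

/-- restriction to `fixedField N` has kernel `N` (for `N` open normal). -/
theorem restrictNormalHom_fixedField_ker (N : Subgroup (E ≃ₐ[k] E)) [N.Normal]
    (hN : IsOpen (N : Set (E ≃ₐ[k] E))) :
    haveI := isGalois_fixedField_of_isOpen N hN
    (AlgEquiv.restrictNormalHom (F := k) (K₁ := E) (fixedField N)).ker = N := by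
  haveI := isGalois_fixedField_of_isOpen N hN
  rw [IntermediateField.restrictNormalHom_ker, fixingSubgroup_fixedField_of_isOpen N hN]

theorem restrictNormalHom_fixedField_surjective (N : Subgroup (E ≃ₐ[k] E)) [N.Normal]
    (hN : IsOpen (N : Set (E ≃ₐ[k] E))) :
    haveI := isGalois_fixedField_of_isOpen N hN
    Function.Surjective (AlgEquiv.restrictNormalHom (F := k) (K₁ := E) (fixedField N)) := by
  haveI := isGalois_fixedField_of_isOpen N hN
  exact AlgEquiv.restrictNormalHom_surjective E

end Galois

section Relative

variable {k E : Type*} [Field k] [Field E] [Algebra k E]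
variable {K L : IntermediateField k E} (hKL : K ≤ L) [Normal k L]

/-- Restriction to `L` of an automorphism of `E` fixing `K` pointwise, as a `K`-algebra
automorphism of `L` (for the algebra structure `algebraOfLE hKL`). -/
noncomputable def relRestrict :
    K.fixingSubgroup →* (letI := algebraOfLE hKL; L ≃ₐ[K] L) :=
  letI := algebraOfLE hKL
  { toFun := fun σ =>
      { (AlgEquiv.restrictNormalHom (F := k) (K₁ := E) L σ.1) with
        commutes' := fun x => by
          apply Subtype.ext
          have h1 := AlgEquiv.restrictNormal_commutes σ.1 L (algebraMap K L x)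
          have h2 : σ.1 ((x : K) : E) = x := σ.2 x
          exact h1.trans h2 }
    map_one' := by
      apply AlgEquiv.ext
      intro x
      simp
    map_mul' := fun σ τ => by
      apply AlgEquiv.ext
      intro x
      simp }

theorem relRestrict_apply (σ : K.fixingSubgroup) (x : L) :
    letI := algebraOfLE hKL
    ((relRestrict hKL σ x : L) : E) = σ.1 (x : E) := by
  letI := algebraOfLE hKL
  exact AlgEquiv.restrictNormal_commutes σ.1 L x

theorem relRestrict_coe (σ : K.fixingSubgroup) (x : L) :
    letI := algebraOfLE hKL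
    relRestrict hKL σ x = AlgEquiv.restrictNormalHom (F := k) (K₁ := E) L σ.1 x := rfl

theorem relRestrict_eq_one_iff (σ : K.fixingSubgroup) :
    relRestrict hKL σ = 1 ↔ σ.1 ∈ L.fixingSubgroup := by
  letI := algebraOfLE hKL
  constructor
  · intro h x
    have := relRestrict_apply hKL σ x
    rw [h] at this
    exact this.symm
  · intro h
    apply AlgEquiv.ext
    intro x
    apply Subtype.ext
    rw [relRestrict_apply]
    exact h x

theorem relRestrict_ker :
    (relRestrict hKL).ker = L.fixingSubgroup.subgroupOf K.fixingSubgroup := by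
  ext σ
  rw [MonoidHom.mem_ker, relRestrict_eq_one_iff, Subgroup.mem_subgroupOf]

theorem relRestrict_surjective [Normal k E] :
    Function.Surjective (relRestrict hKL) := by
  letI := algebraOfLE hKL
  haveI := isScalarTower_of_le hKL
  intro g
  obtain ⟨σ, hσ⟩ := AlgEquiv.restrictNormalHom_surjective (F := k) (K₁ := L) E
    (g.restrictScalars k)
  have hmem : σ ∈ K.fixingSubgroup := by
    intro x
    have h1 := AlgEquiv.restrictNormal_commutes σ L (algebraMap K L x)
    have h2 : (AlgEquiv.restrictNormalHom (F := k) (K₁ := E) L σ) (algebraMap K L x) =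
        g (algebraMap K L x) := by
      rw [hσ]
      rfl
    have h3 : g (algebraMap K L x) = algebraMap K L x := g.commutes x
    have h4 : ((σ.restrictNormal L) (algebraMap K L x) : E) = (x : E) := by
      have := congrArg (fun y : L => (y : E)) (h2.trans h3)
      exact this
    exact h1.symm.trans h4
  refine ⟨⟨σ, hmem⟩, ?_⟩
  apply AlgEquiv.ext
  intro x
  have := congrArg (fun f : L ≃ₐ[k] L => f x) hσ
  exact this

end Relative

section Subgroups

variable {k E : Type*} [Field k] [Field E] [Algebra k E] [IsGalois k E]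
variable {N H : Subgroup (E ≃ₐ[k] E)}

theorem isOpen_of_le_of_isOpen (hNH : N ≤ H) (hN : IsOpen (N : Set (E ≃ₐ[k] E))) :
    IsOpen (H : Set (E ≃ₐ[k] E)) :=
  Subgroup.isOpen_mono hNH hN

theorem le_fixingSubgroup_fixedField (H : Subgroup (E ≃ₐ[k] E)) :
    H ≤ (fixedField H).fixingSubgroup :=
  (IntermediateField.le_iff_le H (fixedField H)).mp le_rfl

theorem normal_fixedField_of_isOpen [N.Normal] (hN : IsOpen (N : Set (E ≃ₐ[k] E))) :
    Normal k (fixedField N) :=
  (isGalois_fixedField_of_isOpen N hN).to_normal

/-- restriction `H → Gal(fixedField N / fixedField H)`. -/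
noncomputable def subgroupRestrict (hNH : N ≤ H) [N.Normal]
    (hN : IsOpen (N : Set (E ≃ₐ[k] E))) :
    H →* (letI := algebraOfLE (fixedField_le_of_le hNH);
      fixedField N ≃ₐ[fixedField H] fixedField N) :=
  haveI : Normal k (fixedField N) := normal_fixedField_of_isOpen hN
  (relRestrict (fixedField_le_of_le hNH)).comp
    (Subgroup.inclusion (le_fixingSubgroup_fixedField H))

theorem subgroupRestrict_apply (hNH : N ≤ H) [N.Normal]
    (hN : IsOpen (N : Set (E ≃ₐ[k] E))) (h : H) (x : fixedField N) :
    letI := algebraOfLE (fixedField_le_of_le hNH)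
    ((subgroupRestrict hNH hN h x : fixedField N) : E) = h.1 (x : E) := by
  haveI : Normal k (fixedField N) := normal_fixedField_of_isOpen hN
  exact relRestrict_apply (fixedField_le_of_le hNH) _ x

theorem subgroupRestrict_eq_one_iff (hNH : N ≤ H) [N.Normal]
    (hN : IsOpen (N : Set (E ≃ₐ[k] E))) (h : H) :
    subgroupRestrict hNH hN h = 1 ↔ h.1 ∈ N := by
  haveI : Normal k (fixedField N) := normal_fixedField_of_isOpen hN
  have := relRestrict_eq_one_iff (fixedField_le_of_le hNH)
    (Subgroup.inclusion (le_fixingSubgroup_fixedField H) h)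
  rw [fixingSubgroup_fixedField_of_isOpen N hN] at this
  exact this

theorem subgroupRestrict_ker (hNH : N ≤ H) [N.Normal]
    (hN : IsOpen (N : Set (E ≃ₐ[k] E))) :
    (subgroupRestrict hNH hN).ker = N.subgroupOf H := by
  ext h
  rw [MonoidHom.mem_ker, subgroupRestrict_eq_one_iff, Subgroup.mem_subgroupOf]

theorem subgroupRestrict_surjective (hNH : N ≤ H) [N.Normal]
    (hN : IsOpen (N : Set (E ≃ₐ[k] E))) :
    Function.Surjective (subgroupRestrict hNH hN) := by
  haveI : Normal k (fixedField N) := normal_fixedField_of_isOpen hN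
  intro g
  obtain ⟨σ, hσ⟩ := relRestrict_surjective (fixedField_le_of_le hNH) g
  have hH : (fixedField H).fixingSubgroup = H :=
    fixingSubgroup_fixedField_of_isOpen H (isOpen_of_le_of_isOpen hNH hN)
  have hmem : σ.1 ∈ H := by
    have h2 : σ.1 ∈ (fixedField H).fixingSubgroup := σ.2
    exact hH.le h2
  refine ⟨⟨σ.1, hmem⟩, ?_⟩
  rw [← hσ]
  rfl

/-- `Gal(fixedField N / fixedField H) ≃ H / N`. -/
noncomputable def subgroupRestrictEquiv (hNH : N ≤ H) [N.Normal]
    (hN : IsOpen (N : Set (E ≃ₐ[k] E))) :
    (H ⧸ (subgroupRestrict hNH hN).ker) ≃*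
      (letI := algebraOfLE (fixedField_le_of_le hNH);
        fixedField N ≃ₐ[fixedField H] fixedField N) :=
  QuotientGroup.quotientKerEquivOfSurjective _ (subgroupRestrict_surjective hNH hN)

theorem card_gal_fixedField (hNH : N ≤ H) [N.Normal]
    (hN : IsOpen (N : Set (E ≃ₐ[k] E))) :
    letI := algebraOfLE (fixedField_le_of_le hNH)
    Nat.card (fixedField N ≃ₐ[fixedField H] fixedField N) = N.relIndex H := by
  letI := algebraOfLE (fixedField_le_of_le hNH)
  rw [← Nat.card_congr (subgroupRestrictEquiv hNH hN).toEquiv, subgroupRestrict_ker]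
  rfl

theorem isGalois_fixedField_fixedField (hNH : N ≤ H) [N.Normal]
    (hN : IsOpen (N : Set (E ≃ₐ[k] E))) :
    letI := algebraOfLE (fixedField_le_of_le hNH)
    IsGalois (fixedField H) (fixedField N) := by
  letI := algebraOfLE (fixedField_le_of_le hNH)
  haveI := isScalarTower_of_le (fixedField_le_of_le hNH)
  haveI := isGalois_fixedField_of_isOpen N hN
  exact IsGalois.tower_top_of_isGalois k (fixedField H) (fixedField N)

end Subgroups

end Fermat.Agent.CFT.S14
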