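import Mathlib

/-!
# Lifting inertia and decomposition elements to the absolute Galois group

Stream [F] of PROJECT CFT, piece (a3-ii).  Let `Qb` be an algebraic closure of `ℚ`, `Lf` a finite
normal subextension, `Q` a prime of `𝓞 Lf` and `P` a prime of `𝓞 Qb` lying over `Q`.  Every
`τ ∈ Gal(Lf/ℚ)` in the inertia group of `Q` is the restriction of some `s ∈ Gal(Qb/ℚ)` which
stabilises `P` and acts trivially on `𝓞 Qb ⧸ P`; every `τ` in the decomposition group of `Q` is the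
restriction of some `s` stabilising `P`.

Route: Mathlib `RingTheory/Invariant/Profinite` applied to the profinite group `Gal(Qb/Lf)` acting
on the discrete ring of all algebraic integers.
-/

set_option autoImplicit false
open scoped Pointwise NumberField IntermediateField

namespace Fermat.Agent.CFT.S14.InertiaLift

/-- The algebraic closure of `ℚ` used throughout. -/
abbrev Qb := AlgebraicClosure ℚ
/-- The absolute Galois group of `ℚ`. -/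
abbrev GQ := Qb ≃ₐ[ℚ] Qb

theorem algebra_rat_Qb_eq :
    (DivisionRing.toRatAlgebra : Algebra ℚ Qb) = AlgebraicClosure.instAlgebra ℚ :=
  Subsingleton.elim _ _

theorem isGalois_Qb : IsGalois ℚ Qb := by
  rw [algebra_rat_Qb_eq]
  exact IsAlgClosure.isGalois ℚ _

attribute [local instance] isGalois_Qb

/-- The ring of all algebraic integers, as a subalgebra of `Qb`. -/
noncomputable abbrev Zb : Subalgebra ℤ Qb := integralClosure ℤ Qb

/-- A group action on a discrete space with open stabilisers is continuous. -/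
theorem continuousSMul_of_isOpen_stabilizer {G B : Type*} [Group G] [TopologicalSpace G]
    [IsTopologicalGroup G] [MulAction G B] [TopologicalSpace B] [DiscreteTopology B]
    (h : ∀ b : B, IsOpen (MulAction.stabilizer G b : Set G)) : ContinuousSMul G B := by
  refine ⟨continuous_def.2 fun s _ => isOpen_iff_mem_nhds.2 ?_⟩
  rintro ⟨g, b⟩ hgb
  have hopen : IsOpen ((fun x : G => g⁻¹ * x) ⁻¹' (MulAction.stabilizer G b : Set G)) :=
    (h b).preimage (continuous_const_mul g⁻¹)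
  have hU : IsOpen (((fun x : G => g⁻¹ * x) ⁻¹' (MulAction.stabilizer G b : Set G)) ×ˢ
      ({b} : Set B)) :=
    hopen.prod (isOpen_discrete _)
  refine Filter.mem_of_superset (hU.mem_nhds ?_) ?_
  · simp
  · rintro ⟨g', b'⟩ ⟨hg', hb'⟩
    simp only [Set.mem_singleton_iff] at hb'
    subst hb'
    simp only [Set.mem_preimage, SetLike.mem_coe, MulAction.mem_stabilizer_iff] at hg'
    simp only [Set.mem_preimage] at hgb ⊢
    have : g' • b' = g • b' := by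
      have := congrArg (fun x => g • x) hg'
      simpa [smul_smul] using this
    rw [this]; exact hgb

theorem isOpen_stabilizer_Qb (x : Qb) : IsOpen (MulAction.stabilizer GQ x : Set GQ) := by
  have hfd : FiniteDimensional ℚ ℚ⟮x⟯ :=
    IntermediateField.adjoin.finiteDimensional (Algebra.IsIntegral.isIntegral x)
  have hopen : IsOpen ((ℚ⟮x⟯).fixingSubgroup : Set GQ) := IntermediateField.fixingSubgroup_isOpen _
  refine Subgroup.isOpen_mono ?_ hopen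
  intro σ hσ
  rw [MulAction.mem_stabilizer_iff]
  exact hσ ⟨x, IntermediateField.mem_adjoin_simple_self ℚ x⟩

/-- The discrete topology on the ring of algebraic integers (local instance only). -/
@[reducible] def instTopZb : TopologicalSpace Zb := ⊥

attribute [local instance] instTopZb

theorem instDiscZb : DiscreteTopology Zb := ⟨rfl⟩

attribute [local instance] instDiscZb

theorem continuousSMul_Zb : ContinuousSMul GQ Zb := by
  apply continuousSMul_of_isOpen_stabilizer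
  intro b
  refine Subgroup.isOpen_mono ?_ (isOpen_stabilizer_Qb (b : Qb))
  intro σ hσ
  rw [MulAction.mem_stabilizer_iff] at hσ ⊢
  exact Subtype.ext hσ

attribute [local instance] continuousSMul_Zb

theorem smulCommClass_fixed (H : Subgroup GQ) :
    SMulCommClass H (FixedPoints.subalgebra ℤ Zb H) Zb := ⟨fun h s z => by
  rw [Algebra.smul_def, Algebra.smul_def, smul_mul']
  congr 1
  exact s.2 h⟩

attribute [local instance] smulCommClass_fixed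

theorem isInvariant_fixed (H : Subgroup GQ) :
    Algebra.IsInvariant (FixedPoints.subalgebra ℤ Zb H) Zb H :=
  ⟨fun b hb => ⟨⟨b, hb⟩, rfl⟩⟩

attribute [local instance] isInvariant_fixed

set_option synthInstance.maxHeartbeats 400000 in
set_option maxHeartbeats 4000000 in
/-- Decomposition-group lifting at the level of the ring of all algebraic integers. -/
theorem exists_lift_stabilizer_Zb (L : IntermediateField ℚ Qb) [FiniteDimensional ℚ L]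
    [Normal ℚ L] (𝔪 : Ideal Zb) [h𝔪 : 𝔪.IsPrime] (τ : L ≃ₐ[ℚ] L)
    (hτ : ∀ (z w : Zb) (hz : (z : Qb) ∈ L), (w : Qb) = (τ ⟨z, hz⟩ : Qb) → (z ∈ 𝔪 ↔ w ∈ 𝔪)) :
    ∃ t : GQ, (∀ x : L, t (x : Qb) = (τ x : Qb)) ∧ t • 𝔪 = 𝔪 := by
  classical
  set H : Subgroup GQ := L.fixingSubgroup with hH
  have hHclosed : IsClosed (H : Set GQ) := IntermediateField.fixingSubgroup_isClosed L
  have : CompactSpace H := isCompact_iff_compactSpace.mp hHclosed.isCompact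
  -- a first lift
  obtain ⟨ρ0, hρ0⟩ := AlgEquiv.restrictNormalHom_surjective Qb τ
  have hρ0_apply : ∀ x : L, ρ0 (x : Qb) = (τ x : Qb) := by
    intro x
    rw [← hρ0]
    exact (AlgEquiv.restrictNormal_commutes ρ0 L x).symm
  -- fixed points of H lie in L
  have hfix : ∀ b : Zb, (∀ h : H, h • b = b) → (b : Qb) ∈ L := by
    intro b hb
    have : (b : Qb) ∈ IntermediateField.fixedField L.fixingSubgroup := by
      rw [IntermediateField.mem_fixedField_iff]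
      intro σ hσ
      have := hb ⟨σ, hσ⟩
      exact congrArg Subtype.val this
    rwa [InfiniteGalois.fixedField_fixingSubgroup] at this
  -- elements of H fix L
  have hHfix : ∀ (h : H) (x : Qb), x ∈ L → h.1 x = x := fun h x hx => h.2 ⟨x, hx⟩
  -- ρ0 maps Zb ∩ L to itself (inverse direction)
  have hmemL : ∀ z : Zb, (z : Qb) ∈ L → ((ρ0⁻¹ • z : Zb) : Qb) ∈ L := by
    intro z hz
    have h1 : ((ρ0⁻¹ • z : Zb) : Qb) = ρ0.symm (z : Qb) := rfl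
    rw [h1]
    have h2 : ρ0 ((τ.symm ⟨z, hz⟩ : L) : Qb) = (z : Qb) := by
      rw [hρ0_apply]; simp
    have h3 : ρ0.symm (z : Qb) = ((τ.symm ⟨z, hz⟩ : L) : Qb) := by
      rw [AlgEquiv.symm_apply_eq, h2]
    rw [h3]
    exact (τ.symm ⟨z, hz⟩).2
  -- the two primes ρ0 • 𝔪 and 𝔪 agree on the H-fixed points
  have hunder : (ρ0 • 𝔪).under (FixedPoints.subalgebra ℤ Zb H) =
      𝔪.under (FixedPoints.subalgebra ℤ Zb H) := by
    ext b
    have hbL : ((b : Zb) : Qb) ∈ L := hfix b.1 b.2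
    rw [Ideal.mem_comap, Ideal.mem_comap]
    change (b : Zb) ∈ ρ0 • 𝔪 ↔ (b : Zb) ∈ 𝔪
    rw [Ideal.mem_pointwise_smul_iff_inv_smul_mem]
    have h1 := hτ (ρ0⁻¹ • (b : Zb)) (ρ0 • (ρ0⁻¹ • (b : Zb))) (hmemL b.1 hbL)
      (hρ0_apply ⟨_, hmemL b.1 hbL⟩)
    rw [smul_inv_smul] at h1
    exact h1
  obtain ⟨g, hg⟩ := Algebra.IsInvariant.exists_smul_of_under_eq_of_profinite
    (A := FixedPoints.subalgebra ℤ Zb H) (G := H) (ρ0 • 𝔪) 𝔪 hunder
  refine ⟨g.1 * ρ0, ?_, ?_⟩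
  · intro x
    have h1 : ρ0 (x : Qb) ∈ L := by
      rw [hρ0_apply]
      exact (τ x).2
    change g.1 (ρ0 (x : Qb)) = _
    rw [hHfix g _ h1, hρ0_apply]
  · rw [mul_smul]
    exact hg.symm

set_option synthInstance.maxHeartbeats 400000 in
set_option maxHeartbeats 4000000 in
/-- Inertia-group lifting at the level of the ring of all algebraic integers. -/
theorem exists_lift_inertia_Zb (L : IntermediateField ℚ Qb) [FiniteDimensional ℚ L] [Normal ℚ L]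
    (𝔪 : Ideal Zb) [h𝔪 : 𝔪.IsPrime] (τ : L ≃ₐ[ℚ] L)
    (hτ : ∀ (z w : Zb) (hz : (z : Qb) ∈ L), (w : Qb) = (τ ⟨z, hz⟩ : Qb) → w - z ∈ 𝔪) :
    ∃ t : GQ, (∀ x : L, t (x : Qb) = (τ x : Qb)) ∧ t • 𝔪 = 𝔪 ∧ ∀ z : Zb, t • z - z ∈ 𝔪 := by
  classical
  set H : Subgroup GQ := L.fixingSubgroup with hH
  have hHclosed : IsClosed (H : Set GQ) := IntermediateField.fixingSubgroup_isClosed L
  have : CompactSpace H := isCompact_iff_compactSpace.mp hHclosed.isCompact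
  -- fixed points of H lie in L
  have hfix : ∀ b : Zb, (∀ h : H, h • b = b) → (b : Qb) ∈ L := by
    intro b hb
    have : (b : Qb) ∈ IntermediateField.fixedField L.fixingSubgroup := by
      rw [IntermediateField.mem_fixedField_iff]
      intro σ hσ
      have := hb ⟨σ, hσ⟩
      exact congrArg Subtype.val this
    rwa [InfiniteGalois.fixedField_fixingSubgroup] at this
  -- elements of H fix L
  have hHfix : ∀ (h : H) (x : Qb), x ∈ L → h.1 x = x := fun h x hx => h.2 ⟨x, hx⟩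
  -- a lift stabilising 𝔪
  obtain ⟨ρ1, hρ1L, hρ1⟩ := exists_lift_stabilizer_Zb L 𝔪 τ (by
    intro z w hz hw
    have h1 := hτ z w hz hw
    constructor
    · intro h
      have := 𝔪.add_mem h1 h
      simpa using this
    · intro h
      have := 𝔪.sub_mem h h1
      simpa using this)
  have hcong1 : ∀ z : Zb, (z : Qb) ∈ L → ρ1 • z - z ∈ 𝔪 := by
    intro z hz
    exact hτ z (ρ1 • z) hz (hρ1L ⟨z, hz⟩)
  -- the automorphism of the residue field induced by ρ1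
  let e : Zb ≃+* Zb := MulSemiringAction.toRingEquiv GQ Zb ρ1
  have he : 𝔪 = Ideal.map (e : Zb →+* Zb) 𝔪 := by
    conv_lhs => rw [← hρ1]
    rfl
  let f : (Zb ⧸ 𝔪) ≃+* (Zb ⧸ 𝔪) := Ideal.quotientEquiv 𝔪 𝔪 e he
  have hf : ∀ z : Zb, f (Ideal.Quotient.mk 𝔪 z) = Ideal.Quotient.mk 𝔪 (ρ1 • z) := fun z => rfl
  let P : Ideal (FixedPoints.subalgebra ℤ Zb H) := 𝔪.under (FixedPoints.subalgebra ℤ Zb H)
  let σ : (Zb ⧸ 𝔪) ≃ₐ[(FixedPoints.subalgebra ℤ Zb H) ⧸ P] (Zb ⧸ 𝔪) :=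
    AlgEquiv.ofRingEquiv (f := f) (by
      intro x
      obtain ⟨b, rfl⟩ := Ideal.Quotient.mk_surjective x
      rw [Ideal.Quotient.algebraMap_mk_of_liesOver, hf, Ideal.Quotient.eq]
      exact hcong1 b.1 (hfix b.1 b.2))
  obtain ⟨γ, hγ⟩ := Ideal.Quotient.stabilizerHom_surjective_of_profinite (G := H) P 𝔪 σ
  obtain ⟨γ0, hγ0H, hγ0𝔪, hγz⟩ : ∃ γ0 : GQ, γ0 ∈ H ∧ γ0 • 𝔪 = 𝔪 ∧
      ∀ z : Zb, ρ1 • z - γ0 • z ∈ 𝔪 := by
    refine ⟨γ.1.1, γ.1.2, γ.2, ?_⟩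
    intro z
    have h1 := DFunLike.congr_fun hγ (Ideal.Quotient.mk 𝔪 z)
    rw [Ideal.Quotient.stabilizerHom_apply] at h1
    have h2 : σ (Ideal.Quotient.mk 𝔪 z) = Ideal.Quotient.mk 𝔪 (ρ1 • z) := rfl
    rw [h2] at h1
    rw [← Ideal.Quotient.eq]
    exact h1.symm
  clear_value σ
  clear hγ γ
  have hγ𝔪 : γ0⁻¹ • 𝔪 = 𝔪 := by
    conv_lhs => rw [← hγ0𝔪]
    rw [inv_smul_smul]
  refine ⟨γ0⁻¹ * ρ1, ?_, ?_, ?_⟩
  · intro x
    change γ0⁻¹ (ρ1 (x : Qb)) = _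
    rw [hρ1L]
    have h2 : γ0 ((τ x : L) : Qb) = ((τ x : L) : Qb) := hHfix ⟨γ0, hγ0H⟩ _ (τ x).2
    change γ0.symm _ = _
    rw [AlgEquiv.symm_apply_eq, h2]
  · rw [mul_smul, hρ1, hγ𝔪]
  · intro z
    have h1 : (γ0⁻¹ * ρ1) • z - z = γ0⁻¹ • (ρ1 • z - γ0 • z) := by
      rw [smul_sub, mul_smul, inv_smul_smul]
    rw [h1, ← hγ𝔪]
    exact Ideal.smul_mem_pointwise_smul _ _ _ (hγz z)

/-! ### Statements for the rings of integers `𝓞 Lf ⊆ 𝓞 Qb` -/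

variable {Lf : IntermediateField ℚ Qb}

theorem coe_algebraMap_ringOfIntegers (y : 𝓞 Lf) :
    ((algebraMap (𝓞 Lf) (𝓞 Qb) y : 𝓞 Qb) : Qb) = ((y : Lf) : Qb) := rfl

theorem coe_smul_ringOfIntegers_Lf (τ : Lf ≃ₐ[ℚ] Lf) (y : 𝓞 Lf) :
    ((τ • y : 𝓞 Lf) : Lf) = τ (y : Lf) := rfl

theorem coe_smul_ringOfIntegers_Qb (s : GQ) (b : 𝓞 Qb) :
    ((s • b : 𝓞 Qb) : Qb) = s (b : Qb) := rfl

theorem algebraMap_ringOfIntegers_injective :
    Function.Injective (algebraMap (𝓞 Lf) (𝓞 Qb)) := by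
  intro y₁ y₂ h
  have h1 := congrArg (fun b : 𝓞 Qb => (b : Qb)) h
  simp only [coe_algebraMap_ringOfIntegers] at h1
  exact NumberField.RingOfIntegers.ext (Subtype.ext h1)

/-- Every prime of `𝓞 Lf` lies under a prime of the ring of all algebraic integers. -/
theorem exists_prime_over (Q : Ideal (𝓞 Lf)) [Q.IsPrime] :
    ∃ P : Ideal (𝓞 Qb), P.IsPrime ∧ P.comap (algebraMap (𝓞 Lf) (𝓞 Qb)) = Q := by
  obtain ⟨P, -, hP, hPQ⟩ := Ideal.exists_ideal_over_prime_of_isIntegral Q (⊥ : Ideal (𝓞 Qb)) (by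
    rw [Ideal.comap_bot_of_injective _ algebraMap_ringOfIntegers_injective]
    exact bot_le)
  exact ⟨P, hP, hPQ⟩

/-- The element of `𝓞 Lf` attached to an algebraic integer lying in `Lf`. -/
theorem exists_ringOfIntegers_of_mem (z : 𝓞 Qb) (hz : (z : Qb) ∈ Lf) :
    ∃ x : 𝓞 Lf, ((x : Lf) : Qb) = (z : Qb) := by
  have hint : IsIntegral ℤ (⟨(z : Qb), hz⟩ : Lf) := by
    have h1 : IsIntegral ℤ (algebraMap Lf Qb ⟨(z : Qb), hz⟩) :=
      NumberField.RingOfIntegers.isIntegral_coe z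
    exact (isIntegral_algebraMap_iff (algebraMap Lf Qb).injective).mp h1
  exact ⟨⟨⟨(z : Qb), hz⟩, hint⟩, rfl⟩

theorem algebraMap_eq_of_coe_eq (x : 𝓞 Lf) (z : 𝓞 Qb) (hx : ((x : Lf) : Qb) = (z : Qb)) :
    algebraMap (𝓞 Lf) (𝓞 Qb) x = z := by
  apply NumberField.RingOfIntegers.ext
  rw [coe_algebraMap_ringOfIntegers, hx]

theorem algebraMap_smul_eq_of_coe_eq (τ : Lf ≃ₐ[ℚ] Lf) (x : 𝓞 Lf) (z w : 𝓞 Qb)
    (hz : (z : Qb) ∈ Lf) (hx : ((x : Lf) : Qb) = (z : Qb))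
    (hw : (w : Qb) = (τ ⟨z, hz⟩ : Qb)) :
    algebraMap (𝓞 Lf) (𝓞 Qb) (τ • x) = w := by
  apply NumberField.RingOfIntegers.ext
  rw [coe_algebraMap_ringOfIntegers, coe_smul_ringOfIntegers_Lf, hw]
  congr 2
  exact Subtype.ext hx

theorem smul_ideal_eq_of_forall_mem_iff (s : GQ) (P : Ideal (𝓞 Qb)) :
    s • P = P ↔ ∀ b : 𝓞 Qb, b ∈ P ↔ s • b ∈ P := by
  constructor
  · intro h b
    constructor
    · intro hb
      rw [← h]
      exact Ideal.smul_mem_pointwise_smul _ _ _ hb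
    · intro hb
      rw [← h] at hb
      exact (Ideal.smul_mem_pointwise_smul_iff).mp hb
  · intro h
    ext b
    rw [Ideal.mem_pointwise_smul_iff_inv_smul_mem, h (s⁻¹ • b), smul_inv_smul]

variable [Normal ℚ Lf]

/-- The lift restricts to `τ`, in `restrictNormalHom` form. -/
theorem restrictNormalHom_eq_of_forall (s : GQ) (τ : Lf ≃ₐ[ℚ] Lf)
    (h : ∀ x : Lf, s (x : Qb) = (τ x : Qb)) : AlgEquiv.restrictNormalHom Lf s = τ := by
  ext x
  have h1 : ((AlgEquiv.restrictNormalHom Lf s x : Lf) : Qb) = s (x : Qb) :=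
    AlgEquiv.restrictNormal_commutes _ Lf x
  rw [h1, h]

variable [FiniteDimensional ℚ Lf]

/-- **Decomposition lifting.**  If `τ ∈ Gal(Lf/ℚ)` stabilises the prime `Q` of `𝓞 Lf` and `P` is a
prime of the ring of all algebraic integers over `Q`, then `τ` is the restriction of some
`s ∈ Gal(Qb/ℚ)` stabilising `P`. -/
theorem exists_lift_of_mem_stabilizer (Q : Ideal (𝓞 Lf)) (P : Ideal (𝓞 Qb)) [hP : P.IsPrime]
    (hPQ : P.comap (algebraMap (𝓞 Lf) (𝓞 Qb)) = Q) (τ : Lf ≃ₐ[ℚ] Lf)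
    (hτ : ∀ x : 𝓞 Lf, x ∈ Q ↔ τ • x ∈ Q) :
    ∃ s : GQ, (∀ b : 𝓞 Qb, b ∈ P ↔ s • b ∈ P) ∧ ∀ x : Lf, s (x : Qb) = (τ x : Qb) := by
  have key : ∀ (z w : 𝓞 Qb) (hz : (z : Qb) ∈ Lf), (w : Qb) = (τ ⟨z, hz⟩ : Qb) →
      (z ∈ P ↔ w ∈ P) := by
    intro z w hz hw
    obtain ⟨x, hx⟩ := exists_ringOfIntegers_of_mem (Lf := Lf) z hz
    have h1 := hτ x
    rw [← hPQ, Ideal.mem_comap, Ideal.mem_comap, algebraMap_eq_of_coe_eq x z hx,
      algebraMap_smul_eq_of_coe_eq τ x z w hz hx hw] at h1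
    exact h1
  obtain ⟨t, htL, htm⟩ := exists_lift_stabilizer_Zb Lf (𝔪 := (P : Ideal Zb)) (h𝔪 := hP) τ
    (fun z w hz hw => key z w hz hw)
  exact ⟨t, (smul_ideal_eq_of_forall_mem_iff t P).mp htm, htL⟩

/-- **Inertia lifting.**  If `τ ∈ Gal(Lf/ℚ)` acts trivially on `𝓞 Lf ⧸ Q` and `P` is a prime of the
ring of all algebraic integers over `Q`, then `τ` is the restriction of some `s ∈ Gal(Qb/ℚ)`
stabilising `P` and acting trivially on `𝓞 Qb ⧸ P`. -/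
theorem exists_lift_of_mem_inertia (Q : Ideal (𝓞 Lf)) (P : Ideal (𝓞 Qb)) [hP : P.IsPrime]
    (hPQ : P.comap (algebraMap (𝓞 Lf) (𝓞 Qb)) = Q) (τ : Lf ≃ₐ[ℚ] Lf)
    (hτ : ∀ x : 𝓞 Lf, τ • x - x ∈ Q) :
    ∃ s : GQ, (∀ b : 𝓞 Qb, b ∈ P ↔ s • b ∈ P) ∧ (∀ b : 𝓞 Qb, s • b - b ∈ P) ∧
      ∀ x : Lf, s (x : Qb) = (τ x : Qb) := by
  have key : ∀ (z w : 𝓞 Qb) (hz : (z : Qb) ∈ Lf), (w : Qb) = (τ ⟨z, hz⟩ : Qb) →
      w - z ∈ P := by
    intro z w hz hw
    obtain ⟨x, hx⟩ := exists_ringOfIntegers_of_mem (Lf := Lf) z hz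
    have h1 := hτ x
    rw [← hPQ, Ideal.mem_comap, map_sub, algebraMap_eq_of_coe_eq x z hx,
      algebraMap_smul_eq_of_coe_eq τ x z w hz hx hw] at h1
    exact h1
  obtain ⟨t, htL, htm, htz⟩ := exists_lift_inertia_Zb Lf (𝔪 := (P : Ideal Zb)) (h𝔪 := hP) τ
    (fun z w hz hw => key z w hz hw)
  exact ⟨t, (smul_ideal_eq_of_forall_mem_iff t P).mp htm, htz, htL⟩

/-- Combined form: existence of the prime `P` and of the lift (inertia version). -/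
theorem exists_prime_lift_of_mem_inertia (Q : Ideal (𝓞 Lf)) [Q.IsPrime] (τ : Lf ≃ₐ[ℚ] Lf)
    (hτ : ∀ x : 𝓞 Lf, τ • x - x ∈ Q) :
    ∃ (P : Ideal (𝓞 Qb)) (_ : P.IsPrime) (s : GQ), P.comap (algebraMap (𝓞 Lf) (𝓞 Qb)) = Q ∧
      (∀ b : 𝓞 Qb, b ∈ P ↔ s • b ∈ P) ∧ (∀ b : 𝓞 Qb, s • b - b ∈ P) ∧
      ∀ x : Lf, s (x : Qb) = (τ x : Qb) := by
  obtain ⟨P, hP, hPQ⟩ := exists_prime_over Q
  obtain ⟨s, h1, h2, h3⟩ := exists_lift_of_mem_inertia Q P hPQ τ hτ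
  exact ⟨P, hP, s, hPQ, h1, h2, h3⟩

/-- Combined form: existence of the prime `P` and of the lift (decomposition version). -/
theorem exists_prime_lift_of_mem_stabilizer (Q : Ideal (𝓞 Lf)) [Q.IsPrime] (τ : Lf ≃ₐ[ℚ] Lf)
    (hτ : ∀ x : 𝓞 Lf, x ∈ Q ↔ τ • x ∈ Q) :
    ∃ (P : Ideal (𝓞 Qb)) (_ : P.IsPrime) (s : GQ), P.comap (algebraMap (𝓞 Lf) (𝓞 Qb)) = Q ∧
      (∀ b : 𝓞 Qb, b ∈ P ↔ s • b ∈ P) ∧ ∀ x : Lf, s (x : Qb) = (τ x : Qb) := by
  obtain ⟨P, hP, hPQ⟩ := exists_prime_over Q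
  obtain ⟨s, h1, h3⟩ := exists_lift_of_mem_stabilizer Q P hPQ τ hτ
  exact ⟨P, hP, s, hPQ, h1, h3⟩

/-- Membership in `Ideal.inertia` / `MulAction.stabilizer` forms of the hypotheses. -/
theorem exists_lift_of_mem_ideal_inertia (Q : Ideal (𝓞 Lf)) (P : Ideal (𝓞 Qb)) [hP : P.IsPrime]
    (hPQ : P.comap (algebraMap (𝓞 Lf) (𝓞 Qb)) = Q) (τ : Lf ≃ₐ[ℚ] Lf)
    (hτ : τ ∈ Ideal.inertia (Lf ≃ₐ[ℚ] Lf) Q) :
    ∃ s : GQ, s • P = P ∧ s ∈ Ideal.inertia GQ P ∧ AlgEquiv.restrictNormalHom Lf s = τ := by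
  obtain ⟨s, h1, h2, h3⟩ := exists_lift_of_mem_inertia Q P hPQ τ hτ
  exact ⟨s, (smul_ideal_eq_of_forall_mem_iff s P).mpr h1, h2, restrictNormalHom_eq_of_forall s τ h3⟩

theorem exists_lift_of_smul_eq (Q : Ideal (𝓞 Lf)) (P : Ideal (𝓞 Qb)) [hP : P.IsPrime]
    (hPQ : P.comap (algebraMap (𝓞 Lf) (𝓞 Qb)) = Q) (τ : Lf ≃ₐ[ℚ] Lf)
    (hτ : τ • Q = Q) :
    ∃ s : GQ, s • P = P ∧ AlgEquiv.restrictNormalHom Lf s = τ := by
  have hτ' : ∀ x : 𝓞 Lf, x ∈ Q ↔ τ • x ∈ Q := by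
    intro x
    constructor
    · intro hx
      rw [← hτ]
      exact Ideal.smul_mem_pointwise_smul _ _ _ hx
    · intro hx
      rw [← hτ] at hx
      exact (Ideal.smul_mem_pointwise_smul_iff).mp hx
  obtain ⟨s, h1, h3⟩ := exists_lift_of_mem_stabilizer Q P hPQ τ hτ'
  exact ⟨s, (smul_ideal_eq_of_forall_mem_iff s P).mpr h1, restrictNormalHom_eq_of_forall s τ h3⟩

/-- Inertia lifting in the exact shape of `LiftsInertia Lf` (file `UnramBridge.lean`). -/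
theorem liftsInertia_shape (Q : Ideal (𝓞 Lf)) [Q.IsPrime] (τ : Lf ≃ₐ[ℚ] Lf)
    (hτ : ∀ x : 𝓞 Lf, τ • x - x ∈ Q) :
    ∃ (P : Ideal (𝓞 Qb)) (_ : P.IsPrime) (s : GQ), P.comap (algebraMap (𝓞 Lf) (𝓞 Qb)) = Q ∧
      (∀ b : 𝓞 Qb, s • b - b ∈ P) ∧ ∀ x : Lf, s (x : Qb) = (τ x : Qb) := by
  obtain ⟨P, hP, s, hPQ, -, h2, h3⟩ := exists_prime_lift_of_mem_inertia Q τ hτ
  exact ⟨P, hP, s, hPQ, h2, h3⟩

/-- Decomposition lifting in the exact shape of `LiftsDecomposition Lf`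
(file `UnramBridge.lean`). -/
theorem liftsDecomposition_shape (Q : Ideal (𝓞 Lf)) [Q.IsPrime] (τ : Lf ≃ₐ[ℚ] Lf)
    (hτ : ∀ x : 𝓞 Lf, x ∈ Q ↔ τ • x ∈ Q) :
    ∃ (P : Ideal (𝓞 Qb)) (_ : P.IsPrime) (s : GQ), P.comap (algebraMap (𝓞 Lf) (𝓞 Qb)) = Q ∧
      (∀ b : 𝓞 Qb, b ∈ P ↔ s • b ∈ P) ∧ ∀ x : Lf, s (x : Qb) = (τ x : Qb) :=
  exists_prime_lift_of_mem_stabilizer Q τ hτ

end Fermat.Agent.CFT.S14.InertiaLift
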