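import Mathlib
import Fermat.Prelude.Def_FLTPrelim_Ramification

/-!
# Bridge: valuation-subring inertia in `Gal(Qbar/ℚ)`  ⇒  ideal-theoretic inertia in a number field

(helper25, PROJECT CFT stream [F], chunk (a3))
-/

set_option autoImplicit false

namespace Fermat.Agent.CFT.S14

open NumberField Polynomial

local notation "Qb" => AlgebraicClosure ℚ
local notation "GalQ" => (AlgebraicClosure ℚ ≃ₐ[ℚ] AlgebraicClosure ℚ)

section locSub

variable (P : Ideal (𝓞 Qb)) [hP : P.IsPrime]

/-- The localization of `𝓞 Qbar` at the prime `P`, as a subring of `Qbar`. -/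
def locSub : Subring Qb where
  carrier := {x | ∃ b s : 𝓞 Qb, s ∉ P ∧ x * (algebraMap (𝓞 Qb) Qb s) = algebraMap (𝓞 Qb) Qb b}
  mul_mem' := by
    rintro x y ⟨b, s, hs, hx⟩ ⟨b', s', hs', hy⟩
    refine ⟨b * b', s * s', fun h => (hP.mem_or_mem h).elim hs hs', ?_⟩
    rw [map_mul, map_mul, ← hx, ← hy]; ring
  one_mem' := ⟨1, 1, fun h => hP.ne_top ((Ideal.eq_top_iff_one _).mpr h), by simp⟩
  add_mem' := by
    rintro x y ⟨b, s, hs, hx⟩ ⟨b', s', hs', hy⟩
    refine ⟨b * s' + b' * s, s * s', fun h => (hP.mem_or_mem h).elim hs hs', ?_⟩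
    rw [map_add, map_mul, map_mul, map_mul, ← hx, ← hy]; ring
  zero_mem' := ⟨0, 1, fun h => hP.ne_top ((Ideal.eq_top_iff_one _).mpr h), by simp⟩
  neg_mem' := by
    rintro x ⟨b, s, hs, hx⟩
    exact ⟨-b, s, hs, by rw [map_neg, ← hx]; ring⟩

theorem mem_locSub_iff {x : Qb} :
    x ∈ locSub P ↔ ∃ b s : 𝓞 Qb, s ∉ P ∧ x * (algebraMap (𝓞 Qb) Qb s) = algebraMap (𝓞 Qb) Qb b :=
  Iff.rfl

theorem algebraMap_mem_locSub (b : 𝓞 Qb) : algebraMap (𝓞 Qb) Qb b ∈ locSub P :=
  ⟨b, 1, fun h => hP.ne_top ((Ideal.eq_top_iff_one _).mpr h), by simp⟩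

theorem div_mem_locSub (b : 𝓞 Qb) {s : 𝓞 Qb} (hs : s ∉ P) :
    algebraMap (𝓞 Qb) Qb b / algebraMap (𝓞 Qb) Qb s ∈ locSub P := by
  have hs0 : algebraMap (𝓞 Qb) Qb s ≠ 0 := by
    intro h
    have : s = 0 := (FaithfulSMul.algebraMap_injective (𝓞 Qb) Qb) (by rw [h, map_zero])
    exact hs (this ▸ P.zero_mem)
  exact ⟨b, s, hs, by field_simp⟩

/-- Elements of `𝓞 Qbar` are closed under "integral over `𝓞 Qbar`". -/
theorem exists_eq_of_isIntegral {y : Qb} (hy : IsIntegral (𝓞 Qb) y) :
    ∃ b : 𝓞 Qb, algebraMap (𝓞 Qb) Qb b = y := by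
  have h : IsIntegral ℤ y := isIntegral_trans y hy
  exact ⟨⟨y, h⟩, rfl⟩

/-- Key induction: a root of a polynomial over `𝓞 Qbar` having some coefficient outside `P`
lies in the localization at `P`, or its inverse does. -/
theorem mem_or_inv_mem_of_aeval (n : ℕ) :
    ∀ (x : Qb) (f : (𝓞 Qb)[X]), f.natDegree ≤ n → aeval x f = 0 → (∃ i, f.coeff i ∉ P) →
      x ∈ locSub P ∨ x⁻¹ ∈ locSub P := by
  induction n with
  | zero =>
    intro x f hdeg hx ⟨i, hi⟩
    exfalso
    have hf : f = C (f.coeff 0) := Polynomial.eq_C_of_natDegree_le_zero hdeg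
    rw [hf, aeval_C] at hx
    have h0 : f.coeff 0 = 0 :=
      (FaithfulSMul.algebraMap_injective (𝓞 Qb) Qb) (by rw [hx, map_zero])
    apply hi
    rw [hf, h0, map_zero, coeff_zero]
    exact P.zero_mem
  | succ n ih =>
    intro x f hdeg hx hcoeff
    by_cases hdeg' : f.natDegree ≤ n
    · exact ih x f hdeg' hx hcoeff
    have hnat : f.natDegree = n + 1 := by omega
    set a := f.leadingCoeff with ha
    -- `a * x` is integral
    obtain ⟨b, hb⟩ := exists_eq_of_isIntegral (isIntegral_leadingCoeff_smul f x hx)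
    rw [Algebra.smul_def] at hb
    have ha0 : algebraMap (𝓞 Qb) Qb a ≠ 0 := by
      intro h
      have : a = 0 := (FaithfulSMul.algebraMap_injective (𝓞 Qb) Qb) (by rw [h, map_zero])
      rw [ha, leadingCoeff_eq_zero] at this
      rw [this] at hnat
      simp at hnat
    by_cases haP : a ∉ P
    · left
      refine ⟨b, a, haP, ?_⟩
      rw [hb, mul_comm]
    rw [not_not] at haP
    by_cases hbP : b ∉ P
    · right
      have hb0 : algebraMap (𝓞 Qb) Qb b ≠ 0 := by
        intro h
        have : b = 0 := (FaithfulSMul.algebraMap_injective (𝓞 Qb) Qb) (by rw [h, map_zero])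
        exact hbP (this ▸ P.zero_mem)
      have hx0 : x ≠ 0 := by
        rintro rfl
        rw [mul_zero] at hb
        exact hb0 hb
      refine ⟨a, b, hbP, ?_⟩
      rw [hb, mul_comm, mul_assoc, mul_inv_cancel₀ hx0, mul_one]
    rw [not_not] at hbP
    -- the reduced polynomial
    set g : (𝓞 Qb)[X] := C b * X ^ n + f.eraseLead with hg
    have hgdeg : g.natDegree ≤ n := by
      refine (natDegree_add_le _ _).trans (max_le (natDegree_C_mul_X_pow_le _ _) ?_)
      have := eraseLead_natDegree_le f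
      omega
    have hgx : aeval x g = 0 := by
      have h1 : aeval x f = aeval x f.eraseLead + algebraMap (𝓞 Qb) Qb a * x ^ (n + 1) := by
        conv_lhs => rw [← eraseLead_add_C_mul_X_pow f]
        rw [map_add, map_mul, aeval_C, map_pow, aeval_X, hnat]
      rw [hg, map_add, map_mul, aeval_C, map_pow, aeval_X, hb]
      rw [hx] at h1
      rw [h1]; ring
    obtain ⟨i, hi⟩ := hcoeff
    have hile : i ≤ n := by
      by_contra hlt
      push Not at hlt
      rcases Nat.lt_or_ge (n + 1) i with h | h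
      · apply hi
        rw [coeff_eq_zero_of_natDegree_lt (by omega)]
        exact P.zero_mem
      · have : i = n + 1 := by omega
        apply hi
        rw [this, ← hnat]
        exact haP
    refine ih x g hgdeg hgx ⟨i, ?_⟩
    have hne : i ≠ f.natDegree := by omega
    rw [hg, coeff_add, coeff_C_mul, coeff_X_pow, eraseLead_coeff_of_ne i hne]
    by_cases hin : i = n
    · rw [if_pos hin, mul_one]
      intro h
      exact hi ((Ideal.add_mem_iff_right P hbP).mp h)
    · rw [if_neg hin, mul_zero, zero_add]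
      exact hi

/-- Every element of `Qbar` is a root of a polynomial over `𝓞 Qbar` with a coefficient
outside `P` (namely a primitive integer polynomial). -/
theorem exists_poly_of_prime (x : Qb) :
    ∃ f : (𝓞 Qb)[X], aeval x f = 0 ∧ ∃ i, f.coeff i ∉ P := by
  have hxQ : IsAlgebraic ℚ x := (AlgebraicClosure.isAlgebraic ℚ).isAlgebraic x
  have hx : IsAlgebraic ℤ x := (IsFractionRing.isAlgebraic_iff ℤ ℚ Qb).mpr hxQ
  obtain ⟨f0, hf0, hf0x⟩ := hx
  have hfx : aeval x f0.primPart = 0 := aeval_primPart_eq_zero hf0 hf0x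
  have hprim : f0.primPart.IsPrimitive := f0.isPrimitive_primPart
  refine ⟨f0.primPart.map (algebraMap ℤ (𝓞 Qb)), by rw [aeval_map_algebraMap]; exact hfx, ?_⟩
  by_contra hall
  push Not at hall
  have h𝔭 : (P.comap (algebraMap ℤ (𝓞 Qb))).IsPrime := Ideal.comap_isPrime _ _
  obtain ⟨m, hm⟩ := IsPrincipalIdealRing.principal (P.comap (algebraMap ℤ (𝓞 Qb)))
  have hdvd : ∀ i, m ∣ f0.primPart.coeff i := by
    intro i
    have h1 : f0.primPart.coeff i ∈ P.comap (algebraMap ℤ (𝓞 Qb)) := by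
      have := hall i
      rwa [coeff_map] at this
    have h2 : f0.primPart.coeff i ∈ (Submodule.span ℤ {m} : Submodule ℤ ℤ) := by
      rw [← hm]; exact h1
    exact Ideal.mem_span_singleton.mp h2
  have hC : C m ∣ f0.primPart := (C_dvd_iff_dvd_coeff m _).mpr hdvd
  have hu : IsUnit m := hprim m hC
  apply h𝔭.ne_top
  have : P.comap (algebraMap ℤ (𝓞 Qb)) = Ideal.span {m} := hm
  rw [this]
  exact Ideal.span_singleton_eq_top.mpr hu

/-- The localization of `𝓞 Qbar` at a prime `P`, as a valuation subring of `Qbar`. -/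
def valSubringOfPrime : ValuationSubring Qb :=
  { locSub P with
    mem_or_inv_mem' := fun x => by
      obtain ⟨f, hf, hc⟩ := exists_poly_of_prime P x
      exact mem_or_inv_mem_of_aeval P f.natDegree x f le_rfl hf hc }

theorem mem_valSubringOfPrime_iff {x : Qb} :
    x ∈ valSubringOfPrime P ↔
      ∃ b s : 𝓞 Qb, s ∉ P ∧ x * (algebraMap (𝓞 Qb) Qb s) = algebraMap (𝓞 Qb) Qb b :=
  Iff.rfl

theorem algebraMap_mem_valSubringOfPrime (b : 𝓞 Qb) :
    algebraMap (𝓞 Qb) Qb b ∈ valSubringOfPrime P :=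
  algebraMap_mem_locSub P b

omit hP in
theorem algebraMap_ne_zero_of_not_mem {s : 𝓞 Qb} (hs : s ∉ P) : algebraMap (𝓞 Qb) Qb s ≠ 0 := by
  intro h
  have : s = 0 := (FaithfulSMul.algebraMap_injective (𝓞 Qb) Qb) (by rw [h, map_zero])
  exact hs (this ▸ P.zero_mem)

/-- A fraction `c / t` with `c ∈ P`, `t ∉ P` is a non-unit of the valuation subring. -/
theorem div_mem_nonunits {c t : 𝓞 Qb} (hc : c ∈ P) (ht : t ∉ P) :
    algebraMap (𝓞 Qb) Qb c / algebraMap (𝓞 Qb) Qb t ∈ (valSubringOfPrime P).nonunits := by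
  rw [ValuationSubring.mem_nonunits_iff_or]
  by_cases h0 : algebraMap (𝓞 Qb) Qb c / algebraMap (𝓞 Qb) Qb t = 0
  · exact Or.inl h0
  right
  rintro ⟨b, s, hs, hbs⟩
  have ht0 := algebraMap_ne_zero_of_not_mem P ht
  have hc0 : algebraMap (𝓞 Qb) Qb c ≠ 0 := by
    intro h
    apply h0
    rw [h, zero_div]
  rw [inv_div] at hbs
  have h1 : algebraMap (𝓞 Qb) Qb (t * s) = algebraMap (𝓞 Qb) Qb (b * c) := by
    rw [map_mul, map_mul, ← hbs]
    field_simp
  have h2 : t * s = b * c := FaithfulSMul.algebraMap_injective (𝓞 Qb) Qb h1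
  have h3 : t * s ∈ P := by
    rw [h2]
    exact P.mul_mem_left _ hc
  exact (hP.mem_or_mem h3).elim ht hs

/-- The valuation subring attached to `P` lies over the rational prime `l` if `l ∈ P`. -/
theorem valSubringOfPrime_liesOverPrime (l : ℕ) (hl : (l : 𝓞 Qb) ∈ P) :
    (valSubringOfPrime P).LiesOverPrime l := by
  have h := div_mem_nonunits P hl (fun h : (1 : 𝓞 Qb) ∈ P =>
    hP.ne_top ((Ideal.eq_top_iff_one _).mpr h))
  simpa [ValuationSubring.LiesOverPrime] using h

/-- `𝓞 Qbar ∩ 𝔪_A = P`. -/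
theorem algebraMap_mem_nonunits_iff (b : 𝓞 Qb) :
    algebraMap (𝓞 Qb) Qb b ∈ (valSubringOfPrime P).nonunits ↔ b ∈ P := by
  have h1 : (1 : 𝓞 Qb) ∉ P := fun h => hP.ne_top ((Ideal.eq_top_iff_one _).mpr h)
  constructor
  · intro h
    by_contra hb
    rw [ValuationSubring.mem_nonunits_iff_or] at h
    rcases h with h | h
    · exact algebraMap_ne_zero_of_not_mem P hb h
    · apply h
      refine ⟨1, b, hb, ?_⟩
      rw [inv_mul_cancel₀ (algebraMap_ne_zero_of_not_mem P hb), map_one]
  · intro h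
    have := div_mem_nonunits P h h1
    rwa [map_one, div_one] at this

omit hP in
theorem algebraMap_galSmul (s : GalQ) (b : 𝓞 Qb) :
    algebraMap (𝓞 Qb) Qb (s • b) = s (algebraMap (𝓞 Qb) Qb b) := rfl

/-- An automorphism stabilizing `P` maps the valuation subring of `P` into itself. -/
theorem apply_mem_valSubringOfPrime (s : GalQ) (hs : ∀ b : 𝓞 Qb, b ∈ P ↔ s • b ∈ P) {x : Qb}
    (hx : x ∈ valSubringOfPrime P) : s x ∈ valSubringOfPrime P := by
  obtain ⟨b, t, ht, hxt⟩ := hx
  refine ⟨s • b, s • t, fun h => ht ((hs t).mpr h), ?_⟩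
  rw [algebraMap_galSmul, algebraMap_galSmul, ← map_mul, hxt]

open scoped Pointwise in
/-- An automorphism stabilizing `P` lies in the decomposition group of the valuation subring. -/
theorem mem_decompositionSubgroup_of_stabilizes (s : GalQ)
    (hs : ∀ b : 𝓞 Qb, b ∈ P ↔ s • b ∈ P) :
    s ∈ (valSubringOfPrime P).decompositionSubgroup ℚ := by
  have hs' : ∀ b : 𝓞 Qb, b ∈ P ↔ s⁻¹ • b ∈ P := by
    intro b
    rw [hs (s⁻¹ • b), smul_inv_smul]
  rw [MulAction.mem_stabilizer_iff]
  ext x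
  rw [ValuationSubring.mem_pointwise_smul_iff_inv_smul_mem]
  constructor
  · intro h
    have := apply_mem_valSubringOfPrime P s hs h
    rwa [← AlgEquiv.smul_def, smul_inv_smul] at this
  · intro h
    exact apply_mem_valSubringOfPrime P s⁻¹ hs' h

omit hP in
theorem stabilizes_of_trivial (s : GalQ) (hs : ∀ b : 𝓞 Qb, s • b - b ∈ P) (b : 𝓞 Qb) :
    b ∈ P ↔ s • b ∈ P := by
  constructor
  · intro h
    have := P.add_mem (hs b) h
    rwa [sub_add_cancel] at this
  · intro h
    have := P.sub_mem h (hs b)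
    rwa [sub_sub_cancel] at this

/-- An automorphism acting trivially on `𝓞 Qbar / P` moves every element of the valuation
subring by a non-unit. -/
theorem apply_sub_mem_nonunits (s : GalQ) (hs : ∀ b : 𝓞 Qb, s • b - b ∈ P) {x : Qb}
    (hx : x ∈ valSubringOfPrime P) : s x - x ∈ (valSubringOfPrime P).nonunits := by
  obtain ⟨b, t, ht, hxt⟩ := hx
  have hst : s • t ∉ P := fun h => ht ((stabilizes_of_trivial P s hs t).mpr h)
  have ht0 := algebraMap_ne_zero_of_not_mem P ht
  have hst0 := algebraMap_ne_zero_of_not_mem P hst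
  have hx' : x = algebraMap (𝓞 Qb) Qb b / algebraMap (𝓞 Qb) Qb t := eq_div_of_mul_eq ht0 hxt
  have hc : (s • b) * t - (s • t) * b ∈ P := by
    have : (s • b) * t - (s • t) * b = (s • b - b) * t - (s • t - t) * b := by ring
    rw [this]
    exact P.sub_mem (P.mul_mem_right _ (hs b)) (P.mul_mem_right _ (hs t))
  have hden : (s • t) * t ∉ P := fun h => (hP.mem_or_mem h).elim hst ht
  have key : s x - x = algebraMap (𝓞 Qb) Qb ((s • b) * t - (s • t) * b) /
      algebraMap (𝓞 Qb) Qb ((s • t) * t) := by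
    rw [hx', map_div₀, ← algebraMap_galSmul, ← algebraMap_galSmul, div_sub_div _ _ hst0 ht0,
      map_sub, map_mul, map_mul, map_mul]
  rw [key]
  exact div_mem_nonunits P hc hden

open scoped Pointwise in
omit hP in
/-- Conversion from the pointwise action on ideals. -/
theorem stabilizes_of_smul_eq (s : GalQ) (hs : s • P = P) (b : 𝓞 Qb) :
    b ∈ P ↔ s • b ∈ P := by
  conv_rhs => rw [← hs]
  exact Ideal.smul_mem_pointwise_smul_iff.symm

open scoped Pointwise in
/-- Pointwise-action form of `mem_decompositionSubgroup_of_stabilizes`. -/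
theorem mem_decompositionSubgroup_of_smul_eq (s : GalQ) (hs : s • P = P) :
    s ∈ (valSubringOfPrime P).decompositionSubgroup ℚ :=
  mem_decompositionSubgroup_of_stabilizes P s (stabilizes_of_smul_eq P s hs)

/-- Local re-proof of the unfolding of `inertiaSubgroupIn`. -/
theorem mem_inertiaSubgroupIn_iff' {A : ValuationSubring Qb} {s : GalQ} :
    s ∈ A.inertiaSubgroupIn ℚ ↔
      ∃ g : A.decompositionSubgroup ℚ, g ∈ A.inertiaSubgroup ℚ ∧ (g : GalQ) = s := by
  unfold ValuationSubring.inertiaSubgroupIn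
  rw [Subgroup.mem_map]
  rfl

/-- An automorphism acting trivially on `𝓞 Qbar / P` lies in the inertia group of the
valuation subring attached to `P`. -/
theorem mem_inertiaSubgroupIn_of_trivial (s : GalQ) (hs : ∀ b : 𝓞 Qb, s • b - b ∈ P) :
    s ∈ (valSubringOfPrime P).inertiaSubgroupIn ℚ := by
  have hdec : s ∈ (valSubringOfPrime P).decompositionSubgroup ℚ :=
    mem_decompositionSubgroup_of_stabilizes P s (stabilizes_of_trivial P s hs)
  rw [mem_inertiaSubgroupIn_iff']
  refine ⟨⟨s, hdec⟩, ?_, rfl⟩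
  change MulSemiringAction.toRingAut ((valSubringOfPrime P).decompositionSubgroup ℚ)
      (IsLocalRing.ResidueField (valSubringOfPrime P)) ⟨s, hdec⟩ = 1
  apply RingEquiv.ext
  intro r
  obtain ⟨a, rfl⟩ := IsLocalRing.residue_surjective r
  change (⟨s, hdec⟩ : (valSubringOfPrime P).decompositionSubgroup ℚ) •
      IsLocalRing.residue (valSubringOfPrime P) a = IsLocalRing.residue (valSubringOfPrime P) a
  rw [← IsLocalRing.ResidueField.residue_smul]
  apply Ideal.Quotient.eq.mpr
  rw [← ValuationSubring.coe_mem_nonunits_iff]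
  exact apply_sub_mem_nonunits P s hs a.2

end locSub

end Fermat.Agent.CFT.S14
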