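import Mathlib
import Fermat.Agent.CFT.S14.ValSubringOfPrime
import Fermat.Agent.CFT.S14.FieldL

/-!
# Bridge (a3): inertia hypotheses on valuation subrings of `Qbar`  ⇒  ideal-theoretic
unramifiedness / complete splitting in `Gal(Lf/Kf)`

(helper25, PROJECT CFT stream [F], chunk (a3), composition file)

`Kf ≤ Lf` intermediate fields of `Qbar / ℚ`.  The *lifting properties* `LiftsInertia Lf`,
`LiftsDecomposition Lf` (ideal level; delivered by `InertiaLift.lean`) say that an automorphism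
of `Lf` in the inertia (resp. decomposition) group of a prime `Q` of `𝓞 Lf` lifts to an
automorphism of `Qbar` in the inertia (resp. decomposition) group of a prime `P` of `𝓞 Qbar`
above `Q`.  Combined with `ValSubringOfPrime.lean` we get the two statements (U), (S) needed
by the class-field-theoretic input.
-/

set_option autoImplicit false
set_option linter.style.haveILetI false

namespace Fermat.Agent.CFT.S14

open NumberField

local notation "Qb" => AlgebraicClosure ℚ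
local notation "GalQ" => (AlgebraicClosure ℚ ≃ₐ[ℚ] AlgebraicClosure ℚ)

/-- Lifting property, inertia form. -/
def LiftsInertia (Lf : IntermediateField ℚ Qb) : Prop :=
  ∀ (Q : Ideal (𝓞 Lf)) [Q.IsPrime] (τ : Lf ≃ₐ[ℚ] Lf), (∀ x : 𝓞 Lf, τ • x - x ∈ Q) →
    ∃ (P : Ideal (𝓞 Qb)) (_ : P.IsPrime) (s : GalQ),
      P.comap (algebraMap (𝓞 Lf) (𝓞 Qb)) = Q ∧ (∀ b : 𝓞 Qb, s • b - b ∈ P) ∧
        ∀ x : Lf, s (x : Qb) = (τ x : Qb)

/-- Lifting property, decomposition form. -/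
def LiftsDecomposition (Lf : IntermediateField ℚ Qb) : Prop :=
  ∀ (Q : Ideal (𝓞 Lf)) [Q.IsPrime] (τ : Lf ≃ₐ[ℚ] Lf), (∀ x : 𝓞 Lf, x ∈ Q ↔ τ • x ∈ Q) →
    ∃ (P : Ideal (𝓞 Qb)) (_ : P.IsPrime) (s : GalQ),
      P.comap (algebraMap (𝓞 Lf) (𝓞 Qb)) = Q ∧ (∀ b : 𝓞 Qb, b ∈ P ↔ s • b ∈ P) ∧
        ∀ x : Lf, s (x : Qb) = (τ x : Qb)

/-- A nonzero prime of the ring of integers of an algebraic extension of `ℚ` contains a
rational prime. -/
theorem exists_prime_natCast_mem {F : Type*} [Field F] (Q : Ideal (𝓞 F)) [hQ : Q.IsPrime]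
    (hQ0 : Q ≠ ⊥) : ∃ l : ℕ, l.Prime ∧ (l : 𝓞 F) ∈ Q := by
  have h𝔭 : (Q.comap (algebraMap ℤ (𝓞 F))).IsPrime := Ideal.comap_isPrime _ _
  have hne : Q.comap (algebraMap ℤ (𝓞 F)) ≠ ⊥ := fun h =>
    hQ0 (Ideal.eq_bot_of_comap_eq_bot h)
  obtain ⟨m, hm⟩ := IsPrincipalIdealRing.principal (Q.comap (algebraMap ℤ (𝓞 F)))
  have hm' : Q.comap (algebraMap ℤ (𝓞 F)) = Ideal.span {m} := hm
  have hm0 : m ≠ 0 := by
    rintro rfl
    apply hne
    rw [hm']
    simp
  have hprime : Prime m := by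
    rw [hm'] at h𝔭
    exact (Ideal.span_singleton_prime hm0).mp h𝔭
  refine ⟨m.natAbs, Int.prime_iff_natAbs_prime.mp hprime, ?_⟩
  have hmem : (m.natAbs : ℤ) ∈ Q.comap (algebraMap ℤ (𝓞 F)) := by
    rw [hm', Ideal.mem_span_singleton]
    exact Int.dvd_natAbs_self
  have := Ideal.mem_comap.mp hmem
  simpa using this

/-- The inertia subgroup (inside the full Galois group) is contained in the decomposition
subgroup. -/
theorem inertiaSubgroupIn_le_decompositionSubgroup (A : ValuationSubring Qb) :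
    A.inertiaSubgroupIn ℚ ≤ A.decompositionSubgroup ℚ := by
  unfold ValuationSubring.inertiaSubgroupIn
  exact Subgroup.map_subtype_le _

section glue

variable {Kf Lf : IntermediateField ℚ Qb} (hKL : Kf ≤ Lf)

/-- Core of the glue: if `g ∈ Gal(Lf/Kf)` restricted to `ℚ` is induced by `s : Gal(Qbar/ℚ)`
which fixes `Lf` pointwise, then `g = 1`. -/
theorem eq_one_of_lift_mem_fixingSubgroup
    (g : letI := algebraOfLE hKL; Lf ≃ₐ[Kf] Lf) (s : GalQ)
    (hs : ∀ x : Lf, s (x : Qb) = (g x : Qb)) (hsL : s ∈ Lf.fixingSubgroup) :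
    g = 1 := by
  letI := algebraOfLE hKL
  apply AlgEquiv.ext
  intro x
  apply Subtype.ext
  rw [← hs x]
  exact (IntermediateField.mem_fixingSubgroup_iff _ _).mp hsL x x.2

/-- A lift of `g ∈ Gal(Lf/Kf)` fixes `Kf` pointwise. -/
theorem lift_mem_fixingSubgroup
    (g : letI := algebraOfLE hKL; Lf ≃ₐ[Kf] Lf) (s : GalQ)
    (hs : ∀ x : Lf, s (x : Qb) = (g x : Qb)) : s ∈ Kf.fixingSubgroup := by
  letI := algebraOfLE hKL
  rw [IntermediateField.mem_fixingSubgroup_iff]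
  intro x hx
  have h1 := hs ⟨x, hKL hx⟩
  have h2 : g (algebraMap Kf Lf ⟨x, hx⟩) = algebraMap Kf Lf ⟨x, hx⟩ := g.commutes _
  have h3 : (algebraMap Kf Lf ⟨x, hx⟩ : Lf) = ⟨x, hKL hx⟩ := rfl
  rw [h3] at h2
  rw [h2] at h1
  exact h1

/-- (U): trivial ideal-theoretic inertia in `Gal(Lf/Kf)` from the valuation-subring inertia
hypothesis. -/
theorem inertia_eq_bot_of_valuationSubring (hlift : LiftsInertia Lf)
    (H : ∀ l : ℕ, l.Prime → ∀ A : ValuationSubring Qb, A.LiesOverPrime l →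
      A.inertiaSubgroupIn ℚ ⊓ Kf.fixingSubgroup ≤ Lf.fixingSubgroup)
    (Q : Ideal (𝓞 Lf)) [Q.IsPrime] (hQ : Q ≠ ⊥) :
    letI := algebraOfLE hKL
    Ideal.inertia (Lf ≃ₐ[Kf] Lf) Q = ⊥ := by
  letI := algebraOfLE hKL
  haveI := isScalarTower_of_le hKL
  rw [eq_bot_iff]
  intro g hg
  rw [Subgroup.mem_bot]
  obtain ⟨l, hl, hlQ⟩ := exists_prime_natCast_mem Q hQ
  obtain ⟨P, hP, s, hPQ, hsP, hsτ⟩ := hlift Q (g.restrictScalars ℚ) (fun x => hg x)
  have hlP : (l : 𝓞 Qb) ∈ P := by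
    have : (l : 𝓞 Lf) ∈ P.comap (algebraMap (𝓞 Lf) (𝓞 Qb)) := hPQ ▸ hlQ
    simpa using this
  have hI := mem_inertiaSubgroupIn_of_trivial P s hsP
  have hK := lift_mem_fixingSubgroup hKL g s hsτ
  exact eq_one_of_lift_mem_fixingSubgroup hKL g s hsτ
    (H l hl _ (valSubringOfPrime_liesOverPrime P l hlP) ⟨hI, hK⟩)

open scoped Pointwise in
/-- (S): trivial decomposition group in `Gal(Lf/Kf)` at the primes above `l` from the
valuation-subring decomposition hypothesis. -/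
theorem stabilizer_eq_bot_of_valuationSubring (hlift : LiftsDecomposition Lf) (l : ℕ)
    (H : ∀ A : ValuationSubring Qb, A.LiesOverPrime l →
      A.decompositionSubgroup ℚ ⊓ Kf.fixingSubgroup ≤ Lf.fixingSubgroup)
    (Q : Ideal (𝓞 Lf)) [Q.IsPrime] (hlQ : (l : 𝓞 Lf) ∈ Q) :
    letI := algebraOfLE hKL
    MulAction.stabilizer (Lf ≃ₐ[Kf] Lf) Q = ⊥ := by
  letI := algebraOfLE hKL
  haveI := isScalarTower_of_le hKL
  rw [eq_bot_iff]
  intro g hg
  rw [Subgroup.mem_bot]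
  rw [MulAction.mem_stabilizer_iff] at hg
  have hstab : ∀ x : 𝓞 Lf, x ∈ Q ↔ (g.restrictScalars ℚ) • x ∈ Q := by
    intro x
    conv_rhs => rw [← hg]
    exact (Ideal.smul_mem_pointwise_smul_iff (a := g) (S := Q) (x := x)).symm
  obtain ⟨P, hP, s, hPQ, hsP, hsτ⟩ := hlift Q (g.restrictScalars ℚ) hstab
  have hlP : (l : 𝓞 Qb) ∈ P := by
    have : (l : 𝓞 Lf) ∈ P.comap (algebraMap (𝓞 Lf) (𝓞 Qb)) := hPQ ▸ hlQ
    simpa using this
  have hD := mem_decompositionSubgroup_of_stabilizes P s hsP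
  have hK := lift_mem_fixingSubgroup hKL g s hsτ
  exact eq_one_of_lift_mem_fixingSubgroup hKL g s hsτ
    (H _ (valSubringOfPrime_liesOverPrime P l hlP) ⟨hD, hK⟩)

/-- (U) with the hypothesis split as it comes out of the admissible-extension data: inertia
hypothesis at the primes `l ≠ p`, decomposition hypothesis at `p`. -/
theorem inertia_eq_bot_of_valuationSubring' (hlift : LiftsInertia Lf) (p : ℕ)
    (hI : ∀ l : ℕ, l.Prime → l ≠ p → ∀ A : ValuationSubring Qb, A.LiesOverPrime l →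
      A.inertiaSubgroupIn ℚ ⊓ Kf.fixingSubgroup ≤ Lf.fixingSubgroup)
    (hD : ∀ A : ValuationSubring Qb, A.LiesOverPrime p →
      A.decompositionSubgroup ℚ ⊓ Kf.fixingSubgroup ≤ Lf.fixingSubgroup)
    (Q : Ideal (𝓞 Lf)) [Q.IsPrime] (hQ : Q ≠ ⊥) :
    letI := algebraOfLE hKL
    Ideal.inertia (Lf ≃ₐ[Kf] Lf) Q = ⊥ := by
  refine inertia_eq_bot_of_valuationSubring hKL hlift (fun l hl A hA => ?_) Q hQ
  by_cases hlp : l = p
  · subst hlp
    exact (inf_le_inf_right _ (inertiaSubgroupIn_le_decompositionSubgroup A)).trans (hD A hA)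
  · exact hI l hl hlp A hA

end glue

end Fermat.Agent.CFT.S14
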