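import Mathlib
import Fermat.Agent.CFT.S14.InertiaLift
import Fermat.Agent.CFT.S14.UnramBridge

/-!
# The lifting properties of `UnramBridge.lean` hold

`LiftsInertia Lf` and `LiftsDecomposition Lf` for every finite normal subextension `Lf` of
`AlgebraicClosure ℚ`, from `InertiaLift.lean`; and the resulting unconditional forms of the
statements (U) and (S) of `UnramBridge.lean`.
-/

set_option autoImplicit false

namespace Fermat.Agent.CFT.S14

open NumberField

theorem liftsInertia_of_normal (Lf : IntermediateField ℚ (AlgebraicClosure ℚ))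
    [FiniteDimensional ℚ Lf] [Normal ℚ Lf] : LiftsInertia Lf :=
  fun Q _ τ hτ => InertiaLift.liftsInertia_shape Q τ hτ

theorem liftsDecomposition_of_normal (Lf : IntermediateField ℚ (AlgebraicClosure ℚ))
    [FiniteDimensional ℚ Lf] [Normal ℚ Lf] : LiftsDecomposition Lf :=
  fun Q _ τ hτ => InertiaLift.liftsDecomposition_shape Q τ hτ

section final

variable {Kf Lf : IntermediateField ℚ (AlgebraicClosure ℚ)} (hKL : Kf ≤ Lf)
  [FiniteDimensional ℚ Lf] [Normal ℚ Lf]

/-- (U), unconditional: trivial ideal-theoretic inertia in `Gal(Lf/Kf)` at every nonzero prime,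
from the valuation-subring hypotheses (inertia at `l ≠ p`, decomposition at `p`). -/
theorem inertia_eq_bot_of_valuationSubring_final (p : ℕ)
    (hI : ∀ l : ℕ, l.Prime → l ≠ p → ∀ A : ValuationSubring (AlgebraicClosure ℚ),
      A.LiesOverPrime l → A.inertiaSubgroupIn ℚ ⊓ Kf.fixingSubgroup ≤ Lf.fixingSubgroup)
    (hD : ∀ A : ValuationSubring (AlgebraicClosure ℚ), A.LiesOverPrime p →
      A.decompositionSubgroup ℚ ⊓ Kf.fixingSubgroup ≤ Lf.fixingSubgroup)
    (Q : Ideal (𝓞 Lf)) [Q.IsPrime] (hQ : Q ≠ ⊥) :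
    letI := algebraOfLE hKL
    Ideal.inertia (Lf ≃ₐ[Kf] Lf) Q = ⊥ :=
  inertia_eq_bot_of_valuationSubring' hKL (liftsInertia_of_normal Lf) p hI hD Q hQ

/-- (U), unconditional, single-hypothesis form. -/
theorem inertia_eq_bot_of_valuationSubring_final'
    (H : ∀ l : ℕ, l.Prime → ∀ A : ValuationSubring (AlgebraicClosure ℚ), A.LiesOverPrime l →
      A.inertiaSubgroupIn ℚ ⊓ Kf.fixingSubgroup ≤ Lf.fixingSubgroup)
    (Q : Ideal (𝓞 Lf)) [Q.IsPrime] (hQ : Q ≠ ⊥) :
    letI := algebraOfLE hKL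
    Ideal.inertia (Lf ≃ₐ[Kf] Lf) Q = ⊥ :=
  inertia_eq_bot_of_valuationSubring hKL (liftsInertia_of_normal Lf) H Q hQ

open scoped Pointwise in
/-- (S), unconditional: trivial decomposition group in `Gal(Lf/Kf)` at the primes above `l`. -/
theorem stabilizer_eq_bot_of_valuationSubring_final (l : ℕ)
    (H : ∀ A : ValuationSubring (AlgebraicClosure ℚ), A.LiesOverPrime l →
      A.decompositionSubgroup ℚ ⊓ Kf.fixingSubgroup ≤ Lf.fixingSubgroup)
    (Q : Ideal (𝓞 Lf)) [Q.IsPrime] (hlQ : (l : 𝓞 Lf) ∈ Q) :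
    letI := algebraOfLE hKL
    MulAction.stabilizer (Lf ≃ₐ[Kf] Lf) Q = ⊥ :=
  stabilizer_eq_bot_of_valuationSubring hKL (liftsDecomposition_of_normal Lf) l H Q hlQ

end final

end Fermat.Agent.CFT.S14
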