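/-
`Fermat/Agent/CFT/S14/Cocycle.lean` (helper7, stream [F], chunk (a1)).

From an admissible extension `0 → C → V → V/C → 0` of `G_ℚ`-modules over `ZMod p`
(`C` trivial of order `p`, `V/C` the cyclotomic character, `#V = p²`) we extract a basis
`e₁ ∈ C`, `e₂ ∉ C` and the cocycle `b : G_ℚ → ZMod p` with
`σ • e₂ = ω σ • e₂ + b σ • e₁`, and prove the purely group-theoretic facts needed for S14.
-/
import Mathlib
import Fermat.Prelude.Def_ExtCitation_AdmissibleExtension_v2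
import Fermat.Prelude.Def_ExtCitation_KummerBridge

set_option autoImplicit false

namespace Fermat.Agent.CFT.S14

open ExtCitation

/-- The absolute Galois group of `ℚ`. -/
local notation "GQ" => (AlgebraicClosure ℚ ≃ₐ[ℚ] AlgebraicClosure ℚ)

variable {p : ℕ} [Fact p.Prime]
variable {V : Type} [AddCommGroup V] [Module (ZMod p) V]
  [DistribMulAction GQ V] [SMulCommClass GQ (ZMod p) V]

/-- The mod `p` cyclotomic character with values in `ZMod p`. -/
noncomputable def omegaZ (p : ℕ) [Fact p.Prime] (σ : GQ) : ZMod p :=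
  ((cycloChar p σ : (ZMod p)ˣ) : ZMod p)

lemma omegaZ_mul (σ τ : GQ) : omegaZ p (σ * τ) = omegaZ p σ * omegaZ p τ := by
  simp [omegaZ, map_mul]

lemma omegaZ_one : omegaZ p (1 : GQ) = 1 := by
  simp [omegaZ]

lemma omegaZ_ne_zero (σ : GQ) : omegaZ p σ ≠ 0 := Units.ne_zero _

lemma omegaZ_inv (σ : GQ) : omegaZ p σ⁻¹ = (omegaZ p σ)⁻¹ := by
  have h : omegaZ p σ⁻¹ * omegaZ p σ = 1 := by
    rw [← omegaZ_mul, inv_mul_cancel, omegaZ_one]
  exact eq_inv_of_mul_eq_one_left h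

lemma omegaZ_eq_one_iff (σ : GQ) : omegaZ p σ = 1 ↔ cycloChar p σ = 1 := by
  unfold omegaZ
  constructor
  · intro h
    exact Units.ext (by simpa using h)
  · intro h
    rw [h]; rfl

lemma omegaZ_eq_cycloExp (σ : GQ) : omegaZ p σ = (cycloExp p σ : ZMod p) :=
  coe_cycloChar p σ

/-- A frame for an admissible extension: basis `e₁ ∈ C`, `e₂ ∉ C` plus the cocycle `b`. -/
structure Frame (p : ℕ) [Fact p.Prime] (V : Type) [AddCommGroup V] [Module (ZMod p) V]
    [DistribMulAction GQ V] (C : Submodule (ZMod p) V) where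
  /-- generator of `C` -/
  e₁ : V
  /-- lift of a generator of `V ⧸ C` -/
  e₂ : V
  /-- the cocycle -/
  b : GQ → ZMod p
  e₁_mem : e₁ ∈ C
  e₁_ne : e₁ ≠ 0
  C_eq : ∀ x ∈ C, ∃ y : ZMod p, x = y • e₁
  e₂_not_mem : e₂ ∉ C
  span : ∀ v : V, ∃ x y : ZMod p, v = x • e₂ + y • e₁
  smul_e₁ : ∀ σ : GQ, σ • e₁ = e₁
  smul_e₂ : ∀ σ : GQ, σ • e₂ = omegaZ p σ • e₂ + b σ • e₁

variable {C : Submodule (ZMod p) V}

theorem exists_frame (hadm : IsAdmissibleExtensionCts p V C) : Nonempty (Frame p V C) := by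
  classical
  have hp : p.Prime := Fact.out
  haveI : Finite V := Nat.finite_of_card_ne_zero (by
    rw [hadm.card_total]; exact pow_ne_zero _ hp.ne_zero)
  haveI : Module.Finite (ZMod p) V := Module.Finite.of_finite
  have hV : Module.finrank (ZMod p) V = 2 := by
    have h := Module.natCard_eq_pow_finrank (K := ZMod p) (V := V)
    rw [hadm.card_total, Nat.card_zmod] at h
    exact (Nat.pow_right_injective hp.two_le h).symm
  have hC : Module.finrank (ZMod p) C = 1 := by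
    have h := Module.natCard_eq_pow_finrank (K := ZMod p) (V := C)
    rw [hadm.card_sub, Nat.card_zmod] at h
    have h' : p ^ 1 = p ^ Module.finrank (ZMod p) C := by rw [pow_one]; exact h
    exact (Nat.pow_right_injective hp.two_le h').symm
  obtain ⟨⟨e₁, he₁C⟩, he₁ne, he₁span⟩ := finrank_eq_one_iff'.mp hC
  have he₁ne' : e₁ ≠ 0 := fun h => he₁ne (by ext; exact h)
  have hQ : Module.finrank (ZMod p) (V ⧸ C) = 1 := by
    have := Submodule.finrank_quotient_add_finrank C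
    omega
  obtain ⟨q, hqne, hqspan⟩ := finrank_eq_one_iff'.mp hQ
  obtain ⟨e₂, rfl⟩ := Submodule.Quotient.mk_surjective C q
  have he₂ : e₂ ∉ C := fun h => hqne ((Submodule.Quotient.mk_eq_zero C).mpr h)
  have hCeq : ∀ x ∈ C, ∃ y : ZMod p, x = y • e₁ := by
    intro x hx
    obtain ⟨c, hc⟩ := he₁span ⟨x, hx⟩
    exact ⟨c, by simpa using (congrArg Subtype.val hc).symm⟩
  have hb : ∀ σ : GQ, ∃ y : ZMod p, σ • e₂ - omegaZ p σ • e₂ = y • e₁ := by
    intro σ
    apply hCeq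
    rw [omegaZ_eq_cycloExp]
    exact hadm.cyclo_quot σ e₂
  choose b hb using hb
  refine ⟨⟨e₁, e₂, b, he₁C, he₁ne', hCeq, he₂, ?_, fun σ => hadm.fixed_sub σ e₁ he₁C, ?_⟩⟩
  · intro v
    obtain ⟨x, hx⟩ := hqspan (Submodule.Quotient.mk v)
    have : v - x • e₂ ∈ C := by
      rw [← Submodule.Quotient.mk_eq_zero C, Submodule.Quotient.mk_sub,
        Submodule.Quotient.mk_smul, hx, sub_self]
    obtain ⟨y, hy⟩ := hCeq _ this
    exact ⟨x, y, by rw [← hy]; abel⟩
  · intro σ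
    rw [← hb σ]; abel

namespace Frame

variable (F : Frame p V C)

include F in
lemma smul_eq_zero_imp {y : ZMod p} (h : y • F.e₁ = 0) : y = 0 := by
  rcases smul_eq_zero.mp h with h | h
  · exact h
  · exact absurd h F.e₁_ne

/-- `e₂, e₁` are linearly independent. -/
lemma lin_indep {x y : ZMod p} (h : x • F.e₂ + y • F.e₁ = 0) : x = 0 ∧ y = 0 := by
  have hx : x = 0 := by
    by_contra hx
    apply F.e₂_not_mem
    have : F.e₂ = (-(x⁻¹ * y)) • F.e₁ := by
      have h1 : x • F.e₂ = -(y • F.e₁) := eq_neg_of_add_eq_zero_left h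
      calc F.e₂ = x⁻¹ • (x • F.e₂) := by rw [smul_smul, inv_mul_cancel₀ hx, one_smul]
        _ = (-(x⁻¹ * y)) • F.e₁ := by rw [h1, smul_neg, smul_smul, neg_smul]
    rw [this]
    exact C.smul_mem _ F.e₁_mem
  subst hx
  refine ⟨rfl, ?_⟩
  rw [zero_smul, zero_add] at h
  exact F.smul_eq_zero_imp h

lemma lin_indep' {x y x' y' : ZMod p} (h : x • F.e₂ + y • F.e₁ = x' • F.e₂ + y' • F.e₁) :
    x = x' ∧ y = y' := by
  have h0 : (x - x') • F.e₂ + (y - y') • F.e₁ = 0 := by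
    rw [sub_smul, sub_smul]
    have := sub_eq_zero.mpr h
    rw [← this]; abel
  obtain ⟨h1, h2⟩ := F.lin_indep h0
  exact ⟨sub_eq_zero.mp h1, sub_eq_zero.mp h2⟩

/-- The action on a general vector. -/
lemma smul_vec (σ : GQ) (x y : ZMod p) :
    σ • (x • F.e₂ + y • F.e₁) = (x * omegaZ p σ) • F.e₂ + (x * F.b σ + y) • F.e₁ := by
  rw [smul_add, smul_comm σ x, smul_comm σ y, F.smul_e₁, F.smul_e₂, smul_add, smul_smul,
    smul_smul, add_smul]
  abel

/-- The cocycle relation `b (σ τ) = ω τ · b σ + b τ`. -/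
theorem b_mul (σ τ : GQ) : F.b (σ * τ) = omegaZ p τ * F.b σ + F.b τ := by
  have h1 : (σ * τ) • F.e₂ = omegaZ p (σ * τ) • F.e₂ + F.b (σ * τ) • F.e₁ := F.smul_e₂ _
  have h2 : (σ * τ) • F.e₂ =
      (omegaZ p τ * omegaZ p σ) • F.e₂ + (omegaZ p τ * F.b σ + F.b τ) • F.e₁ := by
    rw [mul_smul, F.smul_e₂ τ, F.smul_vec]
  rw [h1] at h2
  exact (F.lin_indep' h2).2

theorem b_one : F.b 1 = 0 := by
  have h := F.b_mul 1 1
  rw [one_mul, omegaZ_one, one_mul] at h
  exact left_eq_add.mp h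

theorem b_inv (σ : GQ) : F.b σ⁻¹ = -((omegaZ p σ)⁻¹ * F.b σ) := by
  have h := F.b_mul σ σ⁻¹
  rw [mul_inv_cancel, F.b_one, omegaZ_inv] at h
  exact eq_neg_of_add_eq_zero_right h.symm

/-- On the kernel of `ω` the cocycle is additive. -/
theorem b_mul_of_ker (σ τ : GQ) (hτ : omegaZ p τ = 1) : F.b (σ * τ) = F.b σ + F.b τ := by
  rw [F.b_mul, hτ, one_mul]

/-- Conjugation formula: `b (τ h τ⁻¹) = (ω τ)⁻¹ · b h` for `h ∈ ker ω`. -/
theorem b_conj (τ h : GQ) (hh : omegaZ p h = 1) :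
    F.b (τ * h * τ⁻¹) = (omegaZ p τ)⁻¹ * F.b h := by
  rw [F.b_mul, F.b_mul, F.b_inv, omegaZ_inv, hh]
  ring

/-- `σ` acts trivially on `V` iff `ω σ = 1` and `b σ = 0`. -/
theorem fixes_iff (σ : GQ) : (∀ v : V, σ • v = v) ↔ omegaZ p σ = 1 ∧ F.b σ = 0 := by
  constructor
  · intro h
    have h2 := h F.e₂
    rw [F.smul_e₂] at h2
    have h3 : omegaZ p σ • F.e₂ + F.b σ • F.e₁ = (1 : ZMod p) • F.e₂ + (0 : ZMod p) • F.e₁ := by
      rw [h2, one_smul, zero_smul, add_zero]
    exact F.lin_indep' h3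
  · rintro ⟨h1, h2⟩ v
    obtain ⟨x, y, rfl⟩ := F.span v
    rw [F.smul_vec, h1, h2, mul_one, mul_zero, zero_add]

/-- A complement of `C` stable under a set `D` of automorphisms gives a coboundary on `D`. -/
theorem coboundary_of_stable_compl (D : Set GQ) (C' : Submodule (ZMod p) V)
    (hstab : ∀ σ ∈ D, ∀ x ∈ C', σ • x ∈ C') (hcompl : IsCompl C C') :
    ∃ c : ZMod p, ∀ σ ∈ D, F.b σ = (omegaZ p σ - 1) * c := by
  -- decompose `e₂ = c₀ + c'`
  have htop : F.e₂ ∈ C ⊔ C' := by rw [hcompl.sup_eq_top]; trivial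
  obtain ⟨c₀, hc₀, c', hc', hsum⟩ := Submodule.mem_sup.mp htop
  obtain ⟨y, rfl⟩ := F.C_eq c₀ hc₀
  -- so `c' = e₂ - y • e₁ ∈ C'`
  have hc'eq : c' = (1 : ZMod p) • F.e₂ + (-y) • F.e₁ := by
    rw [← hsum, one_smul, neg_smul]; abel
  refine ⟨-y, fun σ hσ => ?_⟩
  have h1 : σ • c' ∈ C' := hstab σ hσ c' hc'
  have h2 : σ • c' - omegaZ p σ • c' ∈ C' := C'.sub_mem h1 (C'.smul_mem _ hc')
  have h3 : σ • c' - omegaZ p σ • c' = (F.b σ - (omegaZ p σ - 1) * (-y)) • F.e₁ := by
    rw [hc'eq, F.smul_vec]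
    module
  have h4 : (F.b σ - (omegaZ p σ - 1) * (-y)) • F.e₁ ∈ C ⊓ C' :=
    ⟨C.smul_mem _ F.e₁_mem, h3 ▸ h2⟩
  rw [hcompl.inf_eq_bot, Submodule.mem_bot] at h4
  exact sub_eq_zero.mp (F.smul_eq_zero_imp h4)

/-- A global coboundary gives a global splitting. -/
theorem splitsGlobally_of_coboundary (c : ZMod p)
    (hc : ∀ σ : GQ, F.b σ = (omegaZ p σ - 1) * c) : SplitsGlobally C := by
  refine ⟨Submodule.span (ZMod p) {F.e₂ + c • F.e₁}, ?_, ?_⟩
  · intro σ x hx
    obtain ⟨a, rfl⟩ := Submodule.mem_span_singleton.mp hx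
    have : σ • (a • (F.e₂ + c • F.e₁)) = (a * omegaZ p σ) • (F.e₂ + c • F.e₁) := by
      have h1 : a • (F.e₂ + c • F.e₁) = a • F.e₂ + (a * c) • F.e₁ := by
        rw [smul_add, smul_smul]
      rw [h1, F.smul_vec, hc σ, smul_add, smul_smul]
      congr 1
      congr 1
      ring
    rw [this]
    exact Submodule.smul_mem _ _ (Submodule.mem_span_singleton_self _)
  · refine IsCompl.of_eq ?_ ?_
    · rw [Submodule.eq_bot_iff]
      rintro x ⟨hx1, hx2⟩
      obtain ⟨a, rfl⟩ := Submodule.mem_span_singleton.mp hx2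
      by_cases ha : a = 0
      · rw [ha, zero_smul]
      · exfalso
        apply F.e₂_not_mem
        have h1 : F.e₂ + c • F.e₁ ∈ C := by
          have := C.smul_mem a⁻¹ hx1
          rwa [smul_smul, inv_mul_cancel₀ ha, one_smul] at this
        have h2 : F.e₂ = (F.e₂ + c • F.e₁) - c • F.e₁ := by abel
        rw [h2]
        exact C.sub_mem h1 (C.smul_mem _ F.e₁_mem)
    · rw [eq_top_iff]
      rintro v -
      obtain ⟨x, y, rfl⟩ := F.span v
      have h1 : x • F.e₂ + y • F.e₁ = (y - x * c) • F.e₁ + x • (F.e₂ + c • F.e₁) := by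
        rw [sub_smul, smul_add, smul_smul]; abel
      rw [h1]
      exact Submodule.add_mem_sup (C.smul_mem _ F.e₁_mem)
        (Submodule.smul_mem _ _ (Submodule.mem_span_singleton_self _))

/-- If `b` vanishes on `ker ω` then `b` is a coboundary (the image of `ω` has order prime to
`p`; here via the explicit formula). -/
theorem exists_coboundary_of_vanish_on_ker
    (hker : ∀ h : GQ, omegaZ p h = 1 → F.b h = 0) :
    ∃ c : ZMod p, ∀ σ : GQ, F.b σ = (omegaZ p σ - 1) * c := by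
  -- symmetry relation
  have hsymm : ∀ σ τ : GQ, (omegaZ p τ - 1) * F.b σ = (omegaZ p σ - 1) * F.b τ := by
    intro σ τ
    -- `σ τ = τ σ · h` with `h = (τ σ)⁻¹ σ τ ∈ ker ω`
    set h : GQ := (τ * σ)⁻¹ * (σ * τ) with hh
    have hω : omegaZ p h = 1 := by
      rw [hh, omegaZ_mul, omegaZ_inv, omegaZ_mul, omegaZ_mul, mul_comm (omegaZ p τ)]
      exact inv_mul_cancel₀ (mul_ne_zero (omegaZ_ne_zero σ) (omegaZ_ne_zero τ))
    have h1 : σ * τ = (τ * σ) * h := by rw [hh, mul_inv_cancel_left]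
    have h2 : F.b (σ * τ) = F.b (τ * σ) := by
      rw [h1, F.b_mul_of_ker _ _ hω, hker h hω, add_zero]
    rw [F.b_mul, F.b_mul] at h2
    linear_combination h2
  by_cases hall : ∀ σ : GQ, omegaZ p σ = 1
  · exact ⟨0, fun σ => by rw [hker σ (hall σ), mul_zero]⟩
  · obtain ⟨σ₀, hσ₀⟩ := not_forall.mp hall
    have hne : omegaZ p σ₀ - 1 ≠ 0 := sub_ne_zero.mpr hσ₀
    refine ⟨(omegaZ p σ₀ - 1)⁻¹ * F.b σ₀, fun σ => ?_⟩
    have := hsymm σ σ₀
    field_simp
    linear_combination this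

/-- **Key consequence**: a non-split admissible extension has a non-trivial cocycle value on
`ker ω`. -/
theorem exists_ker_ne_zero_of_not_splits (hns : ¬ SplitsGlobally C) :
    ∃ h : GQ, omegaZ p h = 1 ∧ F.b h ≠ 0 := by
  by_contra hcon
  have hcon' : ∀ h : GQ, omegaZ p h = 1 → F.b h = 0 := fun h hh => by
    by_contra hb
    exact hcon ⟨h, hh, hb⟩
  obtain ⟨c, hc⟩ := F.exists_coboundary_of_vanish_on_ker hcon'
  exact hns (F.splitsGlobally_of_coboundary c hc)

end Frame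

/-! ### The subgroups `H = ker ω` and `N = ker (G_ℚ → Aut V)` -/

/-- `H = ker ω`, the subgroup of `G_ℚ` fixing the `p`-th roots of unity. -/
noncomputable def kerOmega (p : ℕ) [Fact p.Prime] : Subgroup GQ := (cycloChar p).ker

instance kerOmega_normal : (kerOmega p).Normal := by
  unfold kerOmega; infer_instance

lemma mem_kerOmega_iff (σ : GQ) : σ ∈ kerOmega p ↔ omegaZ p σ = 1 := by
  rw [omegaZ_eq_one_iff]; exact MonoidHom.mem_ker

/-- `N`, the kernel of the action of `G_ℚ` on `V`. -/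
def kerV (V : Type) [AddCommGroup V] [DistribMulAction GQ V] : Subgroup GQ where
  carrier := {σ | ∀ v : V, σ • v = v}
  one_mem' := fun v => one_smul _ v
  mul_mem' := fun {σ τ} hσ hτ v => by rw [mul_smul, hτ v, hσ v]
  inv_mem' := fun {σ} hσ v => by
    have := congrArg (fun w => σ⁻¹ • w) (hσ v)
    simpa using this.symm

omit [Fact p.Prime] [Module (ZMod p) V] [SMulCommClass GQ (ZMod p) V] in
lemma mem_kerV_iff' (σ : GQ) : σ ∈ kerV V ↔ ∀ v : V, σ • v = v := Iff.rfl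

instance kerV_normal : (kerV V).Normal where
  conj_mem := fun σ hσ τ v => by
    rw [mul_smul, mul_smul, hσ (τ⁻¹ • v), smul_inv_smul]

namespace Frame

variable (F : Frame p V C)

theorem mem_kerV_iff (σ : GQ) : σ ∈ kerV V ↔ σ ∈ kerOmega p ∧ F.b σ = 0 := by
  rw [mem_kerOmega_iff]; exact F.fixes_iff σ

include F in
theorem kerV_le_kerOmega : kerV V ≤ kerOmega p := fun σ hσ => ((F.mem_kerV_iff σ).mp hσ).1

/-- The restriction of the cocycle to `H = ker ω`, as a group homomorphism to `ZMod p`. -/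
noncomputable def bH : kerOmega p →* Multiplicative (ZMod p) where
  toFun h := Multiplicative.ofAdd (F.b (h : GQ))
  map_one' := by simp [F.b_one]
  map_mul' := fun h₁ h₂ => by
    rw [← ofAdd_add]
    congr 1
    exact F.b_mul_of_ker _ _ ((mem_kerOmega_iff _).mp h₂.2)

lemma bH_apply (h : kerOmega p) : F.bH h = Multiplicative.ofAdd (F.b (h : GQ)) := rfl

theorem ker_bH : F.bH.ker = (kerV V).subgroupOf (kerOmega p) := by
  ext h
  rw [MonoidHom.mem_ker, Subgroup.mem_subgroupOf, F.mem_kerV_iff, bH_apply]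
  constructor
  · intro hh
    exact ⟨h.2, by simpa using hh⟩
  · rintro ⟨-, hh⟩
    rw [hh]; rfl

/-- In the non-split case the cocycle restricted to `H` is onto `ZMod p`. -/
theorem bH_surjective (hns : ¬ SplitsGlobally C) : Function.Surjective F.bH := by
  obtain ⟨h, hh, hb⟩ := F.exists_ker_ne_zero_of_not_splits hns
  intro y
  -- `y = n • b h` for a suitable natural number `n`
  have hp : p.Prime := Fact.out
  haveI : NeZero p := ⟨hp.ne_zero⟩
  set n : ℕ := (Multiplicative.toAdd y * (F.b h)⁻¹).val with hn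
  refine ⟨(⟨h, (mem_kerOmega_iff h).mpr hh⟩ : kerOmega p) ^ n, ?_⟩
  rw [map_pow, bH_apply]
  change Multiplicative.ofAdd (F.b h) ^ n = y
  rw [← ofAdd_nsmul, nsmul_eq_mul, hn, ZMod.natCast_val, ZMod.cast_id', id,
    inv_mul_cancel_right₀ hb]
  rfl

/-- Conjugation on `H` in terms of `bH`. -/
theorem bH_conj (τ : GQ) (h : kerOmega p) :
    F.b (τ * h * τ⁻¹) = (omegaZ p τ)⁻¹ * F.b (h : GQ) :=
  F.b_conj τ h ((mem_kerOmega_iff _).mp h.2)

include F in
/-- In the non-split case `[H : N] = p`. -/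
theorem relIndex_kerV (hns : ¬ SplitsGlobally C) : (kerV V).relIndex (kerOmega p) = p := by
  rw [Subgroup.relIndex, ← F.ker_bH, Subgroup.index_ker,
    MonoidHom.range_eq_top.mpr (F.bH_surjective hns)]
  rw [Nat.card_congr (Subgroup.topEquiv (G := Multiplicative (ZMod p))).toEquiv]
  rw [Nat.card_congr Multiplicative.toAdd, Nat.card_zmod]

end Frame

/-! ### Ramification, at the level of `G_ℚ` -/

section Ramification

variable (hadm : IsAdmissibleExtensionCts p V C)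

include hadm

omit [SMulCommClass GQ (ZMod p) V] in
/-- `N` is open. -/
theorem isOpen_kerV : IsOpen ((kerV V : Subgroup GQ) : Set GQ) := hadm.open_kernel

omit [SMulCommClass GQ (ZMod p) V] in
/-- Outside `p`, inertia acts trivially. -/
theorem inertia_le_kerV (ℓ : ℕ) (hℓ : ℓ.Prime) (hℓp : ℓ ≠ p)
    (A : ValuationSubring (AlgebraicClosure ℚ)) (hA : A.LiesOverPrime ℓ) :
    A.inertiaSubgroupIn ℚ ≤ kerV V :=
  fun σ hσ v => hadm.unramified_outside ℓ hℓ hℓp A hA σ hσ v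

/-- At `p`, the decomposition group meets `H = ker ω` inside `N`. -/
theorem decomposition_inf_kerOmega_le_kerV
    (A : ValuationSubring (AlgebraicClosure ℚ)) (hA : A.LiesOverPrime p) :
    A.decompositionSubgroup ℚ ⊓ kerOmega p ≤ kerV V := by
  obtain ⟨F⟩ := exists_frame hadm
  obtain ⟨C', hstab, hcompl⟩ := hadm.locally_split A hA
  obtain ⟨c, hc⟩ := F.coboundary_of_stable_compl
    ((A.decompositionSubgroup ℚ : Subgroup GQ) : Set GQ) C' hstab hcompl
  rintro σ ⟨hσD, hσH⟩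
  rw [F.mem_kerV_iff]
  refine ⟨hσH, ?_⟩
  rw [hc σ hσD, (mem_kerOmega_iff σ).mp hσH, sub_self, zero_mul]

end Ramification

end Fermat.Agent.CFT.S14
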