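import Mathlib
import Fermat.Agent.CFT.S14.Cocycle
import Fermat.Agent.CFT.S14.CycloField
import Fermat.Agent.CFT.S14.FieldL

set_option autoImplicit false

/-!
# S14: bridge between `Cocycle.lean` (`kerOmega`, `omegaZ`) and `CycloField.lean` (`cycloKf`)

* `kerOmega_eq_fixingSubgroup : kerOmega p = (cycloKf p).fixingSubgroup`
* `fixedField_kerOmega : IntermediateField.fixedField (kerOmega p) = cycloKf p`
* `omegaZ_eq_galEquivZMod`, `cycloChar_eq_galEquivZMod` : the mod `p` cyclotomic character of `s`
  is `galEquivZMod p (cycloKf p)` of the restriction of `s` to `cycloKf p`.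
-/

namespace Fermat.Agent.CFT.S14

open IsCyclotomicExtension IsCyclotomicExtension.Rat ExtCitation

variable (p : ℕ) [hp : Fact p.Prime]

/-- membership in `kerOmega` in terms of the prelude's `cycloExp`. -/
theorem mem_kerOmega_iff_cycloExp (s : AlgebraicClosure ℚ ≃ₐ[ℚ] AlgebraicClosure ℚ) :
    s ∈ kerOmega p ↔ cycloExp p s = 1 := by
  have hp0 : NeZero p := ⟨hp.out.ne_zero⟩
  have hp1 : Fact (1 < p) := ⟨hp.out.one_lt⟩
  rw [mem_kerOmega_iff, omegaZ_eq_cycloExp]
  constructor
  · intro h
    have h1 := congrArg ZMod.val h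
    rwa [ZMod.val_natCast, ZMod.val_one, Nat.mod_eq_of_lt (cycloExp_lt p s)] at h1
  · intro h
    rw [h, Nat.cast_one]

/-- The kernel of the mod `p` cyclotomic character is the fixing subgroup of `ℚ(ζ_p)`. -/
theorem kerOmega_eq_fixingSubgroup : kerOmega p = (cycloKf p).fixingSubgroup := by
  ext s
  rw [mem_kerOmega_iff_cycloExp, mem_fixingSubgroup_cycloKf_iff]

/-- The fixed field of the kernel of the mod `p` cyclotomic character is `ℚ(ζ_p)`. -/
theorem fixedField_kerOmega : IntermediateField.fixedField (kerOmega p) = cycloKf p := by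
  rw [kerOmega_eq_fixingSubgroup]
  exact InfiniteGalois.fixedField_fixingSubgroup (cycloKf p)

/-- The mod `p` cyclotomic character is `galEquivZMod` of the restriction to `ℚ(ζ_p)`
(value in `ZMod p`). -/
theorem omegaZ_eq_galEquivZMod (s : AlgebraicClosure ℚ ≃ₐ[ℚ] AlgebraicClosure ℚ) :
    omegaZ p s =
      ((galEquivZMod p (cycloKf p) (AlgEquiv.restrictNormal s (cycloKf p)) : (ZMod p)ˣ) :
        ZMod p) := by
  have hp0 : NeZero p := ⟨hp.out.ne_zero⟩
  rw [omegaZ_eq_cycloExp, ← galEquivZMod_restrictNormal_val, ZMod.natCast_zmod_val]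

/-- The mod `p` cyclotomic character is `galEquivZMod` of the restriction to `ℚ(ζ_p)`
(as units). -/
theorem cycloChar_eq_galEquivZMod (s : AlgebraicClosure ℚ ≃ₐ[ℚ] AlgebraicClosure ℚ) :
    cycloChar p s = galEquivZMod p (cycloKf p) (AlgEquiv.restrictNormal s (cycloKf p)) :=
  Units.ext (omegaZ_eq_galEquivZMod p s)

/-- Inverse form, as used in the conjugation exponent of `no_extension`. -/
theorem omegaZ_inv_eq_galEquivZMod_inv (s : AlgebraicClosure ℚ ≃ₐ[ℚ] AlgebraicClosure ℚ) :
    (omegaZ p s)⁻¹ =
      (((galEquivZMod p (cycloKf p) (AlgEquiv.restrictNormal s (cycloKf p)))⁻¹ : (ZMod p)ˣ) :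
        ZMod p) := by
  rw [omegaZ_eq_galEquivZMod, Units.val_inv_eq_inv_val]

/-- Restricting to `L` and then to `K ≤ L` (with `algebraOfLE`) is restricting to `K`. -/
theorem restrictNormal_restrictNormal_of_le {k E : Type*} [Field k] [Field E] [Algebra k E]
    {K L : IntermediateField k E} (h : K ≤ L) [Normal k K] [Normal k L] (t : E ≃ₐ[k] E) :
    letI := algebraOfLE h
    haveI := isScalarTower_of_le h
    (t.restrictNormal L).restrictNormal K = t.restrictNormal K := by
  letI := algebraOfLE h
  haveI := isScalarTower_of_le h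
  ext x
  have h1 := AlgEquiv.restrictNormal_commutes (t.restrictNormal L) K x
  have h2 := AlgEquiv.restrictNormal_commutes t L (algebraMap K L x)
  have h3 := AlgEquiv.restrictNormal_commutes t K x
  have h4 : (((t.restrictNormal L).restrictNormal K x : K) : E) = t (x : E) := by
    have h5 := congrArg (fun y : L => (y : E)) h1
    exact h5.trans h2
  rw [h4]
  exact h3.symm

/-- `ℚ`-version of `restrictNormal_restrictNormal_of_le`, with all instances the ones found by
instance resolution over `ℚ` (i.e. `DivisionRing.toRatAlgebra`, as needed for `no_extension`). -/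
theorem restrictNormal_restrictNormal_cycloKf
    {L : IntermediateField ℚ (AlgebraicClosure ℚ)} (h : cycloKf p ≤ L) [Normal ℚ L]
    (s : AlgebraicClosure ℚ ≃ₐ[ℚ] AlgebraicClosure ℚ) :
    letI := algebraOfLE h
    haveI : IsScalarTower ℚ (cycloKf p) L := isScalarTower_of_le h
    (s.restrictNormal L).restrictNormal (cycloKf p) = s.restrictNormal (cycloKf p) := by
  letI := algebraOfLE h
  haveI : IsScalarTower ℚ (cycloKf p) L := isScalarTower_of_le h
  ext x
  have h1 := AlgEquiv.restrictNormal_commutes (s.restrictNormal L) (cycloKf p) x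
  have h2 := AlgEquiv.restrictNormal_commutes s L (algebraMap (cycloKf p) L x)
  have h3 := AlgEquiv.restrictNormal_commutes s (cycloKf p) x
  have h4 : (((s.restrictNormal L).restrictNormal (cycloKf p) x : cycloKf p) :
      AlgebraicClosure ℚ) = s (x : AlgebraicClosure ℚ) := by
    have h5 := congrArg (fun y : L => (y : AlgebraicClosure ℚ)) h1
    exact h5.trans h2
  rw [h4]
  exact h3.symm

/-- The conjugation exponent of `no_extension` for `t = s|_L`, `K = ℚ(ζ_p) ≤ L`:
`galEquivZMod` of `(s|_L)|_K` is the cyclotomic character of `s`. -/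
theorem galEquivZMod_restrictNormal_restrictNormal
    {L : IntermediateField ℚ (AlgebraicClosure ℚ)} (h : cycloKf p ≤ L) [Normal ℚ L]
    (s : AlgebraicClosure ℚ ≃ₐ[ℚ] AlgebraicClosure ℚ) :
    letI := algebraOfLE h
    haveI : IsScalarTower ℚ (cycloKf p) L := isScalarTower_of_le h
    galEquivZMod p (cycloKf p) ((s.restrictNormal L).restrictNormal (cycloKf p)) =
      cycloChar p s := by
  letI := algebraOfLE h
  haveI : IsScalarTower ℚ (cycloKf p) L := isScalarTower_of_le h
  rw [restrictNormal_restrictNormal_cycloKf p h s, cycloChar_eq_galEquivZMod]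

/-- Same, in the exact shape of the exponent in `no_extension`'s `hconj`. -/
theorem galEquivZMod_inv_val_restrictNormal_restrictNormal
    {L : IntermediateField ℚ (AlgebraicClosure ℚ)} (h : cycloKf p ≤ L) [Normal ℚ L]
    (s : AlgebraicClosure ℚ ≃ₐ[ℚ] AlgebraicClosure ℚ) :
    letI := algebraOfLE h
    haveI : IsScalarTower ℚ (cycloKf p) L := isScalarTower_of_le h
    ((((galEquivZMod p (cycloKf p) ((s.restrictNormal L).restrictNormal (cycloKf p)))⁻¹ :
      (ZMod p)ˣ) : ZMod p)) = (omegaZ p s)⁻¹ := by
  letI := algebraOfLE h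
  haveI : IsScalarTower ℚ (cycloKf p) L := isScalarTower_of_le h
  rw [galEquivZMod_restrictNormal_restrictNormal p h s, Units.val_inv_eq_inv_val]
  rfl

end Fermat.Agent.CFT.S14
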