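import Mathlib
import Fermat.Agent.CFT.S14.FieldL

set_option autoImplicit false
set_option linter.unusedSectionVars false

/-!
# S14 endgame (a2L), complement: relative Galois group of two intermediate fields

`E / k` Galois, `K ≤ L` intermediate fields with `L / k` normal.  In terms of the algebra structure
`algebraOfLE hKL`: `L / K` is Galois, `Gal(L/K) ≃ K.fixingSubgroup / L.fixingSubgroup`,
`card Gal(L/K) = relIndex`, and conjugation is computed pointwise in `E`.
-/

namespace Fermat.Agent.CFT.S14

open IntermediateField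

variable {k E : Type*} [Field k] [Field E] [Algebra k E] [IsGalois k E]
variable {K L : IntermediateField k E}

theorem isGalois_of_le (hKL : K ≤ L) [IsGalois k L] :
    letI := algebraOfLE hKL
    IsGalois K L := by
  letI := algebraOfLE hKL
  haveI := isScalarTower_of_le hKL
  exact IsGalois.tower_top_of_isGalois k K L

theorem finiteDimensional_of_le (hKL : K ≤ L) [FiniteDimensional k L] :
    letI := algebraOfLE hKL
    FiniteDimensional K L := by
  letI := algebraOfLE hKL
  haveI := isScalarTower_of_le hKL
  exact FiniteDimensional.right k K L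

/-- `Gal(L/K) ≃ K.fixingSubgroup / (L.fixingSubgroup ∩ K.fixingSubgroup)`. -/
noncomputable def relRestrictEquiv (hKL : K ≤ L) [Normal k L] :
    (K.fixingSubgroup ⧸ (relRestrict hKL).ker) ≃* (letI := algebraOfLE hKL; L ≃ₐ[K] L) :=
  QuotientGroup.quotientKerEquivOfSurjective _ (relRestrict_surjective hKL)

theorem card_gal_of_le (hKL : K ≤ L) [Normal k L] :
    letI := algebraOfLE hKL
    Nat.card (L ≃ₐ[K] L) = L.fixingSubgroup.relIndex K.fixingSubgroup := by
  letI := algebraOfLE hKL
  rw [← Nat.card_congr (relRestrictEquiv hKL).toEquiv, relRestrict_ker]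
  rfl

/-- Conjugation, pointwise: if `s` normalises `K.fixingSubgroup` (e.g. `K / k` normal), the
restriction of `s σ s⁻¹` to `L` is `s ∘ σ ∘ s⁻¹`. -/
theorem relRestrict_conj_apply (hKL : K ≤ L) [Normal k L] (s : E ≃ₐ[k] E)
    (σ : K.fixingSubgroup) (hs : s * σ.1 * s⁻¹ ∈ K.fixingSubgroup) (x : L) :
    letI := algebraOfLE hKL
    ((relRestrict hKL ⟨s * σ.1 * s⁻¹, hs⟩ x : L) : E) = s (σ.1 (s⁻¹ (x : E))) := by
  letI := algebraOfLE hKL
  rw [relRestrict_apply]
  rfl

/-- restriction of `s : Gal(E/k)` to `L`, pointwise. -/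
theorem restrictNormal_apply_coe [Normal k L] (s : E ≃ₐ[k] E) (x : L) :
    ((s.restrictNormal L x : L) : E) = s (x : E) :=
  AlgEquiv.restrictNormal_commutes s L x

end Fermat.Agent.CFT.S14
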