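import Mathlib
import Fermat.Agent.CFT.Global.ArtinSymbol

set_option autoImplicit false

/-!
# The interface between stream [C] (global class field theory) and stream [F] (S14 endgame)

`HCFStar p` is the one statement about number fields that the proof of S14 consumes:
for `K = ℚ(ζ_p)` and `L / K` Galois of degree `p`, unramified at every finite prime and with the
primes above `p` splitting completely, the ideal-theoretic Artin symbol `artinIdeal K L` is trivial
on principal ideals generated by elements prime to `p` (R1) and some prime has nontrivial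
Frobenius (R3).
-/

open scoped NumberField Pointwise

namespace Fermat.Agent.CFT.S14

/-- The exact statement stream [C] delivers (fields in `Type`, since ours are subfields of
`AlgebraicClosure ℚ`). -/
def HCFStar (p : ℕ) [Fact p.Prime] : Prop :=
  ∀ (K L : Type) [Field K] [NumberField K] [IsCyclotomicExtension {p} ℚ K] [Field L]
    [NumberField L] [Algebra K L] [IsGalois K L] [IsMulCommutative (L ≃ₐ[K] L)],
    Nat.card (L ≃ₐ[K] L) = p →
    (∀ (Q : Ideal (𝓞 L)) [Q.IsPrime], Q ≠ ⊥ → Ideal.inertia (L ≃ₐ[K] L) Q = ⊥) →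
    (∀ (Q : Ideal (𝓞 L)) [Q.IsPrime], (p : 𝓞 L) ∈ Q →
      MulAction.stabilizer (L ≃ₐ[K] L) Q = ⊥) →
    (∀ x : 𝓞 K, x ≠ 0 → (∀ (q : Ideal (𝓞 K)) [q.IsPrime], (p : 𝓞 K) ∈ q → x ∉ q) →
      Fermat.Agent.CFT.artinIdeal K L (Ideal.span {x}) = 1) ∧
    (∃ q : Ideal (𝓞 K), q.IsPrime ∧ q ≠ ⊥ ∧ Fermat.Agent.CFT.artinIdeal K L q ≠ 1)

end Fermat.Agent.CFT.S14
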