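import Mathlib

/-!
# The `ω⁻¹`-part of the Artin map of `ℚ(ζ_p)` is trivial (Herbrand for `B₂`, via Jacobi sums)

Abstract consumer of the Jacobi-sum factorisation: let `K` be a number field with an isomorphism
`ω : Gal(K/ℚ) ≃* (ZMod p)ˣ`, `Γ` a commutative group of exponent `p` and `Ψ` a multiplicative
function on the nonzero ideals of `𝓞 K` with values in `Γ`, trivial on principal ideals and with
`Ψ (σ • 𝔮) = Ψ 𝔮 ^ (ω σ)⁻¹`.  If for every prime `𝔮` with trivial stabiliser the ideal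
`∏_{ω σ ≤ (p-1)/2} σ⁻¹ • 𝔮` is principal (Jacobi sum), then `Ψ 𝔮 = 1` for every nonzero prime
`𝔮`; hence every such `Ψ` (e.g. one coming from a hom on the class group) is trivial.

Main statements: `psi_prime_eq_one`, `psi_eq_one`, `classGroupHom_eq_one`.
-/

set_option autoImplicit false

open scoped Pointwise NumberField nonZeroDivisors

namespace Fermat.Agent.CFT.S14.Herbrand

section Arith

/-- `∑_{a=1}^{(p-1)/2} a` is prime to the odd prime `p`. -/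
theorem not_dvd_sum_Icc {p : ℕ} (hp : p.Prime) (hp2 : p ≠ 2) :
    ¬ p ∣ ∑ a ∈ Finset.Icc 1 ((p - 1) / 2), a := by
  set m := (p - 1) / 2 with hm
  have h5 : 3 ≤ p := by
    have := hp.two_le
    omega
  have hodd : p % 2 = 1 := by
    rcases hp.eq_two_or_odd with h | h
    · exact absurd h hp2
    · exact h
  have hm1 : 2 * m + 1 = p := by omega
  have hsum : (∑ a ∈ Finset.Icc 1 m, a) * 2 = m * (m + 1) := by
    have h1 : ∑ a ∈ Finset.Icc 1 m, a = ∑ a ∈ Finset.range (m + 1), a := by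
      rw [Finset.range_eq_Ico, Finset.sum_Ico_eq_sum_range]
      rw [show Finset.Icc 1 m = Finset.Ico 1 (m + 1) from rfl]
      rw [Finset.sum_Ico_eq_sum_range]
      simp only [Nat.sub_zero, zero_add, Nat.add_sub_cancel]
      rw [Finset.sum_range_succ' (fun i => i)]
      simp [add_comm]
    rw [h1, Finset.sum_range_id_mul_two]
    simp [mul_comm]
  intro hdvd
  have h2 : p ∣ m * (m + 1) := by
    rw [← hsum]
    exact Dvd.dvd.mul_right hdvd 2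
  rcases (Nat.Prime.dvd_mul hp).1 h2 with h | h
  · have := Nat.le_of_dvd (by omega) h
    omega
  · have := Nat.le_of_dvd (by omega) h
    omega

/-- Transport of `∑_{a ≤ m} a` along an isomorphism `ω : G ≃* (ZMod p)ˣ`. -/
theorem sum_filter_val_eq {p : ℕ} [Fact p.Prime] {G : Type*} [Group G] [Fintype G]
    (ω : G ≃* (ZMod p)ˣ) (m : ℕ) (hm : m < p) :
    ∑ σ ∈ Finset.univ.filter (fun σ : G => ((ω σ : (ZMod p)ˣ) : ZMod p).val ≤ m),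
        ((ω σ : (ZMod p)ˣ) : ZMod p).val = ∑ a ∈ Finset.Icc 1 m, a := by
  classical
  have hp : p.Prime := Fact.out
  refine Finset.sum_nbij' (fun σ => ((ω σ : (ZMod p)ˣ) : ZMod p).val)
    (fun a => if h : ((a : ZMod p)) ≠ 0 then ω.symm (Units.mk0 (a : ZMod p) h) else 1) ?_ ?_ ?_ ?_ ?_
  · intro σ hσ
    simp only [Finset.mem_filter, Finset.mem_univ, true_and] at hσ
    simp only [Finset.mem_Icc]
    refine ⟨?_, hσ⟩
    have : ((ω σ : (ZMod p)ˣ) : ZMod p) ≠ 0 := Units.ne_zero _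
    have h2 : ((ω σ : (ZMod p)ˣ) : ZMod p).val ≠ 0 := by
      rwa [Ne, ZMod.val_eq_zero]
    omega
  · intro a ha
    simp only [Finset.mem_Icc] at ha
    have hne : ((a : ZMod p)) ≠ 0 := by
      rw [Ne, ZMod.natCast_eq_zero_iff]
      intro hd
      have := Nat.le_of_dvd (by omega) hd
      omega
    simp only [Finset.mem_filter, Finset.mem_univ, true_and, dif_pos hne, MulEquiv.apply_symm_apply,
      Units.val_mk0]
    rw [ZMod.val_natCast_of_lt (by omega)]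
    exact ha.2
  · intro σ hσ
    have hne : ((((ω σ : (ZMod p)ˣ) : ZMod p).val : ℕ) : ZMod p) ≠ 0 := by
      rw [ZMod.natCast_zmod_val]
      exact Units.ne_zero _
    simp only [dif_pos hne]
    apply ω.injective
    rw [MulEquiv.apply_symm_apply]
    ext
    simp
  · intro a ha
    simp only [Finset.mem_Icc] at ha
    have hne : ((a : ZMod p)) ≠ 0 := by
      rw [Ne, ZMod.natCast_eq_zero_iff]
      intro hd
      have := Nat.le_of_dvd (by omega) hd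
      omega
    simp only [dif_pos hne, MulEquiv.apply_symm_apply, Units.val_mk0]
    rw [ZMod.val_natCast_of_lt (by omega)]
  · intro σ _
    rfl

theorem eq_one_of_pow_eq_one_of_not_dvd {Γ : Type*} [Group Γ] {p E : ℕ} (hp : p.Prime)
    {g : Γ} (h1 : g ^ p = 1) (h2 : g ^ E = 1) (hE : ¬ p ∣ E) : g = 1 := by
  have hd1 := orderOf_dvd_of_pow_eq_one h1
  have hd2 := orderOf_dvd_of_pow_eq_one h2
  have hcop : Nat.Coprime p E := (Nat.Prime.coprime_iff_not_dvd hp).2 hE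
  have : orderOf g ∣ Nat.gcd p E := Nat.dvd_gcd hd1 hd2
  rw [hcop] at this
  exact orderOf_eq_one_iff.1 (Nat.dvd_one.1 this)

end Arith

section Ideals

/-- A multiplicative function on nonzero ideals is multiplicative on finite products. -/
theorem psi_prod {R : Type*} [CommRing R] [IsDomain R] {Γ : Type*} [CommGroup Γ] (Ψ : Ideal R → Γ)
    (hmul : ∀ I J : Ideal R, I ≠ ⊥ → J ≠ ⊥ → Ψ (I * J) = Ψ I * Ψ J)
    (htop : Ψ ⊤ = 1) {ι : Type*} (s : Finset ι) (f : ι → Ideal R) (hf : ∀ i ∈ s, f i ≠ ⊥) :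
    Ψ (∏ i ∈ s, f i) = ∏ i ∈ s, Ψ (f i) := by
  classical
  induction s using Finset.induction_on with
  | empty => simpa using htop
  | insert a s ha ih =>
    rw [Finset.prod_insert ha, Finset.prod_insert ha, hmul, ih]
    · intro i hi; exact hf i (Finset.mem_insert_of_mem hi)
    · exact hf a (Finset.mem_insert_self a s)
    · rw [← Ideal.zero_eq_bot, Finset.prod_ne_zero_iff]
      intro i hi
      exact hf i (Finset.mem_insert_of_mem hi)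

/-- A multiplicative function on nonzero ideals of a Dedekind domain which is trivial on primes
is trivial. -/
theorem psi_eq_one_of_prime {R : Type*} [CommRing R] [IsDedekindDomain R] {Γ : Type*}
    [CommGroup Γ] (Ψ : Ideal R → Γ)
    (hmul : ∀ I J : Ideal R, I ≠ ⊥ → J ≠ ⊥ → Ψ (I * J) = Ψ I * Ψ J)
    (htop : Ψ ⊤ = 1)
    (hprime : ∀ 𝔮 : Ideal R, 𝔮.IsPrime → 𝔮 ≠ ⊥ → Ψ 𝔮 = 1) :
    ∀ I : Ideal R, I ≠ ⊥ → Ψ I = 1 := by
  intro I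
  induction I using UniqueFactorizationMonoid.induction_on_prime with
  | h₁ => intro h; exact absurd rfl h
  | h₂ x hx =>
    intro _
    rw [Ideal.isUnit_iff] at hx
    rw [hx, htop]
  | h₃ a q ha hq ih =>
    intro h
    have hq0 : q ≠ ⊥ := hq.ne_zero
    rw [hmul q a hq0 ha, ih ha, hprime q (Ideal.isPrime_of_prime hq) hq0, one_mul]

theorem smul_ideal_ne_bot {R : Type*} [CommRing R] {G : Type*} [Group G] [MulSemiringAction G R]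
    (σ : G) {I : Ideal R} (hI : I ≠ ⊥) : σ • I ≠ ⊥ := by
  intro h
  apply hI
  have : σ⁻¹ • (σ • I) = σ⁻¹ • (⊥ : Ideal R) := by rw [h]
  rwa [inv_smul_smul, Ideal.smul_bot] at this

end Ideals

section Main

variable {p : ℕ} [Fact p.Prime] {K : Type*} [Field K] [NumberField K]
  {Γ : Type*} [CommGroup Γ]

/-- **Core lemma.** `Ψ` multiplicative on nonzero ideals, trivial on principal ideals,
`ω⁻¹`-equivariant, with values in a group of exponent `p`; given the Jacobi-sum factorisation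
`hfac` for the primes with trivial stabiliser, `Ψ` kills every nonzero prime. -/
theorem psi_prime_eq_one (hp2 : p ≠ 2)
    (ω : (K ≃ₐ[ℚ] K) ≃* (ZMod p)ˣ)
    (hΓ : ∀ g : Γ, g ^ p = 1)
    (Ψ : Ideal (𝓞 K) → Γ)
    (hmul : ∀ I J : Ideal (𝓞 K), I ≠ ⊥ → J ≠ ⊥ → Ψ (I * J) = Ψ I * Ψ J)
    (hprinc : ∀ x : 𝓞 K, x ≠ 0 → Ψ (Ideal.span {x}) = 1)
    (hequiv : ∀ (σ : K ≃ₐ[ℚ] K) (𝔮 : Ideal (𝓞 K)), 𝔮.IsPrime → 𝔮 ≠ ⊥ →
      Ψ (σ • 𝔮) = Ψ 𝔮 ^ (((ω σ)⁻¹ : (ZMod p)ˣ) : ZMod p).val)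
    (hfac : ∀ 𝔮 : Ideal (𝓞 K), 𝔮.IsPrime → 𝔮 ≠ ⊥ → (∀ σ : K ≃ₐ[ℚ] K, σ • 𝔮 = 𝔮 → σ = 1) →
      ∃ J : 𝓞 K, J ≠ 0 ∧ Ideal.span {J} =
        ∏ σ ∈ Finset.univ.filter
          (fun σ : K ≃ₐ[ℚ] K => ((ω σ : (ZMod p)ˣ) : ZMod p).val ≤ (p - 1) / 2), σ⁻¹ • 𝔮)
    (𝔮 : Ideal (𝓞 K)) (h𝔮 : 𝔮.IsPrime) (h0 : 𝔮 ≠ ⊥) : Ψ 𝔮 = 1 := by
  classical
  have hp : p.Prime := Fact.out
  have hp3 : 3 ≤ p := by have := hp.two_le; omega
  have htop : Ψ ⊤ = 1 := by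
    have := hprinc 1 one_ne_zero
    rwa [Ideal.span_singleton_one] at this
  by_cases hstab : ∀ σ : K ≃ₐ[ℚ] K, σ • 𝔮 = 𝔮 → σ = 1
  · -- trivial stabiliser: use the factorisation
    obtain ⟨J, hJ0, hJ⟩ := hfac 𝔮 h𝔮 h0 hstab
    have h1 : Ψ (Ideal.span {J}) = 1 := hprinc J hJ0
    rw [hJ, psi_prod Ψ hmul htop _ _ (fun σ _ => smul_ideal_ne_bot σ⁻¹ h0)] at h1
    have h2 : ∀ σ : K ≃ₐ[ℚ] K, Ψ (σ⁻¹ • 𝔮) = Ψ 𝔮 ^ ((ω σ : (ZMod p)ˣ) : ZMod p).val := by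
      intro σ
      rw [hequiv σ⁻¹ 𝔮 h𝔮 h0, map_inv, inv_inv]
    simp only [h2] at h1
    rw [Finset.prod_pow_eq_pow_sum, sum_filter_val_eq ω ((p - 1) / 2) (by omega)] at h1
    exact eq_one_of_pow_eq_one_of_not_dvd hp (hΓ _) h1 (not_dvd_sum_Icc hp hp2)
  · -- nontrivial stabiliser
    obtain ⟨σ, hσ, hσ1⟩ : ∃ σ : K ≃ₐ[ℚ] K, σ • 𝔮 = 𝔮 ∧ σ ≠ 1 := by
      by_contra hcon
      exact hstab fun σ hσ => by_contra fun hne => hcon ⟨σ, hσ, hne⟩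
    have hne : (ω σ)⁻¹ ≠ 1 := by
      intro h
      apply hσ1
      apply ω.injective
      rw [map_one, ← inv_inj, h, inv_one]
    set n := (((ω σ)⁻¹ : (ZMod p)ˣ) : ZMod p).val with hn
    have hn0 : n ≠ 0 := by
      rw [hn, Ne, ZMod.val_eq_zero]
      exact Units.ne_zero _
    have hn1 : n ≠ 1 := by
      intro h
      apply hne
      ext
      have h1 : ((1 : (ZMod p)ˣ) : ZMod p).val = 1 := by
        have : Fact (1 < p) := ⟨hp.one_lt⟩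
        simp [ZMod.val_one]
      exact ZMod.val_injective p (by rw [← hn, h, h1])
    have hnp : n < p := ZMod.val_lt _
    have hg : Ψ 𝔮 = Ψ 𝔮 ^ n := by
      have := hequiv σ 𝔮 h𝔮 h0
      rwa [hσ] at this
    have hg' : Ψ 𝔮 ^ (n - 1) = 1 := by
      have : Ψ 𝔮 ^ (n - 1) * Ψ 𝔮 = 1 * Ψ 𝔮 := by
        rw [← pow_succ, Nat.sub_add_cancel (by omega), one_mul, ← hg]
      exact mul_right_cancel this
    refine eq_one_of_pow_eq_one_of_not_dvd hp (hΓ _) hg' ?_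
    intro hd
    have := Nat.le_of_dvd (by omega) hd
    omega

/-- Under the hypotheses of `psi_prime_eq_one`, `Ψ` is trivial on every nonzero ideal. -/
theorem psi_eq_one (hp2 : p ≠ 2)
    (ω : (K ≃ₐ[ℚ] K) ≃* (ZMod p)ˣ)
    (hΓ : ∀ g : Γ, g ^ p = 1)
    (Ψ : Ideal (𝓞 K) → Γ)
    (hmul : ∀ I J : Ideal (𝓞 K), I ≠ ⊥ → J ≠ ⊥ → Ψ (I * J) = Ψ I * Ψ J)
    (hprinc : ∀ x : 𝓞 K, x ≠ 0 → Ψ (Ideal.span {x}) = 1)
    (hequiv : ∀ (σ : K ≃ₐ[ℚ] K) (𝔮 : Ideal (𝓞 K)), 𝔮.IsPrime → 𝔮 ≠ ⊥ →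
      Ψ (σ • 𝔮) = Ψ 𝔮 ^ (((ω σ)⁻¹ : (ZMod p)ˣ) : ZMod p).val)
    (hfac : ∀ 𝔮 : Ideal (𝓞 K), 𝔮.IsPrime → 𝔮 ≠ ⊥ → (∀ σ : K ≃ₐ[ℚ] K, σ • 𝔮 = 𝔮 → σ = 1) →
      ∃ J : 𝓞 K, J ≠ 0 ∧ Ideal.span {J} =
        ∏ σ ∈ Finset.univ.filter
          (fun σ : K ≃ₐ[ℚ] K => ((ω σ : (ZMod p)ˣ) : ZMod p).val ≤ (p - 1) / 2), σ⁻¹ • 𝔮)
    (I : Ideal (𝓞 K)) (hI : I ≠ ⊥) : Ψ I = 1 := by
  have htop : Ψ ⊤ = 1 := by
    have := hprinc 1 one_ne_zero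
    rwa [Ideal.span_singleton_one] at this
  exact psi_eq_one_of_prime Ψ hmul htop
    (fun 𝔮 h𝔮 h0 => psi_prime_eq_one hp2 ω hΓ Ψ hmul hprinc hequiv hfac 𝔮 h𝔮 h0) I hI

/-- **Class-group form.** A homomorphism `Φ : Cl(K) →* Γ` (`Γ` of exponent `p`) which is
`ω⁻¹`-equivariant on prime classes is trivial, given the Jacobi-sum factorisation `hfac`. -/
theorem classGroupHom_eq_one (hp2 : p ≠ 2)
    (ω : (K ≃ₐ[ℚ] K) ≃* (ZMod p)ˣ)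
    (hΓ : ∀ g : Γ, g ^ p = 1)
    (Φ : ClassGroup (𝓞 K) →* Γ)
    (hequiv : ∀ (σ : K ≃ₐ[ℚ] K) (𝔮 : Ideal (𝓞 K)) (_ : 𝔮.IsPrime) (h0 : 𝔮 ≠ ⊥),
      Φ (ClassGroup.mk0 ⟨σ • 𝔮, mem_nonZeroDivisors_of_ne_zero (smul_ideal_ne_bot σ h0)⟩) =
        Φ (ClassGroup.mk0 ⟨𝔮, mem_nonZeroDivisors_of_ne_zero h0⟩) ^
          (((ω σ)⁻¹ : (ZMod p)ˣ) : ZMod p).val)
    (hfac : ∀ 𝔮 : Ideal (𝓞 K), 𝔮.IsPrime → 𝔮 ≠ ⊥ → (∀ σ : K ≃ₐ[ℚ] K, σ • 𝔮 = 𝔮 → σ = 1) →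
      ∃ J : 𝓞 K, J ≠ 0 ∧ Ideal.span {J} =
        ∏ σ ∈ Finset.univ.filter
          (fun σ : K ≃ₐ[ℚ] K => ((ω σ : (ZMod p)ˣ) : ZMod p).val ≤ (p - 1) / 2), σ⁻¹ • 𝔮)
    (c : ClassGroup (𝓞 K)) : Φ c = 1 := by
  classical
  set Ψ : Ideal (𝓞 K) → Γ := fun I =>
    if h : I = ⊥ then 1 else Φ (ClassGroup.mk0 ⟨I, mem_nonZeroDivisors_of_ne_zero h⟩) with hΨ
  have hΨ_ne : ∀ (I : Ideal (𝓞 K)) (h : I ≠ ⊥),
      Ψ I = Φ (ClassGroup.mk0 ⟨I, mem_nonZeroDivisors_of_ne_zero h⟩) := by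
    intro I h
    simp only [hΨ, dif_neg h]
  have hmul : ∀ I J : Ideal (𝓞 K), I ≠ ⊥ → J ≠ ⊥ → Ψ (I * J) = Ψ I * Ψ J := by
    intro I J hI hJ
    have hIJ : I * J ≠ ⊥ := by
      rw [← Ideal.zero_eq_bot]
      exact mul_ne_zero hI hJ
    rw [hΨ_ne _ hIJ, hΨ_ne _ hI, hΨ_ne _ hJ, ← map_mul, ← map_mul]
    rfl
  have hprinc : ∀ x : 𝓞 K, x ≠ 0 → Ψ (Ideal.span {x}) = 1 := by
    intro x hx
    have h : Ideal.span {x} ≠ (⊥ : Ideal (𝓞 K)) := by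
      rwa [Ne, Ideal.span_singleton_eq_bot]
    rw [hΨ_ne _ h]
    have : ClassGroup.mk0 ⟨Ideal.span {x}, mem_nonZeroDivisors_of_ne_zero h⟩ = 1 := by
      rw [ClassGroup.mk0_eq_one_iff]
      exact ⟨⟨x, rfl⟩⟩
    rw [this, map_one]
  have hequiv' : ∀ (σ : K ≃ₐ[ℚ] K) (𝔮 : Ideal (𝓞 K)), 𝔮.IsPrime → 𝔮 ≠ ⊥ →
      Ψ (σ • 𝔮) = Ψ 𝔮 ^ (((ω σ)⁻¹ : (ZMod p)ˣ) : ZMod p).val := by
    intro σ 𝔮 h𝔮 h0
    rw [hΨ_ne _ (smul_ideal_ne_bot σ h0), hΨ_ne _ h0]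
    exact hequiv σ 𝔮 h𝔮 h0
  obtain ⟨I, rfl⟩ := ClassGroup.mk0_surjective c
  have hI : (I : Ideal (𝓞 K)) ≠ ⊥ := nonZeroDivisors.coe_ne_zero I
  have := psi_eq_one hp2 ω hΓ Ψ hmul hprinc hequiv' hfac I hI
  rwa [hΨ_ne _ hI] at this

end Main

end Fermat.Agent.CFT.S14.Herbrand
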