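import Mathlib
import Fermat.Agent.CFT.S14.HerbrandOmegaInv

/-!
# Glue between the Jacobi-sum factorisation (degree-one primes) and `HerbrandOmegaInv`

* `exists_prime_absNorm_of_trivial_stabilizer`: a nonzero prime `𝔮` of `ℚ(ζ_p)` whose stabiliser in
  `Gal(ℚ(ζ_p)/ℚ)` is trivial has prime absolute norm `l ≠ p`.
* `psi_eq_one_cyclotomic`, `classGroupHom_eq_one_cyclotomic`: the statements of
  `HerbrandOmegaInv` for `K = ℚ(ζ_p)`, `ω = galEquivZMod p K`, with the Jacobi-sum factorisation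
  in its `absNorm 𝔮 = l` form as the only hypothesis.
-/

set_option autoImplicit false

open scoped Pointwise NumberField nonZeroDivisors
open Ideal

namespace Fermat.Agent.CFT.S14.Herbrand

/-- A nonzero prime of `ℚ(ζ_p)` with trivial stabiliser has prime norm `l ≠ p`. -/
theorem exists_prime_absNorm_of_trivial_stabilizer (p : ℕ) [Fact p.Prime] (hp2 : p ≠ 2)
    (K : Type*) [Field K] [NumberField K] [IsCyclotomicExtension {p} ℚ K]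
    (𝔮 : Ideal (𝓞 K)) [h𝔮 : 𝔮.IsPrime] (h0 : 𝔮 ≠ ⊥)
    (hstab : ∀ σ : K ≃ₐ[ℚ] K, σ • 𝔮 = 𝔮 → σ = 1) :
    ∃ l : ℕ, l.Prime ∧ l ≠ p ∧ Ideal.absNorm 𝔮 = l := by
  classical
  have hp : p.Prime := Fact.out
  have : NeZero 𝔮 := ⟨h0⟩
  have : IsGalois ℚ K := IsCyclotomicExtension.isGalois {p} ℚ K
  set l := absNorm (under ℤ 𝔮) with hl
  have hlprime : l.Prime := Nat.absNorm_under_prime 𝔮
  have : Fact l.Prime := ⟨hlprime⟩
  have hlies : 𝔮.LiesOver (span {(l : ℤ)}) := Int.liesOver_span_absNorm 𝔮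
  have : (span {(l : ℤ)}).IsPrime := by
    rw [Ideal.span_singleton_prime (by exact_mod_cast hlprime.ne_zero)]
    exact Nat.prime_iff_prime_int.mp hlprime
  -- the stabiliser has cardinality one
  have hcard : Nat.card (MulAction.stabilizer (K ≃ₐ[ℚ] K) 𝔮) = 1 := by
    rw [Nat.card_eq_one_iff_unique]
    refine ⟨⟨fun a b => ?_⟩, ⟨1⟩⟩
    ext1
    rw [hstab a.1 a.2, hstab b.1 b.2]
  rw [Ideal.card_stabilizer_eq (span {(l : ℤ)}) 𝔮] at hcard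
  have he : (span {(l : ℤ)}).ramificationIdxIn (𝓞 K) = 1 := Nat.eq_one_of_mul_eq_one_right hcard
  have hf : (span {(l : ℤ)}).inertiaDegIn (𝓞 K) = 1 := Nat.eq_one_of_mul_eq_one_left hcard
  refine ⟨l, hlprime, ?_, ?_⟩
  · rintro rfl
    have := IsCyclotomicExtension.Rat.ramificationIdxIn_eq_of_prime l K
    rw [he] at this
    have h3 : 3 ≤ l := by have := hp.two_le; omega
    omega
  · rw [← Ideal.pow_inertiaDeg l 𝔮,
      ← Ideal.inertiaDegIn_eq_inertiaDeg (span {(l : ℤ)}) 𝔮 (K ≃ₐ[ℚ] K), hf, pow_one]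

section Cyclotomic

variable (p : ℕ) [Fact p.Prime] (K : Type*) [Field K] [NumberField K]
  [IsCyclotomicExtension {p} ℚ K] {Γ : Type*} [CommGroup Γ]

/-- The shape of the Jacobi-sum factorisation for degree-one primes of `ℚ(ζ_p)`. -/
def JacobiFactorisation : Prop :=
  ∀ (𝔮 : Ideal (𝓞 K)) (l : ℕ) [Fact l.Prime], l ≠ p → Ideal.absNorm 𝔮 = l →
    ∃ J : 𝓞 K, J ≠ 0 ∧ Ideal.span {J} =
      ∏ σ ∈ Finset.univ.filter (fun σ : K ≃ₐ[ℚ] K =>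
        ((IsCyclotomicExtension.Rat.galEquivZMod p K σ : (ZMod p)ˣ) : ZMod p).val ≤ (p - 1) / 2),
        σ⁻¹ • 𝔮

variable {p K}

/-- `HerbrandOmegaInv.psi_eq_one` for `ℚ(ζ_p)` and the cyclotomic character. -/
theorem psi_eq_one_cyclotomic (hp2 : p ≠ 2) (hJac : JacobiFactorisation p K)
    (hΓ : ∀ g : Γ, g ^ p = 1)
    (Ψ : Ideal (𝓞 K) → Γ)
    (hmul : ∀ I J : Ideal (𝓞 K), I ≠ ⊥ → J ≠ ⊥ → Ψ (I * J) = Ψ I * Ψ J)
    (hprinc : ∀ x : 𝓞 K, x ≠ 0 → Ψ (Ideal.span {x}) = 1)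
    (hequiv : ∀ (σ : K ≃ₐ[ℚ] K) (𝔮 : Ideal (𝓞 K)), 𝔮.IsPrime → 𝔮 ≠ ⊥ →
      Ψ (σ • 𝔮) = Ψ 𝔮 ^
        (((IsCyclotomicExtension.Rat.galEquivZMod p K σ)⁻¹ : (ZMod p)ˣ) : ZMod p).val)
    (I : Ideal (𝓞 K)) (hI : I ≠ ⊥) : Ψ I = 1 := by
  refine psi_eq_one hp2 (IsCyclotomicExtension.Rat.galEquivZMod p K) hΓ Ψ hmul hprinc hequiv
    ?_ I hI
  intro 𝔮 h𝔮 h0 hstab
  obtain ⟨l, hl, hlp, hN⟩ := exists_prime_absNorm_of_trivial_stabilizer p hp2 K 𝔮 h0 hstab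
  have : Fact l.Prime := ⟨hl⟩
  exact hJac 𝔮 l hlp hN

/-- `HerbrandOmegaInv.classGroupHom_eq_one` for `ℚ(ζ_p)` and the cyclotomic character. -/
theorem classGroupHom_eq_one_cyclotomic (hp2 : p ≠ 2) (hJac : JacobiFactorisation p K)
    (hΓ : ∀ g : Γ, g ^ p = 1)
    (Φ : ClassGroup (𝓞 K) →* Γ)
    (hequiv : ∀ (σ : K ≃ₐ[ℚ] K) (𝔮 : Ideal (𝓞 K)) (_ : 𝔮.IsPrime) (h0 : 𝔮 ≠ ⊥),
      Φ (ClassGroup.mk0 ⟨σ • 𝔮, mem_nonZeroDivisors_of_ne_zero (smul_ideal_ne_bot σ h0)⟩) =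
        Φ (ClassGroup.mk0 ⟨𝔮, mem_nonZeroDivisors_of_ne_zero h0⟩) ^
          (((IsCyclotomicExtension.Rat.galEquivZMod p K σ)⁻¹ : (ZMod p)ˣ) : ZMod p).val)
    (c : ClassGroup (𝓞 K)) : Φ c = 1 := by
  refine classGroupHom_eq_one hp2 (IsCyclotomicExtension.Rat.galEquivZMod p K) hΓ Φ hequiv ?_ c
  intro 𝔮 h𝔮 h0 hstab
  obtain ⟨l, hl, hlp, hN⟩ := exists_prime_absNorm_of_trivial_stabilizer p hp2 K 𝔮 h0 hstab
  have : Fact l.Prime := ⟨hl⟩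
  exact hJac 𝔮 l hlp hN

end Cyclotomic

end Fermat.Agent.CFT.S14.Herbrand
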