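import Mathlib

set_option autoImplicit false

/-!
# Stickelberger's relation for degree-one primes of `ℚ(ζ_p)` via Jacobi sums

Part A: a power-sum computation in a finite field (`js_sum_pow_mul_one_sub_pow`).
Part B: for `K = ℚ(ζ_p)`, `p` odd, and a prime `q` of `𝓞 K` of prime norm `l ≠ p`, the Jacobi sum
`J = J(χ, χ)` of the `p`-th power residue character `χ` modulo `q` generates the ideal
`∏ σ⁻¹ q`, the product over the `σ ∈ Gal(K/ℚ)` with `σ ζ = ζ ^ a`, `1 ≤ a ≤ (p-1)/2`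
(`exists_span_eq_prod_smul_of_absNorm`).
-/

namespace Fermat.Agent.CFT

open Finset
open scoped Pointwise NumberField
open IsCyclotomicExtension IsCyclotomicExtension.Rat

section FiniteField

variable {F : Type*} [Field F] [Fintype F] [DecidableEq F]

/-- `∑ x, x ^ i` over a finite field, for `0 < i`. -/
theorem js_sum_pow (i : ℕ) (hi : 0 < i) :
    ∑ x : F, x ^ i = if Fintype.card F - 1 ∣ i then -1 else 0 := by
  rw [← FiniteField.sum_pow_units F i]
  let φ : Fˣ ↪ F := ⟨fun x ↦ x, Units.val_injective⟩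
  have hmap : univ.map φ = univ \ {0} := by
    ext x
    simp only [mem_map, mem_univ, Function.Embedding.coeFn_mk, true_and, mem_sdiff,
      mem_singleton, φ]
    constructor
    · rintro ⟨u, rfl⟩; exact u.ne_zero
    · intro hx; exact ⟨Units.mk0 x hx, rfl⟩
  have h1 : ∑ x : F, x ^ i = ∑ x ∈ univ \ {0}, x ^ i := by
    rw [← Finset.sum_sdiff (Finset.subset_univ ({0} : Finset F))]
    simp [zero_pow hi.ne']
  rw [h1, ← hmap, Finset.sum_map]
  rfl

/-- The power sum `∑ x, x^k (1-x)^k` over a finite field with `q` elements, `0 < k < q - 1`. -/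
theorem js_sum_pow_mul_one_sub_pow (k : ℕ) (hk : 0 < k) (hk' : k < Fintype.card F - 1) :
    ∑ x : F, x ^ k * (1 - x) ^ k =
      if Fintype.card F - 1 ≤ 2 * k then
        -((-1) ^ (Fintype.card F - 1 - k) * ((k.choose (Fintype.card F - 1 - k) : ℕ) : F))
      else 0 := by
  generalize hq1 : Fintype.card F - 1 = q1 at hk' ⊢
  have hexp : ∀ x : F, x ^ k * (1 - x) ^ k =
      ∑ j ∈ range (k + 1), ((-1) ^ j * ((k.choose j : ℕ) : F)) * x ^ (k + j) := by
    intro x
    have : (1 - x) ^ k = ∑ j ∈ range (k + 1), (-x) ^ j * 1 ^ (k - j) * ((k.choose j : ℕ) : F) := by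
      rw [sub_eq_add_neg, add_comm, add_pow]
    rw [this, Finset.mul_sum]
    refine Finset.sum_congr rfl fun j _ => ?_
    rw [one_pow, mul_one, neg_pow, pow_add]
    ring
  simp_rw [hexp]
  rw [Finset.sum_comm]
  simp_rw [← Finset.mul_sum]
  have hinner : ∀ j ∈ range (k + 1), ∑ x : F, x ^ (k + j) = if k + j = q1 then -1 else 0 := by
    intro j hj
    rw [js_sum_pow (k + j) (by omega), hq1]
    have hj' : j ≤ k := by simpa [Nat.lt_succ_iff] using hj
    by_cases h : k + j = q1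
    · simp [h]
    · rw [if_neg h, if_neg]
      rintro ⟨c, hc⟩
      rcases c with _ | _ | c
      · omega
      · omega
      · have : q1 * (c + 1 + 1) ≥ 2 * q1 := by nlinarith
        omega
  rw [Finset.sum_congr rfl fun j hj => by rw [hinner j hj]]
  split_ifs with h2k
  · rw [Finset.sum_eq_single (q1 - k)]
    · rw [if_pos (by omega)]; ring
    · intro j _ hj
      rw [if_neg (by omega), mul_zero]
    · intro hmem
      exfalso; apply hmem; rw [mem_range]; omega
  · refine Finset.sum_eq_zero fun j hj => ?_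
    have hj' : j ≤ k := by simpa [Nat.lt_succ_iff] using hj
    rw [if_neg (by omega), mul_zero]

end FiniteField

section Cyclo

variable {K : Type*} [Field K] [NumberField K]

/-- The absolute norm of an ideal is invariant under the Galois action. -/
theorem js_absNorm_smul (σ : Gal(K/ℚ)) (I : Ideal (𝓞 K)) :
    Ideal.absNorm (σ • I) = Ideal.absNorm I := by
  rw [Ideal.absNorm_apply, Ideal.absNorm_apply, Submodule.cardQuot_apply, Submodule.cardQuot_apply]
  let e : 𝓞 K ≃+* 𝓞 K := MulSemiringAction.toRingEquiv Gal(K/ℚ) (𝓞 K) σ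
  have h : σ • I = Ideal.map (e : 𝓞 K →+* 𝓞 K) I := Ideal.pointwise_smul_def I
  exact (Nat.card_congr (Ideal.quotientEquiv I (σ • I) e h).toEquiv).symm

/-- A ring hom to `ZMod ℓ` with kernel a given ideal of prime norm `ℓ`. -/
theorem js_exists_ringHom (q : Ideal (𝓞 K)) (l : ℕ) [hl : Fact l.Prime]
    (hq : Ideal.absNorm q = l) :
    ∃ π : 𝓞 K →+* ZMod l, Function.Surjective π ∧ (∀ r, π r = 0 ↔ r ∈ q) ∧
      ∀ (ζ : 𝓞 K) (n : ℕ), IsPrimitiveRoot (Ideal.Quotient.mk q ζ) n → IsPrimitiveRoot (π ζ) n := by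
  have hcard : Nat.card (𝓞 K ⧸ q) = l := by
    rw [← hq, Ideal.absNorm_apply, Submodule.cardQuot_apply]
  have hfin : Finite (𝓞 K ⧸ q) := Nat.finite_of_card_ne_zero (by rw [hcard]; exact hl.out.ne_zero)
  let _ : Fintype (𝓞 K ⧸ q) := Fintype.ofFinite _
  have hcard' : Fintype.card (𝓞 K ⧸ q) = l := by rw [Fintype.card_eq_nat_card, hcard]
  let e : ZMod l ≃+* (𝓞 K ⧸ q) := ZMod.ringEquivOfPrime _ hl.out hcard'
  refine ⟨(e.symm : (𝓞 K ⧸ q) →+* ZMod l).comp (Ideal.Quotient.mk q), ?_, fun r => ?_,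
    fun ζ n h => ?_⟩
  · exact e.symm.surjective.comp Ideal.Quotient.mk_surjective
  · simp only [RingHom.comp_apply, RingHom.coe_coe]
    rw [map_eq_zero_iff _ e.symm.injective, Ideal.Quotient.eq_zero_iff_mem]
  · simp only [RingHom.comp_apply, RingHom.coe_coe]
    exact h.map_of_injective e.symm.injective

end Cyclo

section Char

variable {R : Type*} [CommRing R] {p l : ℕ} [hp : Fact p.Prime] [hl : Fact l.Prime]

/-- Construction of the `p`-th power residue character attached to a ring hom `π : R → ZMod l`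
mapping a primitive `p`-th root of unity `ζ` to a primitive `p`-th root of unity. -/
theorem js_exists_char (π : R →+* ZMod l) {ζ : R} (hζ : IsPrimitiveRoot ζ p)
    (hπζ : IsPrimitiveRoot (π ζ) p) :
    p ∣ l - 1 ∧ ∃ χ : MulChar (ZMod l) R,
      (∀ x, π (χ x) = x ^ ((l - 1) / p)) ∧ (∀ x, x ≠ 0 → (χ x) ^ p = 1) ∧
      ∃ x : (ZMod l)ˣ, ∀ n : ℕ, (χ x) ^ n = 1 → p ∣ n := by
  have hp0 : p ≠ 0 := hp.out.ne_zero
  have hl1 : 1 ≤ l := hl.out.one_le
  -- p ∣ l - 1
  have hπζ0 : π ζ ≠ 0 := hπζ.ne_zero hp0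
  have hdvd : p ∣ l - 1 := by
    apply hπζ.dvd_of_pow_eq_one
    exact ZMod.pow_card_sub_one_eq_one hπζ0
  refine ⟨hdvd, ?_⟩
  obtain ⟨m, hm⟩ := hdvd
  have hm0 : m ≠ 0 := by
    rintro rfl
    have := hl.out.two_le
    omega
  have hdiv : (l - 1) / p = m := by rw [hm, Nat.mul_div_cancel_left _ (Nat.pos_of_ne_zero hp0)]
  rw [hdiv]
  -- generator
  obtain ⟨g, hg⟩ := IsCyclic.exists_generator (α := (ZMod l)ˣ)
  have hordg : orderOf g = l - 1 := by
    rw [orderOf_eq_card_of_forall_mem_zpowers hg, Nat.card_eq_fintype_card, ZMod.card_units_eq_totient,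
      Nat.totient_prime hl.out]
  -- g^m is a p-th root of unity
  have hgm : ((g : ZMod l) ^ m) ^ p = 1 := by
    rw [← pow_mul, mul_comm, ← hm]
    exact ZMod.pow_card_sub_one_eq_one g.ne_zero
  obtain ⟨j, hjp, hj⟩ := hπζ.eq_pow_of_pow_eq_one hgm
  -- the unit ζ
  let ζu : Rˣ := (hζ.isUnit hp0).unit
  have hζu : (ζu : R) = ζ := IsUnit.unit_spec _
  have hζup : ζu ^ p = 1 := by
    ext
    rw [Units.val_pow_eq_pow_val, hζu, hζ.pow_eq_one, Units.val_one]
  have hord : orderOf (ζu ^ j) ∣ orderOf g := by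
    rw [hordg, hm]
    refine dvd_trans (orderOf_dvd_of_pow_eq_one ?_) (dvd_mul_right p m)
    rw [← pow_mul, mul_comm, pow_mul, hζup, one_pow]
  let f : (ZMod l)ˣ →* Rˣ := monoidHomOfForallMemZpowers hg hord
  have hfg : f g = ζu ^ j := monoidHomOfForallMemZpowers_apply_gen hg hord
  have hclosure : Subgroup.closure ({g} : Set (ZMod l)ˣ) = ⊤ := by
    rw [← Subgroup.zpowers_eq_closure]
    exact (Subgroup.eq_top_iff' _).mpr hg
  -- key compatibility
  have hcompat : (Units.map (π : R →* ZMod l)).comp f = powMonoidHom m := by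
    apply MonoidHom.eq_of_eqOn_dense hclosure
    intro x hx
    rw [Set.mem_singleton_iff] at hx
    subst hx
    ext
    simp only [MonoidHom.comp_apply, hfg, powMonoidHom_apply, Units.coe_map, MonoidHom.coe_coe,
      Units.val_pow_eq_pow_val, hζu, map_pow]
    exact hj
  have hfp : (powMonoidHom p).comp f = 1 := by
    apply MonoidHom.eq_of_eqOn_dense hclosure
    intro x hx
    rw [Set.mem_singleton_iff] at hx
    subst hx
    simp only [MonoidHom.comp_apply, hfg, powMonoidHom_apply, MonoidHom.one_apply]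
    rw [← pow_mul, mul_comm, pow_mul, hζup, one_pow]
  refine ⟨MulChar.ofUnitHom f, fun x => ?_, fun x hx => ?_, g, fun n hn => ?_⟩
  · by_cases hx : x = 0
    · subst hx
      rw [MulChar.map_zero, map_zero, zero_pow hm0]
    · obtain ⟨u, rfl⟩ : ∃ u : (ZMod l)ˣ, (u : ZMod l) = x := ⟨Units.mk0 x hx, rfl⟩
      rw [MulChar.ofUnitHom_coe]
      have := congrArg (fun h : (ZMod l)ˣ →* (ZMod l)ˣ => ((h u : (ZMod l)ˣ) : ZMod l)) hcompat
      simpa using this
  · obtain ⟨u, rfl⟩ : ∃ u : (ZMod l)ˣ, (u : ZMod l) = x := ⟨Units.mk0 x hx, rfl⟩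
    rw [MulChar.ofUnitHom_coe]
    have := congrArg (fun h : (ZMod l)ˣ →* Rˣ => ((h u : Rˣ) : R)) hfp
    simpa using this
  · rw [MulChar.ofUnitHom_coe, hfg, Units.val_pow_eq_pow_val, hζu, ← pow_mul] at hn
    have h1 : p ∣ j * n := (hζ.pow_eq_one_iff_dvd _).mp hn
    have hpj : ¬ p ∣ j := by
      rintro ⟨t, rfl⟩
      rw [pow_mul, hπζ.pow_eq_one, one_pow] at hj
      have h2 : g ^ m = 1 := by
        ext
        rw [Units.val_pow_eq_pow_val, ← hj, Units.val_one]
      have h3 := orderOf_dvd_of_pow_eq_one h2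
      rw [hordg, hm] at h3
      have h4 := Nat.le_of_dvd (Nat.pos_of_ne_zero hm0) h3
      have h5 := hp.out.two_le
      have h6 : 0 < m := Nat.pos_of_ne_zero hm0
      nlinarith
    exact (hp.out.dvd_mul.mp h1).resolve_left hpj

end Char

section Main

variable (p : ℕ) [hp : Fact p.Prime] (K : Type*) [Field K] [NumberField K]
  [hK : IsCyclotomicExtension {p} ℚ K]

/-- Galois action on a Jacobi sum of a character with values in `p`-th roots of unity. -/
theorem js_smul_jacobiSum {l : ℕ} [Fact l.Prime] (χ : MulChar (ZMod l) (𝓞 K))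
    (hχ : ∀ x, x ≠ 0 → (χ x) ^ p = 1) (σ : Gal(K/ℚ)) :
    σ • jacobiSum χ χ =
      ∑ x : ZMod l, (χ x) ^ ((galEquivZMod p K σ : (ZMod p)ˣ) : ZMod p).val *
        (χ (1 - x)) ^ ((galEquivZMod p K σ : (ZMod p)ˣ) : ZMod p).val := by
  have ha0 : ((galEquivZMod p K σ : (ZMod p)ˣ) : ZMod p).val ≠ 0 := by
    rw [ZMod.val_ne_zero]
    exact Units.ne_zero _
  have key : ∀ x : ZMod l, σ • χ x = (χ x) ^ ((galEquivZMod p K σ : (ZMod p)ˣ) : ZMod p).val := by
    intro x
    by_cases hx : x = 0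
    · subst hx
      rw [MulChar.map_zero, smul_zero, zero_pow ha0]
    · exact galEquivZMod_smul_of_pow_eq p K σ (hχ x hx)
  rw [jacobiSum, Finset.smul_sum]
  refine Finset.sum_congr rfl fun x _ => ?_
  rw [smul_mul', key, key]

/-- The reduction of `σ • J(χ,χ)` vanishes when the exponent of `σ` is at most `(p-1)/2`. -/
theorem js_map_smul_jacobiSum {l : ℕ} [hl : Fact l.Prime] (π : 𝓞 K →+* ZMod l)
    (χ : MulChar (ZMod l) (𝓞 K)) (hdvd : p ∣ l - 1)
    (hχπ : ∀ x, π (χ x) = x ^ ((l - 1) / p))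
    (hχ : ∀ x, x ≠ 0 → (χ x) ^ p = 1) (σ : Gal(K/ℚ))
    (ha : ((galEquivZMod p K σ : (ZMod p)ˣ) : ZMod p).val ≤ (p - 1) / 2) :
    π (σ • jacobiSum χ χ) = 0 := by
  set a := ((galEquivZMod p K σ : (ZMod p)ˣ) : ZMod p).val with ha_def
  have ha0 : a ≠ 0 := by
    rw [ha_def, ZMod.val_ne_zero]
    exact Units.ne_zero _
  obtain ⟨m, hm⟩ := hdvd
  have hp0 : 0 < p := hp.out.pos
  have hm0 : m ≠ 0 := by
    rintro rfl
    have := hl.out.two_le
    omega
  have hdiv : (l - 1) / p = m := by rw [hm, Nat.mul_div_cancel_left _ hp0]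
  rw [hdiv] at hχπ
  rw [js_smul_jacobiSum p K χ hχ σ, map_sum]
  simp_rw [map_mul, map_pow, hχπ, ← pow_mul]
  have hcard : Fintype.card (ZMod l) = l := ZMod.card l
  have h2a : 2 * a ≤ p - 1 := by omega
  have hma : 2 * (m * a) < l - 1 := by
    rw [hm]
    have : 2 * (m * a) = m * (2 * a) := by ring
    rw [this]
    have h3 : m * (2 * a) ≤ m * (p - 1) := Nat.mul_le_mul_left m h2a
    have h4 : m * (p - 1) < p * m := by
      rw [mul_comm p m]
      exact Nat.mul_lt_mul_of_pos_left (by omega) (Nat.pos_of_ne_zero hm0)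
    omega
  rw [js_sum_pow_mul_one_sub_pow (m * a) (Nat.mul_pos (Nat.pos_of_ne_zero hm0) (Nat.pos_of_ne_zero ha0))
    (by rw [hcard]; omega), hcard, if_neg (by omega)]

omit hK in
/-- `J(χ,χ) * J(χ⁻¹,χ⁻¹) = l` in `𝓞 K`. -/
theorem js_jacobiSum_mul_inv (hp2 : p ≠ 2) {l : ℕ} [hl : Fact l.Prime] (χ : MulChar (ZMod l) (𝓞 K))
    (hgen : ∃ x : (ZMod l)ˣ, ∀ n : ℕ, (χ x) ^ n = 1 → p ∣ n) :
    jacobiSum χ χ * jacobiSum χ⁻¹ χ⁻¹ = (l : 𝓞 K) := by
  obtain ⟨g, hg⟩ := hgen
  apply FaithfulSMul.algebraMap_injective (𝓞 K) K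
  rw [map_mul, map_natCast, ← jacobiSum_ringHomComp, ← jacobiSum_ringHomComp,
    ← MulChar.ringHomComp_inv]
  have hinj : Function.Injective (algebraMap (𝓞 K) K) := FaithfulSMul.algebraMap_injective (𝓞 K) K
  have hne1 : χ.ringHomComp (algebraMap (𝓞 K) K) ≠ 1 := by
    rw [MulChar.ringHomComp_ne_one_iff hinj]
    intro h1
    have h2 : (χ g) ^ 1 = 1 := by rw [pow_one, h1, MulChar.one_apply_coe]
    have := Nat.le_of_dvd one_pos (hg 1 h2)
    have := hp.out.two_le
    omega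
  have hne2 : χ.ringHomComp (algebraMap (𝓞 K) K) * χ.ringHomComp (algebraMap (𝓞 K) K) ≠ 1 := by
    rw [← MulChar.ringHomComp_mul, MulChar.ringHomComp_ne_one_iff hinj]
    intro h1
    have h2 : (χ g) ^ 2 = 1 := by
      rw [pow_two, ← MulChar.mul_apply, h1, MulChar.one_apply_coe]
    have h3 := Nat.le_of_dvd two_pos (hg 2 h2)
    have := hp.out.two_le
    omega
  have hchar : ringChar K ≠ ringChar (ZMod l) := by
    rw [ringChar.eq_zero, ZMod.ringChar_zmod_n]
    exact hl.out.ne_zero.symm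
  have := jacobiSum_mul_jacobiSum_inv hchar hne1 hne1 hne2
  rw [this, ZMod.card]

/-- complex conjugation maps `J(χ,χ)` to `J(χ⁻¹,χ⁻¹)` -/
theorem js_conj_jacobiSum {l : ℕ} [hl : Fact l.Prime] (χ : MulChar (ZMod l) (𝓞 K))
    (hχ : ∀ x, x ≠ 0 → (χ x) ^ p = 1) :
    ((galEquivZMod p K).symm (-1)) • jacobiSum χ χ = jacobiSum χ⁻¹ χ⁻¹ := by
  have hp1 : 1 < p := hp.out.one_lt
  rw [js_smul_jacobiSum p K χ hχ, MulEquiv.apply_symm_apply, jacobiSum]
  have hval : ((-1 : (ZMod p)ˣ) : ZMod p).val = p - 1 := by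
    rw [Units.val_neg, Units.val_one]
    have : Fact (1 < p) := ⟨hp1⟩
    rw [ZMod.val_neg_of_ne_zero, ZMod.val_one]
  rw [hval]
  have key : ∀ x : ZMod l, (χ x) ^ (p - 1) = χ⁻¹ x := by
    intro x
    by_cases hx : x = 0
    · subst hx
      rw [MulChar.map_zero, MulChar.map_zero, zero_pow (by omega)]
    · rw [MulChar.inv_apply' χ x]
      have h1 : χ x * χ x⁻¹ = 1 := by
        rw [← map_mul, mul_inv_cancel₀ hx, MulChar.map_one]
      have h2 : χ x * (χ x) ^ (p - 1) = 1 := by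
        rw [← pow_succ', Nat.sub_add_cancel hp1.le, hχ x hx]
      have hu : IsUnit (χ x) := IsUnit.of_mul_eq_one _ h1
      exact hu.mul_left_cancel (h2.trans h1.symm)
  refine Finset.sum_congr rfl fun x _ => ?_
  rw [key, key]

/-- The absolute norm of the ideal generated by the Jacobi sum. -/
theorem js_absNorm_span_jacobiSum (hp2 : p ≠ 2) {l : ℕ} [hl : Fact l.Prime]
    (χ : MulChar (ZMod l) (𝓞 K)) (hχ : ∀ x, x ≠ 0 → (χ x) ^ p = 1)
    (hgen : ∃ x : (ZMod l)ˣ, ∀ n : ℕ, (χ x) ^ n = 1 → p ∣ n) :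
    Ideal.absNorm (Ideal.span {jacobiSum χ χ}) = l ^ ((p - 1) / 2) := by
  have hmul := js_jacobiSum_mul_inv p K hp2 χ hgen
  have hconj := js_conj_jacobiSum p K χ hχ
  have h1 : Ideal.span {jacobiSum χ⁻¹ χ⁻¹} =
      ((galEquivZMod p K).symm (-1)) • Ideal.span {jacobiSum χ χ} := by
    rw [Ideal.smul_closure, Set.smul_set_singleton, hconj]
  have h2 : Ideal.absNorm (Ideal.span {jacobiSum χ χ}) * Ideal.absNorm (Ideal.span {jacobiSum χ χ})
      = l ^ (p - 1) := by
    nth_rewrite 2 [← js_absNorm_smul ((galEquivZMod p K).symm (-1))]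
    rw [← h1, ← map_mul, Ideal.span_singleton_mul_span_singleton, hmul, Ideal.absNorm_span_natCast,
      NumberField.RingOfIntegers.rank,
      IsCyclotomicExtension.finrank K (Polynomial.cyclotomic.irreducible_rat hp.out.pos),
      Nat.totient_prime hp.out]
  obtain ⟨h, hh⟩ : ∃ h, p - 1 = 2 * h := by
    have := hp.out.eq_one_or_self_of_dvd 2
    rcases hp.out.eq_two_or_odd with h2 | h2
    · exact absurd h2 hp2
    · exact ⟨(p - 1) / 2, by omega⟩
  rw [hh, Nat.mul_div_cancel_left _ two_pos]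
  rw [hh, two_mul, pow_add] at h2
  exact Nat.mul_self_inj.mp h2

/-- The stabiliser of a degree one prime not above `p` is trivial. -/
theorem js_stabilizer_trivial {l : ℕ} [hl : Fact l.Prime] (q : Ideal (𝓞 K)) (π : 𝓞 K →+* ZMod l)
    (hπker : ∀ r, π r = 0 ↔ r ∈ q)
    (hπζ : IsPrimitiveRoot (π (zeta_spec p ℚ K).toInteger) p)
    (ρ : Gal(K/ℚ)) (hρ : ρ • q = q) : ρ = 1 := by
  have hp1 : 1 < p := hp.out.one_lt
  have key : ∀ r : 𝓞 K, π (ρ • r) = π r := by
    intro r
    obtain ⟨n, hn⟩ : ∃ n : ℕ, π r = n := ⟨(π r).val, (ZMod.natCast_zmod_val _).symm⟩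
    have h1 : r - (n : 𝓞 K) ∈ q := by
      rw [← hπker, map_sub, map_natCast, hn, sub_self]
    have h2 : ρ • (r - (n : 𝓞 K)) ∈ q := by
      rw [← hρ]
      exact Ideal.smul_mem_pointwise_smul ρ _ q h1
    rw [smul_sub, ← hπker, map_sub, sub_eq_zero] at h2
    rw [h2, hn]
    have : ρ • (n : 𝓞 K) = (n : 𝓞 K) := by
      have := map_natCast (MulSemiringAction.toRingHom Gal(K/ℚ) (𝓞 K) ρ) n
      rwa [MulSemiringAction.toRingHom_apply] at this
    rw [this, map_natCast]
  set ζ := (zeta_spec p ℚ K).toInteger with hζdef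
  have hζ : IsPrimitiveRoot ζ p := (zeta_spec p ℚ K).toInteger_isPrimitiveRoot
  have h3 := key ζ
  rw [galEquivZMod_smul_of_pow_eq p K ρ hζ.pow_eq_one, map_pow] at h3
  have hlt : ((galEquivZMod p K ρ : (ZMod p)ˣ) : ZMod p).val < p := ZMod.val_lt _
  have h4 : ((galEquivZMod p K ρ : (ZMod p)ˣ) : ZMod p).val = 1 :=
    hπζ.pow_inj hlt hp1 (by rw [h3, pow_one])
  have h5 : galEquivZMod p K ρ = 1 := by
    ext
    apply ZMod.val_injective p
    have : Fact (1 < p) := ⟨hp1⟩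
    rw [h4, Units.val_one, ZMod.val_one]
  exact (galEquivZMod p K).injective (by rw [h5, map_one])

/-- the number of Galois elements with exponent at most `(p-1)/2` -/
theorem js_card_filter :
    (Finset.univ.filter (fun σ : Gal(K/ℚ) =>
      ((galEquivZMod p K σ : (ZMod p)ˣ) : ZMod p).val ≤ (p - 1) / 2)).card = (p - 1) / 2 := by
  have hp1 : 1 < p := hp.out.one_lt
  have hcard : (Finset.Icc 1 ((p - 1) / 2)).card = (p - 1) / 2 := by
    rw [Nat.card_Icc]; omega
  refine Eq.trans ?_ hcard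
  refine Finset.card_bij (fun σ _ => ((galEquivZMod p K σ : (ZMod p)ˣ) : ZMod p).val) ?_ ?_ ?_
  · intro σ hσ
    rw [Finset.mem_filter] at hσ
    rw [Finset.mem_Icc]
    refine ⟨?_, hσ.2⟩
    have : ((galEquivZMod p K σ : (ZMod p)ˣ) : ZMod p).val ≠ 0 := by
      rw [ZMod.val_ne_zero]; exact Units.ne_zero _
    omega
  · intro σ _ τ _ h
    apply (galEquivZMod p K).injective
    ext
    exact ZMod.val_injective p h
  · intro a ha
    rw [Finset.mem_Icc] at ha
    have hap : a < p := by omega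
    have hcop : Nat.Coprime a p := by
      rw [Nat.coprime_comm, Nat.Prime.coprime_iff_not_dvd hp.out]
      exact Nat.not_dvd_of_pos_of_lt (by omega) hap
    refine ⟨(galEquivZMod p K).symm (ZMod.unitOfCoprime a hcop), ?_, ?_⟩
    · rw [Finset.mem_filter]
      refine ⟨Finset.mem_univ _, ?_⟩
      rw [MulEquiv.apply_symm_apply, ZMod.coe_unitOfCoprime, ZMod.val_natCast, Nat.mod_eq_of_lt hap]
      exact ha.2
    · rw [MulEquiv.apply_symm_apply, ZMod.coe_unitOfCoprime, ZMod.val_natCast, Nat.mod_eq_of_lt hap]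

end Main

section Final

variable (p : ℕ) [hp : Fact p.Prime] (K : Type*) [Field K] [NumberField K]
  [hK : IsCyclotomicExtension {p} ℚ K]

/-- **Stickelberger's relation for a degree-one prime** of `ℚ(ζ_p)`, via Jacobi sums:
the product of the conjugates `σ⁻¹ q` over the `σ` with exponent at most `(p-1)/2` is principal. -/
theorem exists_span_eq_prod_smul_of_absNorm (hp2 : p ≠ 2) (q : Ideal (𝓞 K)) (l : ℕ)
    [hl : Fact l.Prime] (hlp : l ≠ p) (hq : Ideal.absNorm q = l) :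
    ∃ J : 𝓞 K, J ≠ 0 ∧ Ideal.span {J} =
      ∏ σ ∈ Finset.univ.filter (fun σ : Gal(K/ℚ) =>
        ((galEquivZMod p K σ : (ZMod p)ˣ) : ZMod p).val ≤ (p - 1) / 2), σ⁻¹ • q := by
  classical
  obtain ⟨π, -, hπker, hπprim⟩ := js_exists_ringHom q l hq
  have hζ : IsPrimitiveRoot (zeta_spec p ℚ K).toInteger p :=
    (zeta_spec p ℚ K).toInteger_isPrimitiveRoot
  have hπζ : IsPrimitiveRoot (π (zeta_spec p ℚ K).toInteger) p := by
    apply hπprim
    apply hζ.idealQuotient_mk
    · rw [hq]; exact hl.out.one_lt.ne'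
    · rw [hq]; exact (Nat.coprime_primes hl.out hp.out).mpr hlp
  obtain ⟨hdvd, χ, hχπ, hχp, hgen⟩ := js_exists_char π hζ hπζ
  have hmul := js_jacobiSum_mul_inv p K hp2 χ hgen
  have hl0 : (l : 𝓞 K) ≠ 0 := Nat.cast_ne_zero.mpr hl.out.ne_zero
  have hJ0 : jacobiSum χ χ ≠ 0 := by
    intro h0
    rw [h0, zero_mul] at hmul
    exact hl0 hmul.symm
  refine ⟨jacobiSum χ χ, hJ0, ?_⟩
  set T := Finset.univ.filter (fun σ : Gal(K/ℚ) =>
        ((galEquivZMod p K σ : (ZMod p)ˣ) : ZMod p).val ≤ (p - 1) / 2) with hT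
  -- basic facts on `q`
  have hqprime : q.IsPrime := Ideal.isPrime_of_irreducible_absNorm (by rw [hq]; exact hl.out.prime.irreducible)
  have hnorm : ∀ σ : Gal(K/ℚ), Ideal.absNorm (σ⁻¹ • q) = l := fun σ => by rw [js_absNorm_smul, hq]
  have hne : ∀ σ : Gal(K/ℚ), σ⁻¹ • q ≠ ⊥ := by
    intro σ h
    have := hnorm σ
    rw [h, Ideal.absNorm_bot] at this
    exact hl.out.ne_zero this.symm
  have hprime : ∀ σ : Gal(K/ℚ), Prime (σ⁻¹ • q) := fun σ =>
    Ideal.prime_of_isPrime (hne σ) (Ideal.IsPrime.smul σ⁻¹)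
  have hinj : Function.Injective (fun σ : Gal(K/ℚ) => σ⁻¹ • q) := by
    intro σ τ h
    simp only at h
    have h1 : (τ * σ⁻¹) • q = q := by
      rw [mul_smul, h, smul_inv_smul]
    have h2 := js_stabilizer_trivial p K q π hπker hπζ _ h1
    have h3 : τ = σ := by
      have := congrArg (· * σ) h2
      simpa using this
    exact h3.symm
  -- the product divides `(J)`
  have hmem : ∀ σ ∈ T, σ⁻¹ • q ∣ Ideal.span {jacobiSum χ χ} := by
    intro σ hσ
    rw [hT, Finset.mem_filter] at hσ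
    rw [Ideal.dvd_span_singleton, Ideal.mem_inv_pointwise_smul_iff, ← hπker]
    exact js_map_smul_jacobiSum p K π χ hdvd hχπ hχp σ hσ.2
  have hdvdprod : ∏ σ ∈ T, σ⁻¹ • q ∣ Ideal.span {jacobiSum χ χ} := by
    have h1 : ∏ I ∈ T.image (fun σ : Gal(K/ℚ) => σ⁻¹ • q), I = ∏ σ ∈ T, σ⁻¹ • q :=
      Finset.prod_image (fun σ _ τ _ h => hinj h)
    rw [← h1]
    apply Finset.prod_primes_dvd
    · intro I hI
      obtain ⟨σ, -, rfl⟩ := Finset.mem_image.mp hI
      exact hprime σ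
    · intro I hI
      obtain ⟨σ, hσ, rfl⟩ := Finset.mem_image.mp hI
      exact hmem σ hσ
  -- norm comparison
  obtain ⟨C, hC⟩ := hdvdprod
  have hnormprod : Ideal.absNorm (∏ σ ∈ T, σ⁻¹ • q) = l ^ ((p - 1) / 2) := by
    rw [map_prod, Finset.prod_congr rfl (fun σ _ => hnorm σ), Finset.prod_const, hT,
      js_card_filter p K]
  have hnormJ := js_absNorm_span_jacobiSum p K hp2 χ hχp hgen
  have hC1 : Ideal.absNorm C = 1 := by
    have := congrArg Ideal.absNorm hC
    rw [map_mul, hnormJ, hnormprod] at this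
    have hpos : 0 < l ^ ((p - 1) / 2) := pow_pos hl.out.pos _
    exact (Nat.eq_of_mul_eq_mul_left hpos (by rw [mul_one]; exact this)).symm
  rw [hC, Ideal.absNorm_eq_one_iff.mp hC1, Ideal.mul_top]

end Final
end Fermat.Agent.CFT
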