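import Mathlib
import Fermat.Agent.CFT.Global.ArtinSymbol
import Fermat.Agent.CFT.S14.HerbrandGlue
import Fermat.Agent.CFT.S14.JacobiStick

/-!
# CFT stream [F], layer (c1): no unramified `ω⁻¹`-extension of `ℚ(ζ_p)` of degree `p`

Pure number-field statement.  `K = ℚ(ζ_p)` (`p` odd), `L/K` Galois of degree `p`, `L/ℚ` Galois,
`Gal(L/ℚ)` acting on `Gal(L/K)` by conjugation through `ω⁻¹`, `L/K` unramified at every finite
prime.  If the ideal-theoretic Artin symbol of `L/K` is trivial on principal ideals (R1), then it is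
trivial on every prime (`artinIdeal_eq_one_of_principal`); in particular (R1) and
(R3) "some prime has nontrivial Frobenius" are contradictory (`no_extension`).

The Frobenius equivariance (R2) `Frob (σ • 𝔮) = τ Frob(𝔮) τ⁻¹` is proved here from the
unramifiedness hypothesis (uniqueness of Frobenius elements).
-/

set_option autoImplicit false
set_option linter.unusedSectionVars false

open NumberField
open scoped Pointwise IsMulCommutative

namespace Fermat.Agent.CFT.S14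

section Tower

variable {K L : Type*} [Field K] [NumberField K] [Field L] [NumberField L] [Algebra K L]
  [IsScalarTower ℚ K L] [Normal ℚ K] [IsGalois K L]

/-- coercion of the Galois action on `𝓞 L` -/
theorem ne_coe_smul {F : Type*} [Field F] [Algebra F L] (τ : L ≃ₐ[F] L) (x : 𝓞 L) :
    ((τ • x : 𝓞 L) : L) = τ (x : L) := rfl

/-- `τ` acts on the image of `𝓞 K` in `𝓞 L` through its restriction to `K`. -/
theorem ne_smul_algebraMap (τ : L ≃ₐ[ℚ] L) (y : 𝓞 K) :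
    τ • (algebraMap (𝓞 K) (𝓞 L) y) = algebraMap (𝓞 K) (𝓞 L) ((τ.restrictNormal K) • y) := by
  apply RingOfIntegers.ext
  rw [ne_coe_smul]
  change τ (algebraMap K L (y : K)) = algebraMap K L (((τ.restrictNormal K) • y : 𝓞 K) : K)
  rw [ne_coe_smul]
  exact (AlgEquiv.restrictNormal_commutes τ K (y : K)).symm

theorem ne_restrictNormal_inv (τ : L ≃ₐ[ℚ] L) :
    (τ⁻¹).restrictNormal K = (τ.restrictNormal K)⁻¹ :=
  map_inv (AlgEquiv.restrictNormalHom (F := ℚ) (K₁ := L) K) τ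

/-- The prime of `𝓞 K` under `τ • Q` is the conjugate by `τ|_K` of the prime under `Q`. -/
theorem ne_under_smul (τ : L ≃ₐ[ℚ] L) (Q : Ideal (𝓞 L)) :
    (τ • Q).under (𝓞 K) = (τ.restrictNormal K) • (Q.under (𝓞 K)) := by
  ext y
  rw [Ideal.under_def, Ideal.mem_comap, Ideal.mem_pointwise_smul_iff_inv_smul_mem,
    Ideal.mem_pointwise_smul_iff_inv_smul_mem, Ideal.under_def, Ideal.mem_comap,
    ne_smul_algebraMap, ne_restrictNormal_inv]

theorem ne_card_quot_smul (σ : K ≃ₐ[ℚ] K) (𝔮 : Ideal (𝓞 K)) :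
    Nat.card (𝓞 K ⧸ (σ • 𝔮)) = Nat.card (𝓞 K ⧸ 𝔮) := by
  have h := js_absNorm_smul σ 𝔮
  rwa [Ideal.absNorm_apply, Ideal.absNorm_apply, Submodule.cardQuot_apply,
    Submodule.cardQuot_apply] at h

/-- Conjugating a Frobenius at `Q` by `τ ∈ Gal(L/ℚ)` gives a Frobenius at `τ • Q`. -/
theorem ne_isArithFrobAt_conj {g g' : L ≃ₐ[K] L} {Q : Ideal (𝓞 L)}
    (H : IsArithFrobAt (𝓞 K) g Q) (τ : L ≃ₐ[ℚ] L)
    (hg' : ∀ x : L, g' x = τ (g (τ.symm x))) :
    IsArithFrobAt (𝓞 K) g' (τ • Q) := by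
  intro x
  rw [ne_under_smul, ne_card_quot_smul, Ideal.mem_pointwise_smul_iff_inv_smul_mem, smul_sub,
    smul_pow']
  have h1 : τ⁻¹ • ((MulSemiringAction.toAlgHom (𝓞 K) (𝓞 L) g') x) = g • (τ⁻¹ • x) := by
    apply RingOfIntegers.ext
    change τ⁻¹ (g' (x : L)) = g (τ⁻¹ (x : L))
    rw [hg']
    change τ.symm (τ (g (τ.symm (x : L)))) = g (τ.symm (x : L))
    rw [AlgEquiv.symm_apply_apply]
  rw [h1]
  exact H (τ⁻¹ • x)

end Tower

section Main

variable (p : ℕ) [Fact p.Prime] {K L : Type*} [Field K] [NumberField K]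
  [IsCyclotomicExtension {p} ℚ K] [IsGalois ℚ K] [Field L] [NumberField L] [Algebra K L]
  [IsGalois K L] [IsGalois ℚ L] [IsScalarTower ℚ K L] [IsMulCommutative Gal(L/K)]

/-- **(R2)** Frobenius equivariance in the `ω⁻¹`-twisted unramified situation. -/
theorem frobOf_smul_eq_pow
    (hconj : ∀ (t : L ≃ₐ[ℚ] L) (g : L ≃ₐ[K] L) (x : L), t (g (t.symm x)) =
      (g ^ ((((IsCyclotomicExtension.Rat.galEquivZMod p K (t.restrictNormal K))⁻¹ :
        (ZMod p)ˣ) : ZMod p).val)) x)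
    (hunr : ∀ (Q : Ideal (𝓞 L)) [Q.IsPrime], Q ≠ ⊥ → Ideal.inertia Gal(L/K) Q = ⊥)
    (σ : K ≃ₐ[ℚ] K) (𝔮 : Ideal (𝓞 K)) [h𝔮 : 𝔮.IsMaximal] [hσ𝔮 : (σ • 𝔮).IsMaximal] :
    frobOf K L (σ • 𝔮) = frobOf K L 𝔮 ^
      (((IsCyclotomicExtension.Rat.galEquivZMod p K σ)⁻¹ : (ZMod p)ˣ) : ZMod p).val := by
  obtain ⟨τ, hτ⟩ := AlgEquiv.restrictNormalHom_surjective (F := ℚ) (K₁ := K) L σ
  have hτ' : τ.restrictNormal K = σ := hτ
  set Q := primeOver K L 𝔮 with hQ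
  set n := (((IsCyclotomicExtension.Rat.galEquivZMod p K σ)⁻¹ : (ZMod p)ˣ) : ZMod p).val with hn
  have H1 : IsArithFrobAt (𝓞 K) (frobOf K L 𝔮 ^ n) (τ • Q) := by
    refine ne_isArithFrobAt_conj (isArithFrobAt_frobOf K L 𝔮) τ fun x => ?_
    rw [hconj τ (frobOf K L 𝔮) x, hτ']
  have hQ0 : Q ≠ ⊥ := by
    have hmax : Q.IsMaximal := primeOver_isMaximal K L 𝔮
    exact Ring.ne_bot_of_isMaximal_of_not_isField hmax (RingOfIntegers.not_isField L)
  have hτQ0 : τ • Q ≠ ⊥ := Herbrand.smul_ideal_ne_bot τ hQ0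
  have hτQprime : (τ • Q).IsPrime := by
    rw [Ideal.pointwise_smul_eq_comap]
    exact Ideal.comap_isPrime _ _
  have hlies : (τ • Q).LiesOver (σ • 𝔮) := by
    constructor
    rw [ne_under_smul, hτ', ← (primeOver_liesOver K L 𝔮).over]
  have H2 : IsArithFrobAt (𝓞 K) (frobOf K L (σ • 𝔮)) (τ • Q) :=
    isArithFrobAt_frobOf_of_liesOver K L (σ • 𝔮) (τ • Q)
  have hmem := H2.mul_inv_mem_inertia H1
  rw [hunr (τ • Q) hτQ0, Subgroup.mem_bot] at hmem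
  exact mul_inv_eq_one.mp hmem

/-- Under (R1) the Artin symbol of the `ω⁻¹`-twisted unramified degree-`p` extension `L` of
`K = ℚ(ζ_p)` is trivial on every nonzero ideal. -/
theorem artinIdeal_eq_one_of_principal (hp2 : p ≠ 2)
    (hcard : Nat.card (L ≃ₐ[K] L) = p)
    (hconj : ∀ (t : L ≃ₐ[ℚ] L) (g : L ≃ₐ[K] L) (x : L), t (g (t.symm x)) =
      (g ^ ((((IsCyclotomicExtension.Rat.galEquivZMod p K (t.restrictNormal K))⁻¹ :
        (ZMod p)ˣ) : ZMod p).val)) x)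
    (hunr : ∀ (Q : Ideal (𝓞 L)) [Q.IsPrime], Q ≠ ⊥ → Ideal.inertia Gal(L/K) Q = ⊥)
    (R1 : ∀ x : 𝓞 K, x ≠ 0 → artinIdeal K L (Ideal.span {x}) = 1)
    (I : Ideal (𝓞 K)) (hI : I ≠ ⊥) : artinIdeal K L I = 1 := by
  have hJac : Herbrand.JacobiFactorisation p K := fun 𝔮 l _ hlp hq =>
    exists_span_eq_prod_smul_of_absNorm p K hp2 𝔮 l hlp hq
  have hΓ : ∀ g : Gal(L/K), g ^ p = 1 := fun g => by
    rw [← hcard]; exact pow_card_eq_one'
  refine Herbrand.psi_eq_one_cyclotomic hp2 hJac hΓ (artinIdeal K L)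
    (fun I J hI hJ => artinIdeal_mul K L hI hJ) R1 ?_ I hI
  intro σ 𝔮 h𝔮 h0
  have hmax : 𝔮.IsMaximal := Ideal.IsPrime.isMaximal h𝔮 h0
  have hσprime : (σ • 𝔮).IsPrime := by
    rw [Ideal.pointwise_smul_eq_comap]
    exact Ideal.comap_isPrime _ _
  have hσmax : (σ • 𝔮).IsMaximal :=
    Ideal.IsPrime.isMaximal hσprime (Herbrand.smul_ideal_ne_bot σ h0)
  rw [artinIdeal_of_isMaximal K L (σ • 𝔮), artinIdeal_of_isMaximal K L 𝔮]
  exact frobOf_smul_eq_pow p hconj hunr σ 𝔮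

/-- **(c1)** There is no everywhere unramified Galois extension `L/K`, `K = ℚ(ζ_p)`, of degree `p`,
Galois over `ℚ` with `Gal(K/ℚ)` acting on `Gal(L/K)` through `ω⁻¹`, whose Artin symbol satisfies
(R1) (trivial on principal ideals) and (R3) (nontrivial on some prime). -/
theorem no_extension (hp2 : p ≠ 2)
    (hcard : Nat.card (L ≃ₐ[K] L) = p)
    (hconj : ∀ (t : L ≃ₐ[ℚ] L) (g : L ≃ₐ[K] L) (x : L), t (g (t.symm x)) =
      (g ^ ((((IsCyclotomicExtension.Rat.galEquivZMod p K (t.restrictNormal K))⁻¹ :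
        (ZMod p)ˣ) : ZMod p).val)) x)
    (hunr : ∀ (Q : Ideal (𝓞 L)) [Q.IsPrime], Q ≠ ⊥ → Ideal.inertia Gal(L/K) Q = ⊥)
    (R1 : ∀ x : 𝓞 K, x ≠ 0 → artinIdeal K L (Ideal.span {x}) = 1)
    (R3 : ∃ 𝔮 : Ideal (𝓞 K), 𝔮.IsPrime ∧ 𝔮 ≠ ⊥ ∧ artinIdeal K L 𝔮 ≠ 1) : False := by
  obtain ⟨𝔮, -, h0, hne⟩ := R3
  exact hne (artinIdeal_eq_one_of_principal p hp2 hcard hconj hunr R1 𝔮 h0)

end Main

end Fermat.Agent.CFT.S14
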