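import Mathlib
import Fermat.Agent.CFT.Global.ArtinSymbol
import Fermat.Agent.CFT.S14.NoExtension

/-!
# CFT stream [F]: reduction of (R1) to elements prime to `p`

`K = ℚ(ζ_p)`.  The unique prime of `K` above `p` is the principal ideal `(ζ - 1)`.  If every prime
of `L` above `p` has trivial decomposition group in `Gal(L/K)` (hypothesis (S): the primes above
`p` split completely), then the Frobenius of `(ζ - 1)` is trivial, so the Artin symbol is trivial on
all principal ideals as soon as it is trivial on the principal ideals prime to `p`.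
-/

set_option autoImplicit false
set_option linter.unusedSectionVars false

open NumberField
open scoped Pointwise IsMulCommutative

namespace Fermat.Agent.CFT.S14

/-- A group of prime order is commutative (instance-free form, for assemblers). -/
theorem isMulCommutative_of_card_prime {G : Type*} [Group G] {p : ℕ} [Fact p.Prime]
    (h : Nat.card G = p) : IsMulCommutative G := by
  have : IsCyclic G := isCyclic_of_prime_card h
  exact inferInstance

section General

variable {K L : Type*} [Field K] [NumberField K] [Field L] [NumberField L] [Algebra K L]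
  [IsGalois K L]

/-- If the decomposition groups of the primes of `L` above `p` are trivial, then the Frobenius of
every maximal ideal of `𝓞 K` containing `p` is trivial. -/
theorem r1_frobOf_eq_one_of_mem (p : ℕ)
    (hS : ∀ (Q : Ideal (𝓞 L)) [Q.IsPrime], (p : 𝓞 L) ∈ Q →
      MulAction.stabilizer Gal(L/K) Q = ⊥)
    (𝔭 : Ideal (𝓞 K)) [𝔭.IsMaximal] (hp𝔭 : (p : 𝓞 K) ∈ 𝔭) : frobOf K L 𝔭 = 1 := by
  have hQ : (p : 𝓞 L) ∈ primeOver K L 𝔭 := by
    have h1 : (p : 𝓞 K) ∈ (primeOver K L 𝔭).under (𝓞 K) := by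
      rw [← (primeOver_liesOver K L 𝔭).over]; exact hp𝔭
    rw [Ideal.under_def, Ideal.mem_comap, map_natCast] at h1
    exact h1
  have hmem := (isArithFrobAt_frobOf K L 𝔭).mem_stabilizer
  rw [hS (primeOver K L 𝔭) hQ, Subgroup.mem_bot] at hmem
  exact hmem

end General

section Cyclo

variable (p : ℕ) [hp : Fact p.Prime] {K L : Type*} [Field K] [NumberField K]
  [hK : IsCyclotomicExtension {p} ℚ K] [Field L] [NumberField L] [Algebra K L]
  [IsGalois K L] [IsMulCommutative Gal(L/K)]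

/-- A prime of `𝓞 K` containing `p` lies over `(p)`. -/
theorem r1_liesOver_of_mem (q : Ideal (𝓞 K)) [hq : q.IsPrime] (hpq : (p : 𝓞 K) ∈ q) :
    q.LiesOver (Ideal.span {(p : ℤ)}) := by
  rw [Ideal.liesOver_iff]
  refine Ideal.IsMaximal.eq_of_le (Int.ideal_span_isMaximal_of_prime p) Ideal.IsPrime.ne_top' ?_
  rw [Ideal.span_singleton_le_iff_mem, Ideal.mem_comap, algebraMap_int_eq, map_natCast]
  exact hpq

/-- **Reduction of (R1)**: trivial Artin symbol on principal ideals prime to `p` + complete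
splitting above `p` ⇒ trivial Artin symbol on all nonzero principal ideals. -/
theorem R1_of_primeToP
    (hS : ∀ (Q : Ideal (𝓞 L)) [Q.IsPrime], (p : 𝓞 L) ∈ Q →
      MulAction.stabilizer Gal(L/K) Q = ⊥)
    (R1' : ∀ x : 𝓞 K, x ≠ 0 →
      (∀ (q : Ideal (𝓞 K)) [q.IsPrime], (p : 𝓞 K) ∈ q → x ∉ q) →
      artinIdeal K L (Ideal.span {x}) = 1)
    (x : 𝓞 K) (hx : x ≠ 0) : artinIdeal K L (Ideal.span {x}) = 1 := by
  have hζ : IsPrimitiveRoot (IsCyclotomicExtension.zeta p ℚ K) p :=
    IsCyclotomicExtension.zeta_spec p ℚ K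
  set π : 𝓞 K := hζ.toInteger - 1 with hπ
  have hπprime : Prime π := hζ.zeta_sub_one_prime'
  have hπ0 : π ≠ 0 := hπprime.ne_zero
  have h𝔭prime : (Ideal.span {π}).IsPrime := (Ideal.span_singleton_prime hπ0).mpr hπprime
  have h𝔭0 : Ideal.span {π} ≠ (⊥ : Ideal (𝓞 K)) := by
    rwa [Ne, Ideal.span_singleton_eq_bot]
  have h𝔭max : (Ideal.span {π}).IsMaximal := Ideal.IsPrime.isMaximal h𝔭prime h𝔭0
  have hp𝔭 : (p : 𝓞 K) ∈ Ideal.span {π} := by
    have hK' : IsCyclotomicExtension {p ^ (0 + 1)} ℚ K := by rwa [zero_add, pow_one]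
    have hζ' : IsPrimitiveRoot (IsCyclotomicExtension.zeta p ℚ K) (p ^ (0 + 1)) := by
      rwa [zero_add, pow_one]
    exact IsCyclotomicExtension.Rat.p_mem_span_zeta_sub_one p 0 hζ'
  -- the Artin symbol of `(π)` is trivial
  have h1 : artinIdeal K L (Ideal.span {π}) = 1 := by
    rw [artinIdeal_of_isMaximal K L (Ideal.span {π})]
    exact r1_frobOf_eq_one_of_mem p hS (Ideal.span {π}) hp𝔭
  -- write `x = π ^ n * a` with `π ∤ a`
  obtain ⟨n, a, hna, hxa⟩ := WfDvdMonoid.max_power_factor hx hπprime.irreducible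
  have ha0 : a ≠ 0 := by
    rintro rfl
    exact hna (dvd_zero _)
  have ha : artinIdeal K L (Ideal.span {a}) = 1 := by
    refine R1' a ha0 fun q hq hpq ha => ?_
    have hlies : q.LiesOver (Ideal.span {(p : ℤ)}) := r1_liesOver_of_mem p q hpq
    have hqeq : q = Ideal.span {π} :=
      IsCyclotomicExtension.Rat.eq_span_zeta_sub_one_of_liesOver' p K hζ q
    rw [hqeq, Ideal.mem_span_singleton] at ha
    exact hna ha
  have ha0' : Ideal.span {a} ≠ (⊥ : Ideal (𝓞 K)) := by
    rwa [Ne, Ideal.span_singleton_eq_bot]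
  rw [hxa, ← Ideal.span_singleton_mul_span_singleton, ← Ideal.span_singleton_pow,
    artinIdeal_mul K L (pow_ne_zero n h𝔭0) ha0', artinIdeal_pow K L h𝔭0, h1, ha, one_pow, one_mul]

variable [IsGalois ℚ K] [IsGalois ℚ L] [IsScalarTower ℚ K L]

/-- **(c1')** `no_extension` with (R1) only required for elements prime to `p`, given the
complete splitting (S) of the primes above `p` (the exact output shape of `HCFStar`). -/
theorem no_extension_of_primeToP (hp2 : p ≠ 2)
    (hcard : Nat.card (L ≃ₐ[K] L) = p)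
    (hconj : ∀ (t : L ≃ₐ[ℚ] L) (g : L ≃ₐ[K] L) (x : L), t (g (t.symm x)) =
      (g ^ ((((IsCyclotomicExtension.Rat.galEquivZMod p K (t.restrictNormal K))⁻¹ :
        (ZMod p)ˣ) : ZMod p).val)) x)
    (hunr : ∀ (Q : Ideal (𝓞 L)) [Q.IsPrime], Q ≠ ⊥ → Ideal.inertia Gal(L/K) Q = ⊥)
    (hS : ∀ (Q : Ideal (𝓞 L)) [Q.IsPrime], (p : 𝓞 L) ∈ Q →
      MulAction.stabilizer Gal(L/K) Q = ⊥)
    (R1' : ∀ x : 𝓞 K, x ≠ 0 →
      (∀ (q : Ideal (𝓞 K)) [q.IsPrime], (p : 𝓞 K) ∈ q → x ∉ q) →
      artinIdeal K L (Ideal.span {x}) = 1)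
    (R3 : ∃ 𝔮 : Ideal (𝓞 K), 𝔮.IsPrime ∧ 𝔮 ≠ ⊥ ∧ artinIdeal K L 𝔮 ≠ 1) : False :=
  no_extension p hp2 hcard hconj hunr (R1_of_primeToP p hS R1') R3

end Cyclo

end Fermat.Agent.CFT.S14
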