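import Mathlib
import Fermat.Agent.CFT.S14.Cocycle
import Fermat.Agent.CFT.S14.CycloField
import Fermat.Agent.CFT.S14.FieldL
import Fermat.Agent.CFT.S14.FieldLRel
import Fermat.Agent.CFT.S14.NoExtension
import Fermat.Agent.CFT.S14.R1Reduce
import Fermat.Agent.CFT.S14.CycloBridge
import Fermat.Agent.CFT.S14.HCFShape
import Fermat.Agent.CFT.S14.UnramBridge

set_option autoImplicit false
set_option linter.style.haveILetI false

open scoped NumberField Pointwise
open IntermediateField ExtCitation Fermat.Agent.CFT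

namespace Fermat.Agent.CFT.S14

local notation "Qbar" => AlgebraicClosure ℚ
local notation "GQ" => (AlgebraicClosure ℚ ≃ₐ[ℚ] AlgebraicClosure ℚ)



variable {p : ℕ} [Fact p.Prime]

/-- **S14 assembly.**  The vanishing of `Ext` (no non-split admissible extension) follows from
the class-field-theoretic input `HCFStar p` (stream [C]) and the two ideal-level lifting
properties of `UnramBridge.lean` (delivered by `InertiaLift.lean`) for finite Galois subfields
of `Qbar`. -/
theorem extVanishingCts_of_HCFStar (h3 : 3 ≤ p) (hcf : HCFStar p)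
    (hLI : ∀ Lf : IntermediateField ℚ (AlgebraicClosure ℚ), FiniteDimensional ℚ Lf →
      IsGalois ℚ Lf → LiftsInertia Lf)
    (hLD : ∀ Lf : IntermediateField ℚ (AlgebraicClosure ℚ), FiniteDimensional ℚ Lf →
      IsGalois ℚ Lf → LiftsDecomposition Lf) : ExtVanishingCts p := by
  intro V _ _ _ _ C hadm
  by_contra hns
  obtain ⟨F⟩ := exists_frame hadm
  have hNopen := isOpen_kerV hadm
  have hbridge : (cycloKf p).fixingSubgroup = kerOmega p := (kerOmega_eq_fixingSubgroup p).symm
  set Lf : IntermediateField ℚ Qbar := fixedField (kerV V) with hLf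
  have hLfix : Lf.fixingSubgroup = kerV V := fixingSubgroup_fixedField_of_isOpen _ hNopen
  have hKL : cycloKf p ≤ Lf := by
    rw [← InfiniteGalois.fixedField_fixingSubgroup (cycloKf p), hbridge]
    exact fixedField_le_of_le F.kerV_le_kerOmega
  haveI : FiniteDimensional ℚ Lf := finiteDimensional_fixedField_of_isOpen _ hNopen
  haveI : IsGalois ℚ Lf := isGalois_fixedField_of_isOpen _ hNopen
  haveI : NumberField Lf := ⟨⟩
  letI := algebraOfLE hKL
  haveI := isScalarTower_of_le hKL
  haveI : IsGalois (cycloKf p) Lf := isGalois_of_le hKL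
  have hcard : Nat.card (Lf ≃ₐ[cycloKf p] Lf) = p := by
    rw [card_gal_of_le hKL, hLfix, hbridge]
    exact F.relIndex_kerV hns
  have hconj : ∀ (t : Lf ≃ₐ[ℚ] Lf) (g : Lf ≃ₐ[cycloKf p] Lf) (x : Lf),
      t (g (t.symm x)) = (g ^ ((((IsCyclotomicExtension.Rat.galEquivZMod p (cycloKf p)
        (t.restrictNormal (cycloKf p)))⁻¹ : (ZMod p)ˣ) : ZMod p).val)) x := by
    intro t g x
    obtain ⟨s, rfl⟩ := AlgEquiv.restrictNormalHom_surjective (F := ℚ) (K₁ := Lf) Qbar t
    obtain ⟨σ, rfl⟩ := relRestrict_surjective hKL g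
    set n : ℕ := ((((IsCyclotomicExtension.Rat.galEquivZMod p (cycloKf p)
        ((AlgEquiv.restrictNormalHom (F := ℚ) (K₁ := Qbar) Lf s).restrictNormal
          (cycloKf p)))⁻¹ : (ZMod p)ˣ) : ZMod p).val) with hn
    have hσH : σ.1 ∈ kerOmega p := hbridge.le σ.2
    have hs : s * σ.1 * s⁻¹ ∈ (cycloKf p).fixingSubgroup :=
      hbridge.ge (kerOmega_normal.conj_mem _ hσH s)
    -- the exponent: `(n : ZMod p) = (ω s)⁻¹`
    have hres : (AlgEquiv.restrictNormalHom (F := ℚ) (K₁ := Qbar) Lf s).restrictNormal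
        (cycloKf p) = s.restrictNormal (cycloKf p) := by
      apply AlgEquiv.ext
      intro y
      apply Subtype.ext
      have h1 := AlgEquiv.restrictNormal_commutes
        (AlgEquiv.restrictNormalHom (F := ℚ) (K₁ := Qbar) Lf s) (cycloKf p) y
      have h2 := AlgEquiv.restrictNormal_commutes s Lf (algebraMap (cycloKf p) Lf y)
      have h3 := AlgEquiv.restrictNormal_commutes s (cycloKf p) y
      have h1' := congrArg (fun z : Lf => (z : Qbar)) h1
      exact (h1'.trans h2).trans h3.symm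
    have hnω : (n : ZMod p) = (omegaZ p s)⁻¹ := by
      haveI : NeZero p := ⟨(Fact.out : p.Prime).ne_zero⟩
      rw [hn, ZMod.natCast_zmod_val, Units.val_inv_eq_inv_val, hres, omegaZ_eq_cycloExp,
        ← galEquivZMod_restrictNormal_val p s, ZMod.natCast_zmod_val]
    -- `s σ s⁻¹ ≡ σ ^ n` modulo `kerV V`
    have key : relRestrict hKL ⟨s * σ.1 * s⁻¹, hs⟩ = relRestrict hKL σ ^ n := by
      rw [← map_pow]
      have hmem : (⟨s * σ.1 * s⁻¹, hs⟩ : (cycloKf p).fixingSubgroup)⁻¹ * σ ^ n ∈
          (relRestrict hKL).ker := by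
        rw [relRestrict_ker, Subgroup.mem_subgroupOf, hLfix]
        set h : kerOmega p := ⟨σ.1, hσH⟩ with hh
        set a : kerOmega p := ⟨s * σ.1 * s⁻¹, kerOmega_normal.conj_mem _ hσH s⟩ with ha
        have hker : a⁻¹ * h ^ n ∈ F.bH.ker := by
          rw [MonoidHom.mem_ker, map_mul, map_inv, map_pow, F.bH_apply, F.bH_apply,
            inv_mul_eq_one]
          change Multiplicative.ofAdd (F.b (s * σ.1 * s⁻¹)) = Multiplicative.ofAdd (F.b σ.1) ^ n
          rw [F.bH_conj s h, ← ofAdd_nsmul, nsmul_eq_mul, hnω]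
        rw [F.ker_bH, Subgroup.mem_subgroupOf] at hker
        exact hker
      have := (MonoidHom.mem_ker).mp hmem
      rw [map_mul, map_inv, inv_mul_eq_one] at this
      exact this
    apply Subtype.ext
    rw [← key, relRestrict_conj_apply]
    have e1 := AlgEquiv.restrictNormal_commutes s Lf
      ((relRestrict hKL σ) ((AlgEquiv.restrictNormalHom (F := ℚ) (K₁ := Qbar) Lf s).symm x))
    have e2 := relRestrict_apply hKL σ
      ((AlgEquiv.restrictNormalHom (F := ℚ) (K₁ := Qbar) Lf s).symm x)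
    have e3 : (((AlgEquiv.restrictNormalHom (F := ℚ) (K₁ := Qbar) Lf s).symm x : Lf) : Qbar) =
        s⁻¹ (x : Qbar) := by
      have : (AlgEquiv.restrictNormalHom (F := ℚ) (K₁ := Qbar) Lf s).symm =
          AlgEquiv.restrictNormalHom (F := ℚ) (K₁ := Qbar) Lf s⁻¹ := by
        rw [map_inv]
        rfl
      rw [this]
      exact AlgEquiv.restrictNormal_commutes s⁻¹ Lf x
    refine e1.trans ?_
    exact congrArg s (e2.trans (congrArg σ.1 e3))
  haveI : IsMulCommutative (Lf ≃ₐ[cycloKf p] Lf) := isMulCommutative_of_card_prime hcard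
  have hD : ∀ A : ValuationSubring Qbar, A.LiesOverPrime p →
      A.decompositionSubgroup ℚ ⊓ (cycloKf p).fixingSubgroup ≤ Lf.fixingSubgroup := by
    intro A hA
    rw [hbridge, hLfix]
    exact decomposition_inf_kerOmega_le_kerV hadm A hA
  have hI : ∀ l : ℕ, l.Prime → ∀ A : ValuationSubring Qbar, A.LiesOverPrime l →
      A.inertiaSubgroupIn ℚ ⊓ (cycloKf p).fixingSubgroup ≤ Lf.fixingSubgroup := by
    intro l hl A hA
    by_cases hlp : l = p
    · subst hlp
      refine le_trans (inf_le_inf_right _ ?_) (hD A hA)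
      rintro σ ⟨τ, -, rfl⟩
      exact τ.2
    · rw [hLfix]
      exact le_trans inf_le_left (inertia_le_kerV hadm l hl hlp A hA)
  have hU : ∀ (Q : Ideal (𝓞 Lf)) [Q.IsPrime], Q ≠ ⊥ →
      Ideal.inertia (Lf ≃ₐ[cycloKf p] Lf) Q = ⊥ := fun Q _ hQ =>
    inertia_eq_bot_of_valuationSubring hKL (hLI Lf inferInstance inferInstance) hI Q hQ
  have hS : ∀ (Q : Ideal (𝓞 Lf)) [Q.IsPrime], (p : 𝓞 Lf) ∈ Q →
      MulAction.stabilizer (Lf ≃ₐ[cycloKf p] Lf) Q = ⊥ := fun Q _ hQ =>
    stabilizer_eq_bot_of_valuationSubring hKL (hLD Lf inferInstance inferInstance) p hD Q hQ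
  have hp2 : p ≠ 2 := by omega
  obtain ⟨R1', R3⟩ := hcf (cycloKf p) Lf hcard hU hS
  exact no_extension_of_primeToP p hp2 hcard hconj hU hS R1' R3

end Fermat.Agent.CFT.S14
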