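import Mathlib
import Fermat.Agent.CFT.S14.Assembly
import Fermat.Agent.CFT.S14.InertiaLiftDischarge

/-!
# S14 assembly with the lifting properties discharged

`ExtVanishingCts p` from the single class-field-theoretic hypothesis `HCFStar p`.
-/

set_option autoImplicit false

namespace Fermat.Agent.CFT.S14

/-- **S14 from `HCFStar p` alone.** -/
theorem extVanishingCts_of_HCFStar_only {p : ℕ} [Fact p.Prime] (h3 : 3 ≤ p) (hcf : HCFStar p) :
    ExtCitation.ExtVanishingCts p :=
  extVanishingCts_of_HCFStar h3 hcf
    (fun Lf hfd hgal => @liftsInertia_of_normal Lf hfd hgal.to_normal)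
    (fun Lf hfd hgal => @liftsDecomposition_of_normal Lf hfd hgal.to_normal)

end Fermat.Agent.CFT.S14
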