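/-
`Fermat/Agent/CFT/S14/ConjFormula.lean` (helper7, stream [F], chunk (a2glue)).

The conjugation formula `t g t⁻¹ = g ^ n(t)` in `Gal(Lf/Kf)`, `n(t) = (ω t)⁻¹`, for
`Kf = Qbar^{ker ω}` and `Lf = Qbar^{ker (G_ℚ → Aut V)}`, deduced from the cocycle computation
in `Cocycle.lean`.  The fields enter only through the hypotheses `hK`, `hL`, `hχ`.
-/
import Mathlib
import Fermat.Agent.CFT.S14.Cocycle

set_option autoImplicit false

namespace Fermat.Agent.CFT.S14

open ExtCitation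

local notation "Qbar" => AlgebraicClosure ℚ
local notation "GQ" => (AlgebraicClosure ℚ ≃ₐ[ℚ] AlgebraicClosure ℚ)

variable {p : ℕ} [Fact p.Prime]
variable {V : Type} [AddCommGroup V] [Module (ZMod p) V]
  [DistribMulAction GQ V] [SMulCommClass GQ (ZMod p) V]
variable {C : Submodule (ZMod p) V}

/-- `Qbar` is an algebraic closure of `ℚ` for the default `ℚ`-algebra structure. -/
theorem conjFormula_isAlgClosure_Qbar : IsAlgClosure ℚ Qbar :=
  letI : Algebra ℚ (AlgebraicClosure ℚ) := AlgebraicClosure.instAlgebra ℚ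
  (inferInstance : IsAlgClosure ℚ (AlgebraicClosure ℚ))

/-- `b` of a power of an element of `ker ω`. -/
theorem Frame.b_pow_of_ker (F : Frame p V C) (h : GQ) (hh : omegaZ p h = 1) (n : ℕ) :
    F.b (h ^ n) = (n : ZMod p) * F.b h := by
  induction n with
  | zero => simp [F.b_one]
  | succ n ih =>
    rw [pow_succ, F.b_mul_of_ker _ _ hh, ih]
    push_cast; ring

/-- Group-level conjugation formula: `t h t⁻¹ ≡ h ^ n mod N` with `n = (ω t)⁻¹`. -/
theorem Frame.conj_mul_pow_inv_mem_kerV (F : Frame p V C) (t h : GQ) (hh : h ∈ kerOmega p) :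
    (t * h * t⁻¹) * (h ^ (((cycloChar p t)⁻¹ : (ZMod p)ˣ) : ZMod p).val)⁻¹ ∈ kerV V := by
  have hp : p.Prime := Fact.out
  haveI : NeZero p := ⟨hp.ne_zero⟩
  set n : ℕ := (((cycloChar p t)⁻¹ : (ZMod p)ˣ) : ZMod p).val with hn
  have hhω : omegaZ p h = 1 := (mem_kerOmega_iff h).mp hh
  have h1 : t * h * t⁻¹ ∈ kerOmega p := (kerOmega_normal (p := p)).conj_mem h hh t
  have h2 : (h ^ n)⁻¹ ∈ kerOmega p := (kerOmega p).inv_mem ((kerOmega p).pow_mem hh n)
  rw [F.mem_kerV_iff]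
  refine ⟨(kerOmega p).mul_mem h1 h2, ?_⟩
  rw [F.b_mul_of_ker _ _ ((mem_kerOmega_iff _).mp h2), F.b_conj t h hhω, F.b_inv,
    F.b_pow_of_ker h hhω]
  have h3 : omegaZ p (h ^ n) = 1 := (mem_kerOmega_iff _).mp ((kerOmega p).pow_mem hh n)
  rw [h3, inv_one, one_mul]
  have h4 : ((n : ℕ) : ZMod p) = (omegaZ p t)⁻¹ := by
    rw [hn, ZMod.natCast_val, ZMod.cast_id', id]
    unfold omegaZ
    rw [Units.val_inv_eq_inv_val]
  rw [h4]; ring

/-- **Conjugation formula** in `Gal(Lf/Kf)`. -/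
theorem conj_formula (F : Frame p V C)
    (Kf Lf : IntermediateField ℚ Qbar) [Normal ℚ Kf] [Normal ℚ Lf]
    [Algebra Kf Lf] [IsScalarTower ℚ Kf Lf] [IsScalarTower Kf Lf Qbar]
    (hK : Kf.fixingSubgroup = kerOmega p) (hL : Lf.fixingSubgroup = kerV V)
    (χ : (Kf ≃ₐ[ℚ] Kf) → (ZMod p)ˣ)
    (hχ : ∀ s : GQ, χ (s.restrictNormal Kf) = cycloChar p s)
    (t : Lf ≃ₐ[ℚ] Lf) (g : Lf ≃ₐ[Kf] Lf) (x : Lf) :
    t (g (t.symm x)) = (g ^ (((χ (t.restrictNormal Kf))⁻¹ : (ZMod p)ˣ) : ZMod p).val) x := by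
  haveI : IsAlgClosure ℚ Qbar := conjFormula_isAlgClosure_Qbar
  obtain ⟨t', rfl⟩ := AlgEquiv.restrictNormalHom_surjective (F := ℚ) (K₁ := Lf) Qbar t
  obtain ⟨g', hg'⟩ := AlgEquiv.restrictNormalHom_surjective (F := ℚ) (K₁ := Lf) Qbar
    (g.restrictScalars ℚ)
  -- `g'` fixes `Kf`
  have hg'K : g' ∈ kerOmega p := by
    rw [← hK, IntermediateField.mem_fixingSubgroup_iff]
    intro k hk
    have e1 : k = algebraMap Lf Qbar (algebraMap Kf Lf ⟨k, hk⟩) := by
      rw [← IsScalarTower.algebraMap_apply]; rfl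
    have e2 : g' (algebraMap Lf Qbar (algebraMap Kf Lf ⟨k, hk⟩)) =
        algebraMap Lf Qbar (g (algebraMap Kf Lf ⟨k, hk⟩)) := by
      rw [← AlgEquiv.restrictNormal_commutes g' Lf]
      have : AlgEquiv.restrictNormal g' Lf = g.restrictScalars ℚ := hg'
      rw [this]; rfl
    rw [e1, e2, g.commutes]
  -- the character
  have hχt : χ ((AlgEquiv.restrictNormalHom Lf t').restrictNormal Kf) = cycloChar p t' := by
    rw [← hχ t']
    congr 1
    exact (IsScalarTower.AlgEquiv.restrictNormalHom_comp_apply (F := ℚ) (K₃ := Qbar)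
      Kf Lf t').symm
  rw [hχt]
  set n : ℕ := (((cycloChar p t')⁻¹ : (ZMod p)ˣ) : ZMod p).val with hn
  have hmem := F.conj_mul_pow_inv_mem_kerV t' g' hg'K
  have hker : (AlgEquiv.restrictNormalHom (F := ℚ) (K₁ := Qbar) Lf).ker = Lf.fixingSubgroup :=
    @IntermediateField.restrictNormalHom_ker _ _ _ _ _ Lf ‹_›
  rw [← hn, ← hL, ← hker, MonoidHom.mem_ker, map_mul, map_inv,
    mul_inv_eq_one, map_mul, map_mul, map_inv, map_pow, hg'] at hmem
  have h5 := congrArg (fun s : Lf ≃ₐ[ℚ] Lf => s x) hmem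
  simp only [AlgEquiv.mul_apply] at h5
  have h6 : ∀ (m : ℕ) (y : Lf), ((g.restrictScalars ℚ) ^ m) y = (g ^ m) y := by
    intro m
    induction m with
    | zero => intro y; rfl
    | succ m ih =>
      intro y
      rw [pow_succ, pow_succ, AlgEquiv.mul_apply, AlgEquiv.mul_apply, ih]
      rfl
  rw [h6] at h5
  rw [← h5]
  rfl

/-- Variant of `conj_formula` with the compatibility hypothesis in the `.val = cycloExp` form. -/
theorem conj_formula' (F : Frame p V C)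
    (Kf Lf : IntermediateField ℚ Qbar) [Normal ℚ Kf] [Normal ℚ Lf]
    [Algebra Kf Lf] [IsScalarTower ℚ Kf Lf] [IsScalarTower Kf Lf Qbar]
    (hK : Kf.fixingSubgroup = kerOmega p) (hL : Lf.fixingSubgroup = kerV V)
    (χ : (Kf ≃ₐ[ℚ] Kf) → (ZMod p)ˣ)
    (hχ : ∀ s : GQ, ((χ (s.restrictNormal Kf) : (ZMod p)ˣ) : ZMod p).val = cycloExp p s)
    (t : Lf ≃ₐ[ℚ] Lf) (g : Lf ≃ₐ[Kf] Lf) (x : Lf) :
    t (g (t.symm x)) = (g ^ (((χ (t.restrictNormal Kf))⁻¹ : (ZMod p)ˣ) : ZMod p).val) x := by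
  have hp : p.Prime := Fact.out
  haveI : NeZero p := ⟨hp.ne_zero⟩
  refine conj_formula F Kf Lf hK hL χ (fun s => ?_) t g x
  apply Units.ext
  apply ZMod.val_injective p
  rw [hχ s, val_cycloChar]

/-- `kerOmega` in terms of `cycloExp`. -/
theorem conjFormula_mem_kerOmega_iff_cycloExp (s : GQ) : s ∈ kerOmega p ↔ cycloExp p s = 1 := by
  have hp : p.Prime := Fact.out
  haveI : NeZero p := ⟨hp.ne_zero⟩
  haveI : Fact (1 < p) := ⟨hp.one_lt⟩
  rw [mem_kerOmega_iff, ← val_cycloChar]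
  unfold omegaZ
  constructor
  · intro h; rw [h, ZMod.val_one]
  · intro h
    apply ZMod.val_injective p
    rw [h, ZMod.val_one]

end Fermat.Agent.CFT.S14
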