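/-
`Fermat/Agent/CFT/S14/Fields.lean` (helper7, stream [F], chunk (a2)).

The fields attached to an admissible extension `V`:
`Kf = cycloKf p = ℚ(ζ_p)` (helper21) and `Lf = fieldLf V = Qbar^{ker (G_ℚ → Aut V)}`.
We collect everything the number-field consumer (`no_extension_of_primeToP`, helper6) asks about
`Lf / Kf` except the ramification statements: finite Galois, `#Gal(Lf/Kf) = p` in the non-split
case, the conjugation formula, commutativity.
-/
import Mathlib
import Fermat.Agent.CFT.S14.Cocycle
import Fermat.Agent.CFT.S14.ConjFormula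
import Fermat.Agent.CFT.S14.CycloField
import Fermat.Agent.CFT.S14.CycloBridge
import Fermat.Agent.CFT.S14.FieldL
import Fermat.Agent.CFT.S14.FieldLRel

set_option autoImplicit false

namespace Fermat.Agent.CFT.S14

open ExtCitation IntermediateField

local notation "Qbar" => AlgebraicClosure ℚ
local notation "GQ" => (AlgebraicClosure ℚ ≃ₐ[ℚ] AlgebraicClosure ℚ)

variable {p : ℕ} [Fact p.Prime]
variable {V : Type} [AddCommGroup V] [Module (ZMod p) V]
  [DistribMulAction GQ V] [SMulCommClass GQ (ZMod p) V]
variable {C : Submodule (ZMod p) V}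

/-- The fixing subgroup of `ℚ(ζ_p)` is `ker ω`. -/
theorem fixingSubgroup_cycloKf : (cycloKf p).fixingSubgroup = kerOmega p :=
  (kerOmega_eq_fixingSubgroup p).symm

/-- The field cut out by `V`: the fixed field of the kernel of the action. -/
noncomputable def fieldLf (V : Type) [AddCommGroup V] [DistribMulAction GQ V] :
    IntermediateField ℚ Qbar :=
  IntermediateField.fixedField (kerV V)

section

variable (hadm : IsAdmissibleExtensionCts p V C)

include hadm

omit [SMulCommClass GQ (ZMod p) V] in
theorem fixingSubgroup_fieldLf : (fieldLf V).fixingSubgroup = kerV V :=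
  fixingSubgroup_fixedField_of_isOpen (kerV V) (isOpen_kerV hadm)

omit [SMulCommClass GQ (ZMod p) V] in
theorem fieldLf_finiteDimensional : FiniteDimensional ℚ (fieldLf V) :=
  finiteDimensional_fixedField_of_isOpen (kerV V) (isOpen_kerV hadm)

omit [SMulCommClass GQ (ZMod p) V] in
theorem fieldLf_isGalois : IsGalois ℚ (fieldLf V) :=
  isGalois_fixedField_of_isOpen (kerV V) (isOpen_kerV hadm)

omit [SMulCommClass GQ (ZMod p) V] in
theorem fieldLf_numberField : NumberField (fieldLf V) :=
  haveI := fieldLf_finiteDimensional hadm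
  ⟨⟩

/-- `ℚ(ζ_p) ⊆ Lf`. -/
theorem cycloKf_le_fieldLf : cycloKf p ≤ fieldLf V := by
  obtain ⟨F⟩ := exists_frame hadm
  have h1 : kerV V ≤ (cycloKf p).fixingSubgroup := by
    rw [fixingSubgroup_cycloKf]; exact F.kerV_le_kerOmega
  have h2 : IntermediateField.fixedField (cycloKf p).fixingSubgroup ≤ fieldLf V :=
    IntermediateField.fixedField_antitone h1
  rwa [InfiniteGalois.fixedField_fixingSubgroup] at h2

/-- In the non-split case `[Lf : Kf] = #Gal(Lf/Kf) = p`. -/
theorem card_gal_fieldLf (hns : ¬ SplitsGlobally C) :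
    letI := algebraOfLE (cycloKf_le_fieldLf hadm)
    Nat.card (fieldLf V ≃ₐ[cycloKf p] fieldLf V) = p := by
  obtain ⟨F⟩ := exists_frame hadm
  have key := @card_gal_of_le ℚ Qbar _ _ _ _ (cycloKf p) (fieldLf V) (cycloKf_le_fieldLf hadm)
    (isGalois_fixedField_of_isOpen (kerV V) (isOpen_kerV hadm)).to_normal
  rw [key, fixingSubgroup_fieldLf hadm, fixingSubgroup_cycloKf, F.relIndex_kerV hns]

/-- The conjugation formula for `Lf / Kf`, in the shape of `no_extension` (helper6). -/
theorem conj_fieldLf :
    letI := algebraOfLE (cycloKf_le_fieldLf hadm)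
    haveI := isScalarTower_of_le (cycloKf_le_fieldLf hadm)
    haveI := fieldLf_isGalois hadm
    ∀ (t : fieldLf V ≃ₐ[ℚ] fieldLf V) (g : fieldLf V ≃ₐ[cycloKf p] fieldLf V) (x : fieldLf V),
      t (g (t.symm x)) =
        (g ^ ((((IsCyclotomicExtension.Rat.galEquivZMod p (cycloKf p)
          (t.restrictNormal (cycloKf p)))⁻¹ : (ZMod p)ˣ) : ZMod p).val)) x := by
  letI := algebraOfLE (cycloKf_le_fieldLf hadm)
  haveI := isScalarTower_of_le (cycloKf_le_fieldLf hadm)
  haveI := isScalarTower_of_le' (cycloKf_le_fieldLf hadm)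
  haveI := fieldLf_isGalois hadm
  obtain ⟨F⟩ := exists_frame hadm
  intro t g x
  exact conj_formula' F (cycloKf p) (fieldLf V) fixingSubgroup_cycloKf
    (fixingSubgroup_fieldLf hadm) (IsCyclotomicExtension.Rat.galEquivZMod p (cycloKf p))
    (fun s => galEquivZMod_restrictNormal_val p s) t g x

end

end Fermat.Agent.CFT.S14
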