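/-
`Fermat/Agent/CFT/S14/PreAssembly.lean` (helper7, stream [F]).

Instance-level compatibility check + reduction: for a non-split admissible extension `V`, the
fields `Kf = cycloKf p`, `Lf = fieldLf V` satisfy all the hypotheses of helper6's
`no_extension_of_primeToP` except the arithmetic ones (U), (S), (R1'), (R3), which remain
as hypotheses here.
-/
import Fermat.Agent.CFT.S14.Fields
import Fermat.Agent.CFT.S14.R1Reduce

set_option autoImplicit false

namespace Fermat.Agent.CFT.S14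

open ExtCitation IntermediateField NumberField
open scoped Pointwise

local notation "Qbar" => AlgebraicClosure ℚ
local notation "GQ" => (AlgebraicClosure ℚ ≃ₐ[ℚ] AlgebraicClosure ℚ)

variable {p : ℕ} [Fact p.Prime]
variable {V : Type} [AddCommGroup V] [Module (ZMod p) V]
  [DistribMulAction GQ V] [SMulCommClass GQ (ZMod p) V]
variable {C : Submodule (ZMod p) V}

theorem isMulCommutative_of_card_eq_prime {G : Type*} [Group G] (hG : Nat.card G = p) :
    IsMulCommutative G := by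
  have hp : p.Prime := Fact.out
  haveI : IsCyclic G := isCyclic_of_prime_card hG
  exact ⟨⟨IsCyclic.commGroup.mul_comm⟩⟩

theorem false_of_not_splits_aux (hp2 : p ≠ 2) (hadm : IsAdmissibleExtensionCts p V C)
    (hns : ¬ SplitsGlobally C) :
    letI := algebraOfLE (cycloKf_le_fieldLf hadm)
    haveI := fieldLf_numberField hadm
    haveI : IsGalois (cycloKf p) (fieldLf V) :=
      @isGalois_of_le ℚ Qbar _ _ _ _ (cycloKf p) (fieldLf V) (cycloKf_le_fieldLf hadm)
        (isGalois_fixedField_of_isOpen (kerV V) (isOpen_kerV hadm))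
    haveI : IsMulCommutative (fieldLf V ≃ₐ[cycloKf p] fieldLf V) :=
      isMulCommutative_of_card_eq_prime (p := p) (card_gal_fieldLf hadm hns)
    (∀ (Q : Ideal (𝓞 (fieldLf V))) [Q.IsPrime], Q ≠ ⊥ →
      Ideal.inertia (fieldLf V ≃ₐ[cycloKf p] fieldLf V) Q = ⊥) →
    (∀ (Q : Ideal (𝓞 (fieldLf V))) [Q.IsPrime], (p : 𝓞 (fieldLf V)) ∈ Q →
      MulAction.stabilizer (fieldLf V ≃ₐ[cycloKf p] fieldLf V) Q = ⊥) →
    (∀ x : 𝓞 (cycloKf p), x ≠ 0 →
      (∀ (q : Ideal (𝓞 (cycloKf p))) [q.IsPrime], (p : 𝓞 (cycloKf p)) ∈ q → x ∉ q) →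
      artinIdeal (cycloKf p) (fieldLf V) (Ideal.span {x}) = 1) →
    (∃ 𝔮 : Ideal (𝓞 (cycloKf p)), 𝔮.IsPrime ∧ 𝔮 ≠ ⊥ ∧
      artinIdeal (cycloKf p) (fieldLf V) 𝔮 ≠ 1) → False := by
  letI := algebraOfLE (cycloKf_le_fieldLf hadm)
  haveI := fieldLf_numberField hadm
  haveI : IsGalois (cycloKf p) (fieldLf V) :=
    @isGalois_of_le ℚ Qbar _ _ _ _ (cycloKf p) (fieldLf V) (cycloKf_le_fieldLf hadm)
      (isGalois_fixedField_of_isOpen (kerV V) (isOpen_kerV hadm))
  haveI : IsMulCommutative (fieldLf V ≃ₐ[cycloKf p] fieldLf V) :=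
    isMulCommutative_of_card_eq_prime (p := p) (card_gal_fieldLf hadm hns)
  haveI := fieldLf_isGalois hadm
  haveI := isScalarTower_of_le (cycloKf_le_fieldLf hadm)
  intro hunr hS R1' R3
  exact no_extension_of_primeToP p hp2 (card_gal_fieldLf hadm hns) (conj_fieldLf hadm) hunr hS R1' R3

end Fermat.Agent.CFT.S14
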