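import Fermat.Agent.CFT.S14.PreAssembly
import Fermat.Agent.CFT.S14.UnramBridge

/-!
# (a3) applied to the admissible extension `V` (helper25, stream [F])

`false_of_not_splits_of_lifts`: helper7's `false_of_not_splits_aux` with (U) and (S) discharged
by `UnramBridge.lean` (fed with `inertia_le_kerV`, `decomposition_inf_kerOmega_le_kerV`), so that
the only remaining inputs are the ideal-level lifting properties (`InertiaLift.lean`) and the
class-field-theoretic (R1'), (R3).
-/

set_option autoImplicit false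

namespace Fermat.Agent.CFT.S14

open ExtCitation IntermediateField NumberField
open scoped Pointwise

local notation "Qbar" => AlgebraicClosure ℚ
local notation "GQ" => (AlgebraicClosure ℚ ≃ₐ[ℚ] AlgebraicClosure ℚ)

variable {p : ℕ} [Fact p.Prime]
variable {V : Type} [AddCommGroup V] [Module (ZMod p) V]
  [DistribMulAction GQ V] [SMulCommClass GQ (ZMod p) V]
variable {C : Submodule (ZMod p) V}

theorem false_of_not_splits_of_lifts (hp2 : p ≠ 2) (hadm : IsAdmissibleExtensionCts p V C)
    (hns : ¬ SplitsGlobally C)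
    (hliftI : LiftsInertia (fieldLf V)) (hliftD : LiftsDecomposition (fieldLf V)) :
    letI := algebraOfLE (cycloKf_le_fieldLf hadm)
    haveI := fieldLf_numberField hadm
    haveI : IsGalois (cycloKf p) (fieldLf V) :=
      @isGalois_of_le ℚ Qbar _ _ _ _ (cycloKf p) (fieldLf V) (cycloKf_le_fieldLf hadm)
        (isGalois_fixedField_of_isOpen (kerV V) (isOpen_kerV hadm))
    haveI : IsMulCommutative (fieldLf V ≃ₐ[cycloKf p] fieldLf V) :=
      isMulCommutative_of_card_eq_prime (p := p) (card_gal_fieldLf hadm hns)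
    (∀ x : 𝓞 (cycloKf p), x ≠ 0 →
      (∀ (q : Ideal (𝓞 (cycloKf p))) [q.IsPrime], (p : 𝓞 (cycloKf p)) ∈ q → x ∉ q) →
      artinIdeal (cycloKf p) (fieldLf V) (Ideal.span {x}) = 1) →
    (∃ 𝔮 : Ideal (𝓞 (cycloKf p)), 𝔮.IsPrime ∧ 𝔮 ≠ ⊥ ∧
      artinIdeal (cycloKf p) (fieldLf V) 𝔮 ≠ 1) → False := by
  intro R1' R3
  refine false_of_not_splits_aux hp2 hadm hns ?_ ?_ R1' R3
  · intro Q _ hQ
    refine inertia_eq_bot_of_valuationSubring' (cycloKf_le_fieldLf hadm) hliftI p ?_ ?_ Q hQ
    · intro l hl hlp A hA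
      rw [fixingSubgroup_fieldLf hadm]
      exact inf_le_left.trans (inertia_le_kerV hadm l hl hlp A hA)
    · intro A hA
      rw [fixingSubgroup_fieldLf hadm, fixingSubgroup_cycloKf]
      exact decomposition_inf_kerOmega_le_kerV hadm A hA
  · intro Q _ hpQ
    refine stabilizer_eq_bot_of_valuationSubring (cycloKf_le_fieldLf hadm) hliftD p ?_ Q hpQ
    intro A hA
    rw [fixingSubgroup_fieldLf hadm, fixingSubgroup_cycloKf]
    exact decomposition_inf_kerOmega_le_kerV hadm A hA

end Fermat.Agent.CFT.S14
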